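import Fermat.Agent.ML.ESide.Norm
import Fermat.Agent.ML.Main.Ctx

/-!
# ML / E-side : the residual context `MCtx` of a semistable curve `W` and an odd prime `p`

`ResCtx.toMCtx`, `exists_mctx` : **[E-RES]** in the form asked by MAIN: for every finite set `T` containing `2`, `p` and the
bad primes of `W` there is a basis `b` of `W[p]` with `MCtx p T W.apOfModel (rbarB b)`.
`badT W p` : the canonical smallest `T`.
-/

set_option autoImplicit false

namespace Fermat.Agent.ML.ESide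

local notation "Qbar" => AlgebraicClosure ℚ
local notation "GQ" => (AlgebraicClosure ℚ ≃ₐ[ℚ] AlgebraicClosure ℚ)
local notation "M₂" => Matrix (Fin 2) (Fin 2)

variable {W : WeierstrassCurve ℤ} {p : ℕ} [Fact p.Prime]

theorem ResCtx.toMCtx {T : Finset ℕ} {θ : ℕ → ℤ} {rbar0 : GQ →* M₂ (ZMod p)}
    (C : ResCtx p T θ rbar0) (h2 : 2 ∈ T) (hpT : p ∈ T) : MCtx p T θ rbar0 where
  hp2 := C.hp2
  two_mem := h2
  p_mem := hpT
  cont := C.cont
  det := C.det
  frob := C.frob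
  nf := C.nf
  unramT := C.unramT
  unipI := C.unip
  noLine := C.noLine
  nonEis := by
    intro S M₀ hM₀
    obtain ⟨l, hl, hl1, hlS, hne⟩ := C.nonEis M₀ hM₀ S
    exact ⟨⟨l, hl⟩, hl1, by simpa using hlS, hne⟩

/-- **[E-RES]**, MAIN's form. -/
theorem exists_mctx (hΔ : W.Δ ≠ 0) (hss : W.IsSemistableModel) (hp2 : p ≠ 2)
    (hirr : W.ModRepIsIrreducible p) (T : Finset ℕ) (h2 : 2 ∈ T) (hpT : p ∈ T)
    (hT : ∀ r : ℕ, r.Prime → r ∉ T → W.IsGoodPrimeFor r) :
    ∃ b : Module.Basis (Fin 2) (ZMod p) (TorsW W p), MCtx p T W.apOfModel (rbarB b) := by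
  obtain ⟨b, hb⟩ := exists_resCtx (W := W) (p := p) hΔ hss hp2 hirr T
    (fun r hr hrT => ⟨hT r hr hrT, fun h => hrT (h ▸ hpT)⟩)
  exact ⟨b, hb.toMCtx h2 hpT⟩

/-- the primes `2`, `p` and the prime divisors of `Δ`. -/
noncomputable def badT (W : WeierstrassCurve ℤ) (p : ℕ) : Finset ℕ :=
  insert 2 (insert p W.Δ.natAbs.primeFactors)

theorem two_mem_badT (W : WeierstrassCurve ℤ) (p : ℕ) : 2 ∈ badT W p := by simp [badT]

theorem p_mem_badT (W : WeierstrassCurve ℤ) (p : ℕ) : p ∈ badT W p := by simp [badT]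

theorem good_of_not_mem_badT (hΔ : W.Δ ≠ 0) {p r : ℕ} (hr : r.Prime) (h : r ∉ badT W p) :
    W.IsGoodPrimeFor r := by
  intro hd
  apply h
  simp only [badT, Finset.mem_insert, Nat.mem_primeFactors]
  exact Or.inr (Or.inr ⟨hr, Int.natCast_dvd.1 hd, by simpa using hΔ⟩)

theorem exists_mctx_badT (hΔ : W.Δ ≠ 0) (hss : W.IsSemistableModel) (hp2 : p ≠ 2)
    (hirr : W.ModRepIsIrreducible p) :
    ∃ b : Module.Basis (Fin 2) (ZMod p) (TorsW W p), MCtx p (badT W p) W.apOfModel (rbarB b) :=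
  exists_mctx hΔ hss hp2 hirr _ (two_mem_badT W p) (p_mem_badT W p)
    (fun _ hr h => good_of_not_mem_badT hΔ hr h)

end Fermat.Agent.ML.ESide
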