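import Fermat.Agent.S13.LocP
import Fermat.Agent.S05.GoodRed
import Fermat.Agent.S05.Congr

/-!
# ML / E-side / [E-FLAT] : points outside the kernel of reduction (valued field part)

`K` a field, `A` a valuation subring, `W` a Weierstrass curve over `K` with integral coefficients and unit discriminant.
`S13.InE1 A S` : `S = 0` or `x(S) ∉ A` (the kernel of reduction, a subgroup by `S13.InE1.add`).

* `not_inE1_of_nsmul` : `n S ∉ E₁ ⟹ S ∉ E₁`;
* `val_xc_sub_eq_one` : `S₁, S₂, S₁ - S₂, S₁ + S₂ ∉ E₁ ⟹ x(S₁) - x(S₂)` is a unit of `A`;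
* `xc_add_of_ne`, `yc_add_of_ne` : the chord formulas in terms of `xc`, `yc`.
-/

set_option autoImplicit false

namespace Fermat.Agent.ML.ESide

open WeierstrassCurve WeierstrassCurve.Affine WeierstrassCurve.Affine.Point
open Fermat.Agent.S05 Fermat.Agent.S13

variable {K : Type*} [Field K] [DecidableEq K] {A : ValuationSubring K}
  {W : WeierstrassCurve.Affine K}

theorem not_inE1_of_nsmul (I : IntData A W) {S : W.Point} (n : ℕ) (h : ¬ InE1 A (n • S)) :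
    ¬ InE1 A S := by
  obtain ⟨hb₂, hb₄, hb₆, hb₈⟩ := b_mem A I.h₁ I.h₂ I.h₃ I.h₄ I.h₆
  exact fun hS => h (hS.nsmul hb₂ hb₄ hb₆ hb₈ n)

omit [DecidableEq K] in
theorem ne_zero_of_not_inE1 {S : W.Point} (h : ¬ InE1 A S) : S ≠ 0 := fun h0 => h (Or.inl h0)

omit [DecidableEq K] in
theorem xc_mem_of_not_inE1 {S : W.Point} (h : ¬ InE1 A S) : xc S ∈ A := by
  by_contra hx
  exact h (Or.inr hx)

omit [DecidableEq K] in
theorem yc_mem_of_not_inE1 (I : IntData A W) {S : W.Point} (h : ¬ InE1 A S) : yc S ∈ A := by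
  rw [← A.valuation_le_one_iff]
  exact y_integral A I.h₁ I.h₂ I.h₃ I.h₄ I.h₆ (ne_zero_of_not_inE1 h)
    ((A.valuation_le_one_iff _).2 (xc_mem_of_not_inE1 h))

/-- the difference of the `x`-coordinates is a unit. -/
theorem val_xc_sub_eq_one (I : IntData A W) (hΔ : A.valuation W.Δ = 1) {S₁ S₂ : W.Point}
    (h₁ : ¬ InE1 A S₁) (h₂ : ¬ InE1 A S₂) (hs : ¬ InE1 A (S₁ - S₂)) (ha : ¬ InE1 A (S₁ + S₂)) :
    A.valuation (xc S₁ - xc S₂) = 1 := by
  have le1 : ∀ {z : K}, z ∈ A → A.valuation z ≤ 1 := fun hz => (A.valuation_le_one_iff _).2 hz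
  have hx₁ := xc_mem_of_not_inE1 h₁
  have hx₂ := xc_mem_of_not_inE1 h₂
  have hy₁ := yc_mem_of_not_inE1 I h₁
  have hy₂ := yc_mem_of_not_inE1 I h₂
  have h10 := ne_zero_of_not_inE1 h₁
  have h20 := ne_zero_of_not_inE1 h₂
  refine le_antisymm (le1 (sub_mem hx₁ hx₂)) (not_lt.1 fun hlt => ?_)
  have e1 := (equation_iff _ _).1 (nonsingular_xc_yc h10).1
  have e2 := (equation_iff _ _).1 (nonsingular_xc_yc h20).1
  have hprod : (yc S₁ - yc S₂) * (yc S₁ - W.negY (xc S₂) (yc S₂)) =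
      (xc S₁ - xc S₂) * (xc S₁ ^ 2 + xc S₁ * xc S₂ + xc S₂ ^ 2 + W.a₂ * (xc S₁ + xc S₂) + W.a₄
        - W.a₁ * yc S₁) := by
    rw [negY]
    linear_combination e1 - e2
  have hc : xc S₁ ^ 2 + xc S₁ * xc S₂ + xc S₂ ^ 2 + W.a₂ * (xc S₁ + xc S₂) + W.a₄
      - W.a₁ * yc S₁ ∈ A :=
    sub_mem (A.add_mem _ _ (A.add_mem _ _ (A.add_mem _ _ (A.add_mem _ _ (pow_mem hx₁ 2)
      (A.mul_mem _ _ hx₁ hx₂)) (pow_mem hx₂ 2)) (A.mul_mem _ _ I.h₂ (A.add_mem _ _ hx₁ hx₂))) I.h₄)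
      (A.mul_mem _ _ I.h₁ hy₁)
  have hlt2 : A.valuation ((yc S₁ - yc S₂) * (yc S₁ - W.negY (xc S₂) (yc S₂))) < 1 := by
    rw [hprod, map_mul]
    exact mul_lt_one_of_lt_of_le hlt (le1 hc)
  have hneg : W.negY (xc S₂) (yc S₂) ∈ A := by
    rw [negY]
    exact sub_mem (sub_mem (A.neg_mem _ hy₂) (A.mul_mem _ _ I.h₁ hx₂)) I.h₃
  have hor : A.valuation (yc S₁ - yc S₂) < 1 ∨
      A.valuation (yc S₁ - W.negY (xc S₂) (yc S₂)) < 1 := by
    by_contra hcon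
    push Not at hcon
    have g1 : A.valuation (yc S₁ - yc S₂) = 1 := le_antisymm (le1 (sub_mem hy₁ hy₂)) hcon.1
    have g2 : A.valuation (yc S₁ - W.negY (xc S₂) (yc S₂)) = 1 :=
      le_antisymm (le1 (sub_mem hy₁ hneg)) hcon.2
    rw [map_mul, g1, g2, one_mul] at hlt2
    exact lt_irrefl _ hlt2
  rcases hor with hy | hy
  · have hns := hns_of_unit_disc A I.h₁ I.h₂ I.h₃ I.h₄ hΔ h20 (le1 hx₂) (le1 hy₂)
    rcases sub_eq_zero_or_nonintegral A.valuation (le1 I.h₁) (le1 I.h₂) (le1 I.h₃) (le1 I.h₄)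
      h10 h20 (le1 hx₁) (le1 hy₁) (le1 hx₂) (le1 hy₂) hlt hy hns with h | h
    · exact hs (Or.inl h)
    · exact hs (Or.inr fun hm => absurd (le1 hm) (not_le.2 h))
  · have h20' : -S₂ ≠ 0 := neg_ne_zero.2 h20
    have ex : xc (-S₂) = xc S₂ := xc_neg S₂
    have ey : yc (-S₂) = W.negY (xc S₂) (yc S₂) := yc_neg h20
    have hns := hns_of_unit_disc A I.h₁ I.h₂ I.h₃ I.h₄ hΔ h20' (by rw [ex]; exact le1 hx₂)
      (by rw [ey]; exact le1 hneg)
    rcases sub_eq_zero_or_nonintegral A.valuation (le1 I.h₁) (le1 I.h₂) (le1 I.h₃) (le1 I.h₄)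
      h10 h20' (le1 hx₁) (le1 hy₁) (by rw [ex]; exact le1 hx₂) (by rw [ey]; exact le1 hneg)
      (by rw [ex]; exact hlt) (by rw [ey]; exact hy) hns with h | h
    · rw [sub_neg_eq_add] at h
      exact ha (Or.inl h)
    · rw [sub_neg_eq_add] at h
      exact ha (Or.inr fun hm => absurd (le1 hm) (not_le.2 h))

/-- the chord formula (`x`). -/
theorem xc_add_of_ne {S₁ S₂ : W.Point} (h₁ : S₁ ≠ 0) (h₂ : S₂ ≠ 0) (hx : xc S₁ ≠ xc S₂) :
    xc (S₁ + S₂) = W.addX (xc S₁) (xc S₂) ((yc S₁ - yc S₂) / (xc S₁ - xc S₂)) := by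
  cases S₁ with
  | zero => exact absurd rfl h₁
  | some x1 y1 n1 =>
  cases S₂ with
  | zero => exact absurd rfl h₂
  | some x2 y2 n2 =>
  simp only [xc_some, yc_some] at hx ⊢
  rw [add_some (fun h => hx h.1), xc_some, slope_of_X_ne hx]

/-- the chord formula (`y`). -/
theorem yc_add_of_ne {S₁ S₂ : W.Point} (h₁ : S₁ ≠ 0) (h₂ : S₂ ≠ 0) (hx : xc S₁ ≠ xc S₂) :
    yc (S₁ + S₂) = W.addY (xc S₁) (xc S₂) (yc S₁) ((yc S₁ - yc S₂) / (xc S₁ - xc S₂)) := by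
  cases S₁ with
  | zero => exact absurd rfl h₁
  | some x1 y1 n1 =>
  cases S₂ with
  | zero => exact absurd rfl h₂
  | some x2 y2 n2 =>
  simp only [xc_some, yc_some] at hx ⊢
  rw [add_some (fun h => hx h.1), yc_some, slope_of_X_ne hx]

end Fermat.Agent.ML.ESide
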