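import Fermat.Agent.ML.ESide.Res
import Fermat.Agent.ML.ESide.FlatPts
import Fermat.Agent.ML.Rho.Flat
import Fermat.Agent.MAZ.Geo.HopfB1
import Fermat.Agent.FLAT.Desc.Main
import Fermat.Agent.HW.Pow.Unip
import Fermat.Agent.S54.Frobenius

/-!
# ML / E-side / [E-FLAT] : `W[p^k]` is finite flat at a prime `p` of good reduction

`W : WeierstrassCurve ℤ` with good reduction at the odd prime `p`, `V = E[p^k]`, `A | p` a valuation ring of `ℚ̄`.
Fix a prime `ℓ ∉ {2, 3, p}`.  For `R ∈ E[ℓ] ∖ 0` put `x_R(P) = x(P + R)`, `y_R(P) = y(P + R)` (`P ∈ V`) and let `H` be the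
`A`-algebra of functions on `V` generated by all `x_R, y_R`.

* `P + R` is never in the kernel of reduction (`not_inE1_add`), so `x_R, y_R` are `A`-valued;
* `x(P + R₁) - x(Q + R₂)` is a unit if `R₁ ≠ ± R₂` (`val_xc_sub_eq_one`);
* `x_R(P + Q) = x((P + 2R) + (Q - R))` is given by the AFFINE chord formula whose denominator is a unit valued element of
  `H ⊠ H`, hence invertible in `H ⊠ H` (`FFG.IsOrd.inv_mem`): `H` is stable under comultiplication;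
* inertia at `p` fixes `E[ℓ]`, so `x_R`, `y_R` are inertia-equivariant.

Hence `FLAT.IsHopfOrderA A act H`; descent (`FLAT.exists_isHopfOrder`) gives the finite flat model over `ℤ_(p)`.

Outputs: `hasFlatModel_torsW`, `hasModel_torsW`, `hasFlat_torsW`.
-/

set_option autoImplicit false

noncomputable section

namespace Fermat.Agent.ML.ESide

open WeierstrassCurve WeierstrassCurve.Affine WeierstrassCurve.Affine.Point
open Fermat.Agent.S05 Fermat.Agent.S13 Fermat.Agent.HW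

local notation "Qb" => AlgebraicClosure ℚ
local notation "GQ" => (AlgebraicClosure ℚ ≃ₐ[ℚ] AlgebraicClosure ℚ)

section Group

variable {G : Type*} [AddCommGroup G]

theorem nsmul_ne_zero_of_prime_order {ℓ : ℕ} (hℓ : ℓ.Prime) {R : G} (hR : ℓ • R = 0) (hR0 : R ≠ 0)
    {n : ℕ} (hn : ¬ ℓ ∣ n) : n • R ≠ 0 := by
  intro h
  have h1 : addOrderOf R ∣ ℓ := addOrderOf_dvd_of_nsmul_eq_zero hR
  rcases (Nat.dvd_prime hℓ).1 h1 with h2 | h2
  · exact hR0 (AddMonoid.addOrderOf_eq_one_iff.1 h2)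
  · exact hn (h2 ▸ addOrderOf_dvd_of_nsmul_eq_zero h)

theorem nsmul_nsmul_eq_zero' {ℓ : ℕ} {R : G} (hR : ℓ • R = 0) (n : ℕ) : ℓ • (n • R) = 0 := by
  rw [smul_comm, hR, smul_zero]

theorem nsmul_neg_eq_zero' {ℓ : ℕ} {R : G} (hR : ℓ • R = 0) : ℓ • (-R) = 0 := by
  rw [smul_neg, hR, _root_.neg_zero]

theorem nsmul_sub_eq_zero' {n : ℕ} {P Q : G} (hP : n • P = 0) (hQ : n • Q = 0) :
    n • (P - Q) = 0 := by
  rw [smul_sub, hP, hQ, sub_zero]

theorem nsmul_add_eq_zero' {n : ℕ} {P Q : G} (hP : n • P = 0) (hQ : n • Q = 0) :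
    n • (P + Q) = 0 := by
  rw [smul_add, hP, hQ, add_zero]

theorem chord_sub_eq (P Q R : G) : (P + 2 • R) - (Q + -R) = (P - Q) + 3 • R := by
  rw [two_smul, show (3 : ℕ) • R = R + R + R from by rw [succ_nsmul, two_smul]]
  abel

theorem chord_add_eq (P Q R : G) : (P + 2 • R) + (Q + -R) = (P + Q) + R := by
  rw [two_smul]
  abel

end Group

variable (W : WeierstrassCurve ℤ)

/-- the standing hypotheses. -/
structure FlatHyp (A : ValuationSubring Qb) (p ℓ : ℕ) : Prop where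
  hp : p.Prime
  hA : A.LiesOverPrime p
  good : W.IsGoodPrimeFor p
  hℓ : ℓ.Prime
  hℓp : ℓ ≠ p
  hℓ2 : ℓ ≠ 2
  hℓ3 : ℓ ≠ 3

variable {W} {A : ValuationSubring Qb} {p ℓ : ℕ}

theorem xc_galSmul (σ : GQ) (S : S58.EQ W) : xc (σ • S) = σ (xc S) := by
  cases S with
  | zero => exact (map_zero σ).symm
  | some x y h => rfl

theorem yc_galSmul (σ : GQ) (S : S58.EQ W) : yc (σ • S) = σ (yc S) := by
  cases S with
  | zero => exact (map_zero σ).symm
  | some x y h => rfl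

namespace FlatHyp

variable (H : FlatHyp W A p ℓ)
include H

theorem val_disc : A.valuation (EQb W).Δ = 1 := by
  rw [Δ_EQb]
  exact valuation_intCast_eq_one A H.hp H.hA H.good

theorem not_dvd_pow (k : ℕ) : ¬ ℓ ∣ p ^ k := fun h =>
  H.hℓp ((Nat.prime_dvd_prime_iff_eq H.hℓ H.hp).1 (H.hℓ.dvd_of_dvd_pow h))

/-- nonzero `ℓ`-torsion points are outside the kernel of reduction. -/
theorem not_inE1_tors {R : S58.EQ W} (hR : ℓ • R = 0) (hR0 : R ≠ 0) :
    ¬ InE1 (W := EQb W) A R := by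
  classical
  have I := intData_EQb W A
  obtain ⟨hb₂, hb₄, hb₆, hb₈⟩ := b_mem A I.h₁ I.h₂ I.h₃ I.h₄ I.h₆
  have hx := torsion_x_integral_odd A ℓ p (H.hℓ.odd_of_ne_two H.hℓ2) H.hp
    (fun h => H.hℓp ((Nat.prime_dvd_prime_iff_eq H.hp H.hℓ).1 h).symm) H.hA hb₂ hb₄ hb₆ hb₈
    (R := R) hR0 hR
  rintro (h | h)
  · exact hR0 h
  · exact h ((A.valuation_le_one_iff _).1 hx)

/-- `P + R` is outside the kernel of reduction. -/
theorem not_inE1_add {k : ℕ} {P R : S58.EQ W} (hP : p ^ k • P = 0) (hR : ℓ • R = 0)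
    (hR0 : R ≠ 0) : ¬ InE1 (W := EQb W) A (P + R) := by
  classical
  refine not_inE1_of_nsmul (intData_EQb W A) (p ^ k) ?_
  rw [smul_add, hP, zero_add]
  refine H.not_inE1_tors ?_ (nsmul_ne_zero_of_prime_order H.hℓ hR hR0 (H.not_dvd_pow k))
  rw [smul_comm, hR, smul_zero]

end FlatHyp

/-- `P ↦ x(P + R)`. -/
def xF (W : WeierstrassCurve ℤ) (n : ℕ) (R : S58.EQ W) : TorsW W n → Qb :=
  fun P => xc ((P : S58.EQ W) + R)

/-- `P ↦ y(P + R)`. -/
def yF (W : WeierstrassCurve ℤ) (n : ℕ) (R : S58.EQ W) : TorsW W n → Qb :=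
  fun P => yc ((P : S58.EQ W) + R)

/-- the generators of the order. -/
def genF (W : WeierstrassCurve ℤ) (ℓ n : ℕ) : Set (TorsW W n → Qb) :=
  {f | ∃ R : S58.EQ W, ℓ • R = 0 ∧ R ≠ 0 ∧ (f = xF W n R ∨ f = yF W n R)}

/-- the Galois action on `E[n]` as an explicit homomorphism. -/
def actW (W : WeierstrassCurve ℤ) (n : ℕ) : GQ →* AddMonoid.End (TorsW W n) :=
  DistribMulAction.toAddMonoidEnd GQ (TorsW W n)

theorem actW_apply (n : ℕ) (σ : GQ) (x : TorsW W n) : actW W n σ x = σ • x := rfl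

namespace FlatHyp

variable (H : FlatHyp W A p ℓ) (k : ℕ)
include H

theorem xF_mem {R : S58.EQ W} (hR : ℓ • R = 0) (hR0 : R ≠ 0) (P : TorsW W (p ^ k)) :
    xF W (p ^ k) R P ∈ A :=
  xc_mem_of_not_inE1 (H.not_inE1_add (nsmul_coe_torsW W P) hR hR0)

theorem yF_mem {R : S58.EQ W} (hR : ℓ • R = 0) (hR0 : R ≠ 0) (P : TorsW W (p ^ k)) :
    yF W (p ^ k) R P ∈ A :=
  yc_mem_of_not_inE1 (intData_EQb W A) (H.not_inE1_add (nsmul_coe_torsW W P) hR hR0)

theorem genF_int : ∀ φ ∈ genF W ℓ (p ^ k), ∀ z, φ z ∈ A := by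
  rintro φ ⟨R, hR, hR0, rfl | rfl⟩ z
  · exact H.xF_mem k hR hR0 z
  · exact H.yF_mem k hR hR0 z

theorem genF_sep (hΔ : W.Δ ≠ 0) : ∀ z z' : TorsW W (p ^ k), z ≠ z' →
    ∃ φ ∈ genF W ℓ (p ^ k), φ z ≠ φ z' := by
  intro z z' hne
  obtain ⟨R, hord⟩ := S58.exists_addOrderOf_eq W hΔ (H.hℓ.odd_of_ne_two H.hℓ2)
  have hR : ℓ • R = 0 := by rw [← hord]; exact addOrderOf_nsmul_eq_zero R
  have hR0 : R ≠ 0 := by
    rintro rfl
    rw [addOrderOf_zero] at hord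
    exact H.hℓ.one_lt.ne hord
  by_contra hcon
  push Not at hcon
  have hx := hcon (xF W (p ^ k) R) ⟨R, hR, hR0, Or.inl rfl⟩
  have hy := hcon (yF W (p ^ k) R) ⟨R, hR, hR0, Or.inr rfl⟩
  have h1 := ne_zero_of_not_inE1 (H.not_inE1_add (nsmul_coe_torsW W z) hR hR0)
  have h2 := ne_zero_of_not_inE1 (H.not_inE1_add (nsmul_coe_torsW W z') hR hR0)
  have h3 : (z : S58.EQ W) + R = (z' : S58.EQ W) + R := point_ext h1 h2 hx hy
  exact hne (Subtype.ext (add_right_cancel h3))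

theorem genF_equiv : ∀ φ ∈ genF W ℓ (p ^ k), ∀ σ ∈ A.inertiaSubgroupIn ℚ,
    FLAT.IsEquiv (actW W (p ^ k)) σ φ := by
  rintro φ ⟨R, hR, hR0, hφ⟩ σ hσ x
  have hfix : σ • R = R := inertia_trivial_odd W H.hp H.good (H.hℓ.odd_of_ne_two H.hℓ2)
    (fun h => H.hℓp ((Nat.prime_dvd_prime_iff_eq H.hp H.hℓ).1 h).symm) A H.hA σ hσ R hR
  have e : ((actW W (p ^ k) σ x : TorsW W (p ^ k)) : S58.EQ W) + R = σ • ((x : S58.EQ W) + R) := by
    have h := smul_add σ (x : S58.EQ W) R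
    rw [hfix] at h
    exact h.symm
  rcases hφ with rfl | rfl
  · show xc _ = σ (xc _)
    rw [e, xc_galSmul]
  · show yc _ = σ (yc _)
    rw [e, yc_galSmul]

end FlatHyp

section Chord

variable {K : Type*} [Field K] {B : ValuationSubring K} {E : WeierstrassCurve.Affine K}
  {Z : Type*} [Finite Z] {T : Subring (Z → K)}

/-- the chord formulas stay in an order as soon as the denominator is unit valued. -/
theorem chord_mem (hT : FFG.IsOrd B T) (I : IntData B E) {X1 Y1 X2 Y2 : Z → K} (hX1 : X1 ∈ T)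
    (hY1 : Y1 ∈ T) (hX2 : X2 ∈ T) (hY2 : Y2 ∈ T) (hu : ∀ z, B.valuation (X1 z - X2 z) = 1) :
    (fun z => E.addX (X1 z) (X2 z) ((Y1 z - Y2 z) / (X1 z - X2 z))) ∈ T ∧
      (fun z => E.addY (X1 z) (X2 z) (Y1 z) ((Y1 z - Y2 z) / (X1 z - X2 z))) ∈ T := by
  have hU : (fun z => ((X1 - X2) z)⁻¹) ∈ T := hT.inv_mem (T.sub_mem hX1 hX2) hu
  have hΛ : (fun z => (Y1 z - Y2 z) / (X1 z - X2 z)) ∈ T := by
    have h1 := T.mul_mem (T.sub_mem hY1 hY2) hU
    have e : (fun z => (Y1 z - Y2 z) / (X1 z - X2 z)) =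
        (Y1 - Y2) * fun z => ((X1 - X2) z)⁻¹ := by
      funext z
      simp only [Pi.mul_apply, Pi.sub_apply, div_eq_mul_inv]
    rw [e]
    exact h1
  set Λ : Z → K := fun z => (Y1 z - Y2 z) / (X1 z - X2 z) with hΛdef
  have c1 := hT.const _ I.h₁
  have c2 := hT.const _ I.h₂
  have c3 := hT.const _ I.h₃
  have hX3 : (fun z => E.addX (X1 z) (X2 z) (Λ z)) ∈ T := by
    have := T.sub_mem (T.sub_mem (T.sub_mem (T.add_mem (T.pow_mem hΛ 2) (T.mul_mem c1 hΛ)) c2) hX1)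
      hX2
    exact this
  refine ⟨hX3, ?_⟩
  have := T.sub_mem (T.sub_mem (T.neg_mem (T.add_mem (T.mul_mem hΛ (T.sub_mem hX3 hX1)) hY1))
    (T.mul_mem c1 hX3)) c3
  exact this

end Chord

namespace FlatHyp

variable (H : FlatHyp W A p ℓ) (k : ℕ)
include H

theorem disc_ne_zero : W.Δ ≠ 0 := fun h => H.good (by rw [h]; exact dvd_zero _)

theorem not_dvd_two : ¬ ℓ ∣ 2 := fun h =>
  H.hℓ2 ((Nat.prime_dvd_prime_iff_eq H.hℓ Nat.prime_two).1 h)

theorem not_dvd_three : ¬ ℓ ∣ 3 := fun h =>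
  H.hℓ3 ((Nat.prime_dvd_prime_iff_eq H.hℓ Nat.prime_three).1 h)

/-- the four points of the chord construction. -/
theorem chord_data {R : S58.EQ W} (hR : ℓ • R = 0) (hR0 : R ≠ 0) (P Q : TorsW W (p ^ k)) :
    A.valuation (xF W (p ^ k) (2 • R) P - xF W (p ^ k) (-R) Q) = 1 ∧
      xF W (p ^ k) R (P + Q) = (EQb W).addX (xF W (p ^ k) (2 • R) P) (xF W (p ^ k) (-R) Q)
        ((yF W (p ^ k) (2 • R) P - yF W (p ^ k) (-R) Q) /
          (xF W (p ^ k) (2 • R) P - xF W (p ^ k) (-R) Q)) ∧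
      yF W (p ^ k) R (P + Q) = (EQb W).addY (xF W (p ^ k) (2 • R) P) (xF W (p ^ k) (-R) Q)
        (yF W (p ^ k) (2 • R) P)
        ((yF W (p ^ k) (2 • R) P - yF W (p ^ k) (-R) Q) /
          (xF W (p ^ k) (2 • R) P - xF W (p ^ k) (-R) Q)) := by
  have hP := nsmul_coe_torsW W P
  have hQ := nsmul_coe_torsW W Q
  have h2R : ℓ • (2 • R) = 0 := nsmul_nsmul_eq_zero' hR 2
  have h2R0 : 2 • R ≠ 0 := nsmul_ne_zero_of_prime_order H.hℓ hR hR0 H.not_dvd_two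
  have h3R : ℓ • (3 • R) = 0 := nsmul_nsmul_eq_zero' hR 3
  have h3R0 : 3 • R ≠ 0 := nsmul_ne_zero_of_prime_order H.hℓ hR hR0 H.not_dvd_three
  have hnR : ℓ • (-R) = 0 := nsmul_neg_eq_zero' hR
  have hnR0 : -R ≠ 0 := neg_ne_zero.2 hR0
  have h₁ := H.not_inE1_add hP h2R h2R0
  have h₂ := H.not_inE1_add hQ hnR hnR0
  have es : ((P : S58.EQ W) + 2 • R) - ((Q : S58.EQ W) + -R) =
      ((P : S58.EQ W) - (Q : S58.EQ W)) + 3 • R := chord_sub_eq _ _ _
  have ea : ((P : S58.EQ W) + 2 • R) + ((Q : S58.EQ W) + -R) =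
      ((P : S58.EQ W) + (Q : S58.EQ W)) + R := chord_add_eq _ _ _
  have hs : ¬ InE1 (W := EQb W) A (((P : S58.EQ W) + 2 • R) - ((Q : S58.EQ W) + -R)) := by
    rw [es]
    exact H.not_inE1_add (nsmul_sub_eq_zero' hP hQ) h3R h3R0
  have ha : ¬ InE1 (W := EQb W) A (((P : S58.EQ W) + 2 • R) + ((Q : S58.EQ W) + -R)) := by
    rw [ea]
    exact H.not_inE1_add (nsmul_add_eq_zero' hP hQ) hR hR0
  have hu := val_xc_sub_eq_one (intData_EQb W A) H.val_disc h₁ h₂ hs ha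
  have hne : xc ((P : S58.EQ W) + 2 • R) ≠ xc ((Q : S58.EQ W) + -R) := by
    intro h
    rw [h, sub_self, _root_.map_zero] at hu
    exact zero_ne_one hu
  refine ⟨hu, ?_, ?_⟩
  · have := xc_add_of_ne (ne_zero_of_not_inE1 h₁) (ne_zero_of_not_inE1 h₂) hne
    rw [ea] at this
    exact this
  · have := yc_add_of_ne (ne_zero_of_not_inE1 h₁) (ne_zero_of_not_inE1 h₂) hne
    rw [ea] at this
    exact this

/-- **[E-FLAT], local form.** -/
theorem exists_isHopfOrderA [Finite (TorsW W (p ^ k))] :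
    ∃ Hh : Subalgebra A (TorsW W (p ^ k) → Qb), FLAT.IsHopfOrderA A (actW W (p ^ k)) Hh := by
  set S : Subring (TorsW W (p ^ k) → Qb) := FFG.genOrd A (genF W ℓ (p ^ k)) with hSdef
  have hS : FFG.IsOrd A S := FFG.isOrd_genOrd _ (H.genF_int k) (H.genF_sep k H.disc_ne_zero)
  have hT : FFG.IsOrd A (FFG.prodOrd S S) := FFG.isOrd_prodOrd hS hS
  refine MAZ.exists_isHopfOrderA_of_isOrd_aux (actW W (p ^ k)) S hS ?_ (genF W ℓ (p ^ k)) rfl
    (H.genF_equiv k)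
  let D : (TorsW W (p ^ k) → Qb) →+* (TorsW W (p ^ k) × TorsW W (p ^ k) → Qb) :=
    RingHom.pi fun q => Pi.evalRingHom (fun _ : TorsW W (p ^ k) => Qb) (q.1 + q.2)
  have hle : S ≤ (FFG.prodOrd S S).comap D := by
    rw [hSdef, FFG.genOrd, Subring.closure_le]
    rintro φ (⟨a, ha, rfl⟩ | ⟨R, hR, hR0, hφ⟩)
    · exact hT.const a ha
    · have h2R : ℓ • (2 • R) = 0 := nsmul_nsmul_eq_zero' hR 2
      have h2R0 : 2 • R ≠ 0 := nsmul_ne_zero_of_prime_order H.hℓ hR hR0 H.not_dvd_two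
      have hnR : ℓ • (-R) = 0 := nsmul_neg_eq_zero' hR
      have hnR0 : -R ≠ 0 := neg_ne_zero.2 hR0
      have mem : ∀ f ∈ genF W ℓ (p ^ k), f ∈ S := fun f hf => Subring.subset_closure (Or.inr hf)
      have hX1 : (fun q : TorsW W (p ^ k) × TorsW W (p ^ k) => xF W (p ^ k) (2 • R) q.1) ∈
          FFG.prodOrd S S :=
        Subring.subset_closure (Or.inl ⟨_, mem _ ⟨_, h2R, h2R0, Or.inl rfl⟩, rfl⟩)
      have hY1 : (fun q : TorsW W (p ^ k) × TorsW W (p ^ k) => yF W (p ^ k) (2 • R) q.1) ∈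
          FFG.prodOrd S S :=
        Subring.subset_closure (Or.inl ⟨_, mem _ ⟨_, h2R, h2R0, Or.inr rfl⟩, rfl⟩)
      have hX2 : (fun q : TorsW W (p ^ k) × TorsW W (p ^ k) => xF W (p ^ k) (-R) q.2) ∈
          FFG.prodOrd S S :=
        Subring.subset_closure (Or.inr ⟨_, mem _ ⟨_, hnR, hnR0, Or.inl rfl⟩, rfl⟩)
      have hY2 : (fun q : TorsW W (p ^ k) × TorsW W (p ^ k) => yF W (p ^ k) (-R) q.2) ∈
          FFG.prodOrd S S :=
        Subring.subset_closure (Or.inr ⟨_, mem _ ⟨_, hnR, hnR0, Or.inr rfl⟩, rfl⟩)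
      obtain ⟨m1, m2⟩ := chord_mem hT (intData_EQb W A) hX1 hY1 hX2 hY2
        (fun q => (H.chord_data k hR hR0 q.1 q.2).1)
      rcases hφ with rfl | rfl
      · have e : D (xF W (p ^ k) R) = _ := funext fun q => (H.chord_data k hR hR0 q.1 q.2).2.1
        show D (xF W (p ^ k) R) ∈ FFG.prodOrd S S
        rw [e]
        exact m1
      · have e : D (yF W (p ^ k) R) = _ := funext fun q => (H.chord_data k hR hR0 q.1 q.2).2.2
        show D (yF W (p ^ k) R) ∈ FFG.prodOrd S S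
        rw [e]
        exact m2
  exact fun φ hφ => hle hφ

end FlatHyp

variable (W)

theorem smoothAct_actW {n : ℕ} (hn : Odd n) : FLAT.SmoothAct (actW W n) := by
  obtain ⟨L, hL, h⟩ := exists_level_torsW W hn
  exact fun x => ⟨L, hL, fun σ hσ => h σ hσ x⟩

theorem exists_aux_prime (p : ℕ) : ∃ ℓ : ℕ, ℓ.Prime ∧ ℓ ≠ p ∧ ℓ ≠ 2 ∧ ℓ ≠ 3 := by
  by_cases h : p = 5
  · exact ⟨7, by norm_num, by omega, by norm_num, by norm_num⟩
  · exact ⟨5, by norm_num, fun h' => h h'.symm, by norm_num, by norm_num⟩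

/-- **[E-FLAT]** `W[p^k]` is the generic fibre of a finite flat commutative group scheme over `ℤ_(p)`
(`W` good at the odd prime `p`). -/
theorem hasFlatModel_torsW {p : ℕ} (hp : p.Prime) (hp2 : p ≠ 2) (hgood : W.IsGoodPrimeFor p)
    (k : ℕ) : FLAT.HasFlatModel p (TorsW W (p ^ k)) (actW W (p ^ k)) := by
  have : Fact p.Prime := ⟨hp⟩
  obtain ⟨A, hA⟩ := S54.exists_liesOverPrime hp
  obtain ⟨ℓ, hℓ, hℓp, hℓ2, hℓ3⟩ := exists_aux_prime p
  have hodd : Odd (p ^ k) := (hp.odd_of_ne_two hp2).pow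
  have := finite_torsW W hodd
  obtain ⟨Hh, hH⟩ :=
    (FlatHyp.mk hp hA hgood hℓ hℓp hℓ2 hℓ3 : FlatHyp W A p ℓ).exists_isHopfOrderA k
  obtain ⟨H', hH'⟩ := FLAT.exists_isHopfOrder hA (smoothAct_actW W hodd) hH
  exact FLAT.hasFlatModel_of_isHopfOrder hH'

/-- **[E-FLAT]** in the language of `S32`. -/
theorem hasModel_torsW {p : ℕ} (hp : p.Prime) (hp2 : p ≠ 2) (hgood : W.IsGoodPrimeFor p)
    (k : ℕ) : S32.HasModel p (TorsW W (p ^ k)) :=
  hasFlatModel_torsW W hp hp2 hgood k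

/-- **[E-FLAT]** in the language of `S56/Flat` and `ML/Rho/Flat` : `W[p^k]` is flat on the inertia group at `p`. -/
theorem hasFlat_torsW {p : ℕ} (hp : p.Prime) (hp2 : p ≠ 2) (hgood : W.IsGoodPrimeFor p)
    {A : ValuationSubring Qb} (hA : A.LiesOverPrime p) (k : ℕ) :
    S56.Flat.HasFlat A.valuation (ML.galAct (A.inertiaSubgroupIn ℚ) (TorsW W (p ^ k))) := by
  have : Fact p.Prime := ⟨hp⟩
  have := finite_torsW W ((hp.odd_of_ne_two hp2).pow (n := k))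
  exact S56.Flat.hasFlat_of_hasOrder hp hA (actW W (p ^ k)) (fun _ _ => rfl)
    (hasModel_torsW W hp hp2 hgood k).hasOrder

end Fermat.Agent.ML.ESide
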