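import Fermat.Agent.ML.ESide.Any
import Fermat.Agent.ML.ESide.Flat

/-!
# ML / E-side : the bridge between the points `W[m]` and helper30's matrix module `Rho.EM (rEB B)`

* `emEquiv B : Rho.EM (rEB B) ≃+ TorsW W m`, `G_ℚ`-equivariant and `ℤ/m`-linear;
* `hasFlat_EM` : **[E-FLAT]** for `Rho.EM (rEB B)`, `m = p^k`, `W` good at `p`;
* operator identities : points `⟹` matrices (`rEB_mul_eq_zero`, `rEB_steinberg`, ...).
-/

set_option autoImplicit false

namespace Fermat.Agent.ML.ESide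

open Fermat.Agent.GAL Fermat.Agent.RIB.Rho

local notation "Qbar" => AlgebraicClosure ℚ
local notation "GQ" => (AlgebraicClosure ℚ ≃ₐ[ℚ] AlgebraicClosure ℚ)
local notation "M₂" => Matrix (Fin 2) (Fin 2)

variable {W : WeierstrassCurve ℤ} {m : ℕ} (B : Module.Basis (Fin 2) (ZMod m) (TorsW W m))

/-- `v ↦ v 0 • B 0 + v 1 • B 1`. -/
noncomputable def emEquiv : Rho.EM (rEB B) ≃+ TorsW W m :=
  (B.equivFun.symm : (Fin 2 → ZMod m) ≃ₗ[ZMod m] TorsW W m).toAddEquiv

theorem emEquiv_symm_apply (x : TorsW W m) :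
    ((emEquiv B).symm x : Fin 2 → ZMod m) = fun i => B.repr x i := rfl

theorem emEquiv_gal (σ : GQ) (v : Rho.EM (rEB B)) : emEquiv B (σ • v) = σ • emEquiv B v := by
  obtain ⟨x, rfl⟩ := (emEquiv B).symm.surjective v
  rw [AddEquiv.apply_symm_apply]
  apply (emEquiv B).symm.injective
  rw [AddEquiv.symm_apply_apply]
  exact rEB_mulVec B σ x

theorem emEquiv_zmod_smul (a : ZMod m) (v : Rho.EM (rEB B)) :
    emEquiv B (a • v) = a • emEquiv B v :=
  (B.equivFun.symm : (Fin 2 → ZMod m) ≃ₗ[ZMod m] TorsW W m).map_smul a v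

/-- **[E-FLAT]** for the matrix module. -/
theorem hasFlat_EM {p : ℕ} (hp : p.Prime) (hp2 : p ≠ 2) (hgood : W.IsGoodPrimeFor p)
    {A : ValuationSubring Qbar} (hA : A.LiesOverPrime p) (k : ℕ)
    (B : Module.Basis (Fin 2) (ZMod (p ^ k)) (TorsW W (p ^ k))) :
    S56.Flat.HasFlat A.valuation (ML.galAct (A.inertiaSubgroupIn ℚ) (Rho.EM (rEB B))) :=
  hasFlat_galAct_of_injective (emEquiv B).toAddMonoidHom (emEquiv B).injective
    (fun g x => emEquiv_gal B g x) (hasFlat_torsW W hp hp2 hgood hA k)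

/-! ### operator identities : points `⟹` matrices -/

/-- `(σ - a)(τ - b) = 0` on the points of `W[m]` `⟹` the same identity for the matrices. -/
theorem rEB_sub_mul_sub_eq_zero (σ τ : GQ) (a b : ZMod m)
    (h : ∀ x : TorsW W m, σ • (τ • x - b • x) = a • (τ • x - b • x)) :
    (rEB B σ - a • 1) * (rEB B τ - b • 1) = 0 := by
  rw [rEB_apply, rEB_apply, ← map_one (LinearMap.toMatrixAlgEquiv B), ← map_smul, ← map_smul,
    ← map_sub, ← map_sub, ← map_mul]
  apply toMatK_eq_zero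
  intro x
  simp only [Module.End.mul_apply, LinearMap.sub_apply, rhoEndK_apply, LinearMap.smul_apply,
    Module.End.one_apply]
  rw [h x, sub_self]

/-- the same with integral scalars. -/
theorem rEB_sub_mul_sub_eq_zero_int (σ τ : GQ) (a b : ℤ)
    (h : ∀ x : TorsW W m, σ • (τ • x - b • x) = a • (τ • x - b • x)) :
    (rEB B σ - ((a : ℤ) : ZMod m) • 1) * (rEB B τ - ((b : ℤ) : ZMod m) • 1) = 0 :=
  rEB_sub_mul_sub_eq_zero B σ τ _ _ fun x => by
    rw [Int.cast_smul_eq_zsmul, Int.cast_smul_eq_zsmul]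
    exact h x

/-- the converse : matrices `⟹` points. -/
theorem torsW_of_rEB_sub_mul_sub (σ τ : GQ) (a b : ZMod m)
    (h : (rEB B σ - a • 1) * (rEB B τ - b • 1) = 0) (x : TorsW W m) :
    σ • (τ • x - b • x) = a • (τ • x - b • x) := by
  rw [rEB_apply, rEB_apply, ← map_one (LinearMap.toMatrixAlgEquiv B), ← map_smul, ← map_smul,
    ← map_sub, ← map_sub, ← map_mul, ← map_zero (LinearMap.toMatrixAlgEquiv B),
    (LinearMap.toMatrixAlgEquiv B).injective.eq_iff] at h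
  have h' := congrArg (fun f => f x) h
  simp only [Module.End.mul_apply, LinearMap.sub_apply, rhoEndK_apply, LinearMap.smul_apply,
    Module.End.one_apply, LinearMap.zero_apply] at h'
  exact sub_eq_zero.1 h'

/-- **[E-ST], matrix form** : `σ² - ε(q+1)σ + q = 0` on `W[m]`, `det = q` `⟹` `tr rE(σ) = ε (q+1)`
(`c_q(W) = 0`). -/
theorem rEB_steinberg (σ : GQ) (q : ℕ) (ε : ℤ) (hε : ε * ε = 1)
    (hdet : (rEB B σ).det = ((q : ℕ) : ZMod m))
    (h : ∀ x : TorsW W m, σ • (σ • x - ε • x) = (ε * q) • (σ • x - ε • x)) :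
    (rEB B σ - ((ε * q : ℤ) : ZMod m) • 1) * (rEB B σ - ((ε : ℤ) : ZMod m) • 1) = 0 ∧
      (rEB B σ).trace = ((ε * (q + 1) : ℤ) : ZMod m) := by
  have h1 := rEB_sub_mul_sub_eq_zero_int B σ σ (ε * q) ε h
  refine ⟨h1, trace_eq_of_quad_loc (rEB B) hdet ?_⟩
  have hε' : ((ε : ℤ) : ZMod m) * ((ε : ℤ) : ZMod m) = 1 := by
    rw [← Int.cast_mul, hε, Int.cast_one]
  rw [← h1]
  push_cast
  set S := rEB B σ
  set e : ZMod m := ((ε : ℤ) : ZMod m)
  have : (S - (e * (q : ZMod m)) • 1) * (S - e • 1)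
      = S * S - (e * ((q : ZMod m) + 1)) • S + ((e * e) * (q : ZMod m)) • 1 := by
    simp only [sub_mul, mul_sub, smul_mul_assoc, mul_smul_comm, one_mul, mul_one]
    rw [mul_add, add_smul, mul_one, smul_sub, smul_smul, mul_assoc e e]
    abel
  rw [this, hε', one_mul]

end Fermat.Agent.ML.ESide
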