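import Fermat.Agent.ML.ESide.RE

/-!
# ML / E-side : `det`, `tr` of `rEB B` for an ARBITRARY basis `B` of `W[p^(k+1)]`; completion of a point to a basis

* `chiM_eq_of_pow` : `g μ = μ^a` on `μ_m` ⟹ `chiM m g = a`;
* `rEB_det_any`, `rEB_det_of_pow`, `rEB_frob_any`;
* `exists_basis_of_point` : a point `P` of `W[p^(k+1)]` with `p^k P ≠ 0` is the first vector of a basis.
-/

set_option autoImplicit false

namespace Fermat.Agent.ML.ESide

open Fermat.Agent.GAL Fermat.Agent.RIB.Rho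

local notation "Qbar" => AlgebraicClosure ℚ
local notation "GQ" => (AlgebraicClosure ℚ ≃ₐ[ℚ] AlgebraicClosure ℚ)
local notation "M₂" => Matrix (Fin 2) (Fin 2)

theorem chiM_eq_of_pow (m : ℕ) [NeZero m] (g : GQ) (a : ℕ)
    (h : ∀ μ : Qbar, μ ^ m = 1 → g μ = μ ^ a) : chiM m g = (a : ZMod m) := by
  obtain ⟨ζ, hζ⟩ := exists_primitiveRoot_Zbar m
  rw [chiM_apply]
  exact cycloChar_eq_of_primitiveRoot m g hζ (h _ hζ.pow_eq_one)

variable {W : WeierstrassCurve ℤ} {p : ℕ} [Fact p.Prime]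

lemma rEB_det_eq {m : ℕ} (B B' : Module.Basis (Fin 2) (ZMod m) (TorsW W m)) (σ : GQ) :
    (rEB B σ).det = (rEB B' σ).det := by
  have h1 : (rEB B σ).det = LinearMap.det (rhoEndK W m σ) := LinearMap.det_toMatrix B _
  have h2 : (rEB B' σ).det = LinearMap.det (rhoEndK W m σ) := LinearMap.det_toMatrix B' _
  rw [h1, h2]

lemma rEB_trace_eq {m : ℕ} (B B' : Module.Basis (Fin 2) (ZMod m) (TorsW W m)) (σ : GQ) :
    (rEB B σ).trace = (rEB B' σ).trace := by
  have h1 : (rEB B σ).trace = LinearMap.trace _ _ (rhoEndK W m σ) :=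
    (LinearMap.trace_eq_matrix_trace _ B _).symm
  have h2 : (rEB B' σ).trace = LinearMap.trace _ _ (rhoEndK W m σ) :=
    (LinearMap.trace_eq_matrix_trace _ B' _).symm
  rw [h1, h2]

theorem exists_basis_torsW (hΔ : W.Δ ≠ 0) (hp2 : p ≠ 2) :
    Nonempty (Module.Basis (Fin 2) (ZMod p) (TorsW W p)) := by
  have hfin := finite_torsW W (odd_of_ne_two p hp2)
  have : Module.Finite (ZMod p) (TorsW W p) := Module.Finite.of_finite
  exact ⟨Module.finBasisOfFinrankEq _ _ (finrank_torsW W p hΔ hp2)⟩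

variable {k : ℕ} (B : Module.Basis (Fin 2) (ZMod (p ^ (k + 1))) (TorsW W (p ^ (k + 1))))

/-- **[E-DET]** for an arbitrary basis. -/
theorem rEB_det_any (hΔ : W.Δ ≠ 0) (hp2 : p ≠ 2) (hirr : W.ModRepIsIrreducible p) (σ : GQ) :
    (rEB B σ).det = chiM (p ^ (k + 1)) σ := by
  obtain ⟨b⟩ := exists_basis_torsW (W := W) (p := p) hΔ hp2
  obtain ⟨B₀, hB₀⟩ := exists_basis_lift hΔ hp2 b k
  rw [rEB_det_eq B B₀]
  exact rEB_det b B₀ hB₀ hΔ hp2 hirr σ

theorem rEB_det_of_pow (hΔ : W.Δ ≠ 0) (hp2 : p ≠ 2) (hirr : W.ModRepIsIrreducible p) (σ : GQ)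
    (a : ℕ) (h : ∀ μ : Qbar, μ ^ (p ^ (k + 1)) = 1 → σ μ = μ ^ a) :
    (rEB B σ).det = (a : ZMod (p ^ (k + 1))) := by
  rw [rEB_det_any B hΔ hp2 hirr, chiM_eq_of_pow _ σ a h]

theorem rEB_frob_any (hΔ : W.Δ ≠ 0) (hp2 : p ≠ 2) (hirr : W.ModRepIsIrreducible p)
    {ℓ : ℕ} (hℓ : ℓ.Prime) (hgood : W.IsGoodPrimeFor ℓ) (hℓp : ℓ ≠ p)
    (A : ValuationSubring Qbar) (hA : A.LiesOverPrime ℓ) (τ : GQ) (hτ : A.IsFrobeniusAt τ ℓ) :
    (rEB B τ).trace = ((W.apOfModel ℓ : ℤ) : ZMod (p ^ (k + 1))) ∧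
      (rEB B τ).det = ((ℓ : ℕ) : ZMod (p ^ (k + 1))) := by
  obtain ⟨b⟩ := exists_basis_torsW (W := W) (p := p) hΔ hp2
  obtain ⟨B₀, hB₀⟩ := exists_basis_lift hΔ hp2 b k
  rw [rEB_det_eq B B₀, rEB_trace_eq B B₀]
  exact rEB_frob b B₀ hB₀ hΔ hp2 hirr hℓ hgood hℓp A hA τ hτ

omit B in
/-- a point of exact order `p^(k+1)` is the first vector of a basis. -/
theorem exists_basis_of_point (hΔ : W.Δ ≠ 0) (hp2 : p ≠ 2) (P : TorsW W (p ^ (k + 1)))
    (hP : p ^ k • P ≠ 0) :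
    ∃ B : Module.Basis (Fin 2) (ZMod (p ^ (k + 1))) (TorsW W (p ^ (k + 1))), B 0 = P := by
  have hfin := finite_torsW W (odd_of_ne_two p hp2)
  have : Module.Finite (ZMod p) (TorsW W p) := Module.Finite.of_finite
  set v := redK W p k P with hv
  have hv0 : v ≠ 0 := fun h => hP ((redK_eq_zero_iff k P).1 h)
  obtain ⟨w, hw⟩ : ∃ w : TorsW W p, w ∉ Submodule.span (ZMod p) {v} := by
    by_contra hcon
    push Not at hcon
    have htop : Submodule.span (ZMod p) {v} = ⊤ := eq_top_iff.2 fun x _ => hcon x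
    have h1 := finrank_span_singleton (K := ZMod p) hv0
    rw [htop, finrank_top, finrank_torsW W p hΔ hp2] at h1
    exact absurd h1 (by norm_num)
  have hli : LinearIndependent (ZMod p) ![v, w] := by
    rw [LinearIndependent.pair_iff]
    intro s t hst
    by_cases ht : t = 0
    · subst ht
      rw [zero_smul, add_zero] at hst
      exact ⟨(smul_eq_zero.1 hst).resolve_right hv0, rfl⟩
    · exfalso
      apply hw
      rw [Submodule.mem_span_singleton]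
      refine ⟨-(t⁻¹ * s), ?_⟩
      have : t • w = -(s • v) := eq_neg_of_add_eq_zero_right hst
      calc (-(t⁻¹ * s)) • v = t⁻¹ • (-(s • v)) := by rw [neg_smul, mul_smul, smul_neg]
        _ = w := by rw [← this, smul_smul, inv_mul_cancel₀ ht, one_smul]
  set b := basisOfLinearIndependentOfCardEqFinrank hli
    (by rw [Fintype.card_fin, finrank_torsW W p hΔ hp2]) with hb
  have hb' : ∀ i, b i = ![v, w] i := fun i => by
    rw [hb, coe_basisOfLinearIndependentOfCardEqFinrank]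
  obtain ⟨Q, hQ⟩ := redK_surjective (W := W) (p := p) hΔ hp2 k w
  obtain ⟨B, hB⟩ := exists_basis_of_lift hΔ hp2 b ![P, Q] (by
    intro i
    rw [hb']
    fin_cases i
    · rfl
    · exact hQ)
  exact ⟨B, hB 0⟩

end Fermat.Agent.ML.ESide
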