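import Fermat.Agent.ML.ESide.Lift
import Fermat.Agent.ML.ESide.Ctx
import Fermat.Agent.ML.Rho.Joint

/-!
# ML / E-side : the representation `rE_k : G_ℚ → GL₂(ℤ/p^(k+1))` of `W[p^(k+1)]`

`W.Δ ≠ 0`, `p` odd, `W[p]` irreducible, `B` a basis of `W[p^(k+1)]` lifting a basis `b` of `W[p]`.

* `torsK_quad`, `rEB_quad` : `σ + χ(σ) σ⁻¹` is a scalar on `W[p^(k+1)]`;
* `rEB_det` : **[E-DET]** `det = χ mod p^(k+1)`;   `rEB_frob` : `tr = a_r`, `det = r`;
* `exists_basis_lift_nf` : a lifted basis in Wiles' normal form, for the SAME `σ₀, τ₀` as `rbarB b`;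
* `exists_EK` : helper30's `Rho.EK (p^(k+1)) T W.apOfModel (rEB B)` + reduction to `rbarB b`.
-/

set_option autoImplicit false

namespace Fermat.Agent.ML.ESide

open Fermat.Agent.GAL Fermat.Agent.RIB.Rho Fermat.Agent.TW.TR

local notation "Qbar" => AlgebraicClosure ℚ
local notation "GQ" => (AlgebraicClosure ℚ ≃ₐ[ℚ] AlgebraicClosure ℚ)
local notation "M₂" => Matrix (Fin 2) (Fin 2)

variable {W : WeierstrassCurve ℤ} {p : ℕ} [Fact p.Prime]

theorem coprime_pow_of_not_mem_badT {r : ℕ} (hr : r.Prime) (h : r ∉ badT W p) (k : ℕ) :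
    Nat.Coprime (p ^ k) r := by
  apply Nat.Coprime.pow_left
  rw [Nat.coprime_primes Fact.out hr]
  rintro rfl
  exact h (p_mem_badT W p)

/-- the quadratic relation on the points of `W[p^k]`. -/
theorem torsK_quad (hΔ : W.Δ ≠ 0) (hp2 : p ≠ 2) (hirr : W.ModRepIsIrreducible p) (k : ℕ) :
    ∃ t : GQ → ℤ, ∀ (σ : GQ) (x : TorsW W (p ^ k)),
      σ • x + chiM (p ^ k) σ • σ⁻¹ • x = t σ • x := by
  have hfin := finite_torsW W (odd_of_ne_two p hp2)
  have : Module.Finite (ZMod p) (TorsW W p) := Module.Finite.of_finite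
  have b : Module.Basis (Fin 2) (ZMod p) (TorsW W p) :=
    Module.finBasisOfFinrankEq _ _ (finrank_torsW W p hΔ hp2)
  have hS : ∀ r : ℕ, r.Prime → r ∉ badT W p → W.IsGoodPrimeFor r ∧ Nat.Coprime (p ^ k) r :=
    fun r hr h => ⟨good_of_not_mem_badT hΔ hr h, coprime_pow_of_not_mem_badT hr h k⟩
  have key := exists_poly_spec_es (p := p) (m := p ^ k) (j := k)
    (esW W (odd_pow_of_ne_two hp2 k) (badT W p) hS) Fact.out rfl
    (p_mem_badT W p) W.apOfModel (rbarB b) (rbarB_cont b hp2) (fun r hr hrS A hA φ hφ =>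
      rbarB_frob b hΔ hp2 hirr hr (good_of_not_mem_badT hΔ hr hrS)
        (fun h => hrS (h ▸ p_mem_badT W p)) A hA φ hφ)
  choose r Q _ _ hQ using key
  refine ⟨fun σ => (Q σ).eval (W.apOfModel (r σ)), fun σ x => ?_⟩
  rw [hQ σ x]
  show Polynomial.aeval (algebraMap ℤ (Module.End ℤ (TorsW W (p ^ k))) (W.apOfModel (r σ))) (Q σ) x
    = _
  rw [Polynomial.aeval_algebraMap_apply, Module.algebraMap_end_apply]
  rfl

variable {k : ℕ} (B : Module.Basis (Fin 2) (ZMod (p ^ k)) (TorsW W (p ^ k)))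

/-- the quadratic relation for matrices -/
theorem rEB_quad (hΔ : W.Δ ≠ 0) (hp2 : p ≠ 2) (hirr : W.ModRepIsIrreducible p) (σ : GQ) :
    ∃ t : ZMod (p ^ k), rEB B σ * rEB B σ - t • rEB B σ + chiM (p ^ k) σ • 1 = 0 := by
  obtain ⟨t, ht⟩ := torsK_quad (W := W) (p := p) hΔ hp2 hirr k
  refine ⟨(t σ : ZMod (p ^ k)), ?_⟩
  rw [rEB_apply, toMatK_quad]
  apply toMatK_eq_zero
  intro x
  have h := ht σ (σ • x)
  rw [inv_smul_smul] at h
  simp only [LinearMap.add_apply, LinearMap.sub_apply, Module.End.mul_apply, LinearMap.smul_apply,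
    rhoEndK_apply, Module.End.one_apply]
  rw [Int.cast_smul_eq_zsmul, ← h]
  abel


omit B in
theorem isUnit_of_castK_ne_zero {k : ℕ} (x : ZMod (p ^ (k + 1))) (hx : castK p k x ≠ 0) :
    IsUnit x :=
  isUnit_of_castHom_ne_zero Fact.out rfl (dvd_pow_self p k.succ_ne_zero) x hx

section Det

variable {k : ℕ} (b : Module.Basis (Fin 2) (ZMod p) (TorsW W p))
  (B : Module.Basis (Fin 2) (ZMod (p ^ (k + 1))) (TorsW W (p ^ (k + 1))))
  (hB : ∀ i, redK W p k (B i) = b i)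

include hB

/-- **[E-DET]** `det = χ mod p^(k+1)`. -/
theorem rEB_det (hΔ : W.Δ ≠ 0) (hp2 : p ≠ 2) (hirr : W.ModRepIsIrreducible p) (σ : GQ) :
    (rEB B σ).det = chiM (p ^ (k + 1)) σ := by
  obtain ⟨u, hu⟩ := rbarB_exists_nonscalar b hirr
  exact det_eq_of_quad_loc (castK p k) isUnit_of_castK_ne_zero (rEB B) (chiM _)
    (rEB_quad B hΔ hp2 hirr) u (fun c => by rw [rEB_map_cast b B hB]; exact hu c) σ

/-- trace and determinant of Frobenius at the good primes `ℓ ≠ p` (`ℓ = 2` allowed) -/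
theorem rEB_frob (hΔ : W.Δ ≠ 0) (hp2 : p ≠ 2) (hirr : W.ModRepIsIrreducible p)
    {ℓ : ℕ} (hℓ : ℓ.Prime) (hgood : W.IsGoodPrimeFor ℓ) (hℓp : ℓ ≠ p)
    (A : ValuationSubring Qbar) (hA : A.LiesOverPrime ℓ) (τ : GQ) (hτ : A.IsFrobeniusAt τ ℓ) :
    (rEB B τ).trace = ((W.apOfModel ℓ : ℤ) : ZMod (p ^ (k + 1))) ∧
      (rEB B τ).det = ((ℓ : ℕ) : ZMod (p ^ (k + 1))) := by
  have hcop : Nat.Coprime (p ^ (k + 1)) ℓ :=
    Nat.Coprime.pow_left _ ((Nat.coprime_primes Fact.out hℓ).2 (Ne.symm hℓp))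
  have hdet : (rEB B τ).det = ((ℓ : ℕ) : ZMod (p ^ (k + 1))) := by
    rw [rEB_det b B hB hΔ hp2 hirr, chiM_apply]
    exact PC.cycloChar_of_isFrobeniusAt' _ hℓ hcop.symm hA hτ
  exact ⟨trace_eq_of_quad_loc (rEB B) hdet
    (rEB_frob_quad B (odd_pow_of_ne_two hp2 _) hℓ hgood hcop A hA τ hτ), hdet⟩

end Det

lemma gal_basis_rbarB (b : Module.Basis (Fin 2) (ZMod p) (TorsW W p)) (σ : GQ) (j : Fin 2) :
    σ • b j = rbarB b σ 0 j • b 0 + rbarB b σ 1 j • b 1 := by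
  conv_lhs => rw [← b.sum_repr (σ • b j)]
  rw [Fin.sum_univ_two, rbarB_entry, rbarB_entry]

lemma gal_basis_rEB {m : ℕ} (B : Module.Basis (Fin 2) (ZMod m) (TorsW W m)) (σ : GQ) (j : Fin 2) :
    σ • B j = rEB B σ 0 j • B 0 + rEB B σ 1 j • B 1 := by
  conv_lhs => rw [← B.sum_repr (σ • B j)]
  rw [Fin.sum_univ_two, rEB_entry, rEB_entry]

lemma repr_comb {m : ℕ} (B : Module.Basis (Fin 2) (ZMod m) (TorsW W m)) (x y : ZMod m) :
    B.repr (x • B 0 + y • B 1) 0 = x ∧ B.repr (x • B 0 + y • B 1) 1 = y := by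
  simp [Module.Basis.repr_self]

/-- **[E-NF]** a basis of `W[p^(k+1)]` lifting `b`, in Wiles' normal form for the same `σ₀, τ₀`. -/
theorem exists_basis_lift_nf (hΔ : W.Δ ≠ 0) (hp2 : p ≠ 2) (hirr : W.ModRepIsIrreducible p)
    (b : Module.Basis (Fin 2) (ZMod p) (TorsW W p)) {σ₀ τ₀ : GQ} {u : ZMod p}
    (hu : u * xF (fun g => (rbarB b g).trace) (2 : ZMod p)⁻¹ complexConjugation σ₀ τ₀ = 1)
    (hnf : ∀ g, rbarB b g
      = rhoMat (fun g => (rbarB b g).trace) (2 : ZMod p)⁻¹ complexConjugation σ₀ τ₀ u g) (k : ℕ) :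
    ∃ (B : Module.Basis (Fin 2) (ZMod (p ^ (k + 1))) (TorsW W (p ^ (k + 1))))
      (i2 uk : ZMod (p ^ (k + 1))),
      (∀ i, redK W p k (B i) = b i) ∧ i2 * 2 = 1 ∧ castK p k uk = u ∧
      uk * xF (fun g => (rEB B g).trace) i2 complexConjugation σ₀ τ₀ = 1 ∧
      ∀ g, rEB B g = rhoMat (fun g => (rEB B g).trace) i2 complexConjugation σ₀ τ₀ uk g := by
  have h2 : (2 : ZMod p)⁻¹ * 2 = 1 := inv_mul_cancel₀ (two_ne_zero_zmodp hp2)
  have hdetc : (rbarB b complexConjugation).det = -1 := by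
    rw [rbarB_det b hΔ hp2 hirr]
    exact Fermat.Agent.GAL.PC.cycloChar_complexConjugation p
  obtain ⟨hc, hσ, hτ⟩ := diag_of_nf (rbarB b) h2 complexConjugation_mul_self hdetc hu hnf
  set c : GQ := complexConjugation with hcdef
  have hcc : c * c = 1 := complexConjugation_mul_self
  have hcb0 : c • b 0 = b 0 := by
    rw [gal_basis_rbarB, hc]; simp
  have hcb1 : c • b 1 = - b 1 := by
    rw [gal_basis_rbarB, hc]; simp
  obtain ⟨i2, hi2⟩ : ∃ i2 : ZMod (p ^ (k + 1)), i2 * 2 = 1 :=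
    (isUnit_of_castK_ne_zero (2 : ZMod (p ^ (k + 1)))
      (by rw [map_ofNat]; exact two_ne_zero_zmodp hp2)).exists_left_inv
  have hi2' : castK p k i2 * 2 = 1 := by
    have := congrArg (castK p k) hi2
    rwa [map_mul, map_ofNat, map_one] at this
  choose f' hf' using fun i => redK_surjective (W := W) (p := p) hΔ hp2 k (b i)
  set f0' : TorsW W (p ^ (k + 1)) := i2 • (f' 0 + c • f' 0) with hf0'
  set f1 : TorsW W (p ^ (k + 1)) := i2 • (f' 1 - c • f' 1) with hf1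
  have r0' : redK W p k f0' = b 0 := by
    rw [hf0', redK_zmod_smul, map_add, redK_gal, hf', hcb0, ← two_smul (ZMod p), smul_smul, hi2',
      one_smul]
  have r1 : redK W p k f1 = b 1 := by
    rw [hf1, redK_zmod_smul, map_sub, redK_gal, hf', hcb1, sub_neg_eq_add, ← two_smul (ZMod p),
      smul_smul, hi2', one_smul]
  have c0' : c • f0' = f0' := by
    rw [hf0', smul_comm, smul_add, ← mul_smul, hcc, one_smul, add_comm (c • f' 0)]
  have c1 : c • f1 = - f1 := by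
    rw [hf1, smul_comm, smul_sub, ← mul_smul, hcc, one_smul, ← smul_neg, neg_sub]
  obtain ⟨B', hB'⟩ := exists_basis_of_lift hΔ hp2 b ![f0', f1] (by
    intro i; fin_cases i
    · exact r0'
    · exact r1)
  have hB'0 : B' 0 = f0' := hB' 0
  have hB'1 : B' 1 = f1 := hB' 1
  have hB'r : ∀ i, redK W p k (B' i) = b i := by
    intro i; fin_cases i
    · show redK W p k (B' 0) = b 0
      rw [hB'0, r0']
    · show redK W p k (B' 1) = b 1
      rw [hB'1, r1]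
  set β := rEB B' σ₀ 0 1 with hβ
  have hβ1 : castK p k β = 1 := by
    have := congrFun (congrFun (rEB_map_cast b B' hB'r σ₀) 0) 1
    rw [Matrix.map_apply, hσ] at this
    exact this
  set f0 : TorsW W (p ^ (k + 1)) := β • f0' with hf0
  have r0 : redK W p k f0 = b 0 := by rw [hf0, redK_zmod_smul, hβ1, one_smul, r0']
  have c0 : c • f0 = f0 := by rw [hf0, smul_comm, c0']
  obtain ⟨B, hB⟩ := exists_basis_of_lift hΔ hp2 b ![f0, f1] (by
    intro i; fin_cases i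
    · exact r0
    · exact r1)
  have hB0 : B 0 = f0 := hB 0
  have hB1 : B 1 = f1 := hB 1
  have hBr : ∀ i, redK W p k (B i) = b i := by
    intro i; fin_cases i
    · show redK W p k (B 0) = b 0
      rw [hB0, r0]
    · show redK W p k (B 1) = b 1
      rw [hB1, r1]
  have hcB : rEB B c = !![1, 0; 0, -1] := by
    have e0 : c • B 0 = (1 : ZMod (p ^ (k + 1))) • B 0 + (0 : ZMod (p ^ (k + 1))) • B 1 := by
      rw [hB0, c0]; simp
    have e1 : c • B 1 = (0 : ZMod (p ^ (k + 1))) • B 0 + (-1 : ZMod (p ^ (k + 1))) • B 1 := by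
      rw [hB1, c1]; simp
    ext i j
    rw [rEB_entry]
    fin_cases i <;> fin_cases j
    · show B.repr (c • B 0) 0 = 1
      rw [e0]; exact (repr_comb B _ _).1
    · show B.repr (c • B 1) 0 = 0
      rw [e1]; exact (repr_comb B _ _).1
    · show B.repr (c • B 0) 1 = 0
      rw [e0]; exact (repr_comb B _ _).2
    · show B.repr (c • B 1) 1 = -1
      rw [e1]; exact (repr_comb B _ _).2
  have hσB : rEB B σ₀ 0 1 = 1 := by
    have e : σ₀ • B 1 = (1 : ZMod (p ^ (k + 1))) • B 0 + rEB B' σ₀ 1 1 • B 1 := by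
      rw [hB1, ← hB'1, gal_basis_rEB B' σ₀ 1, hB'0, hB'1, hB0, hf0, one_smul]
    rw [rEB_entry, e]
    exact (repr_comb B _ _).1
  have hγ : castK p k (rEB B τ₀ 1 0) = rbarB b τ₀ 1 0 := by
    have := congrFun (congrFun (rEB_map_cast b B hBr τ₀) 1) 0
    rwa [Matrix.map_apply] at this
  have hγ0 : rbarB b τ₀ 1 0 ≠ 0 := by
    intro h0
    rw [h0, mul_zero] at hτ
    exact zero_ne_one hτ
  obtain ⟨uk, huk⟩ := (isUnit_of_castK_ne_zero (rEB B τ₀ 1 0) (by rw [hγ]; exact hγ0)).exists_left_inv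
  have huk' : castK p k uk = u := by
    have := congrArg (castK p k) huk
    rw [map_mul, map_one, hγ, ← hτ] at this
    exact mul_right_cancel₀ hγ0 this
  obtain ⟨n1, n2⟩ := nf_of_diag (rEB B) hi2 hcB hσB huk
  exact ⟨B, i2, uk, hBr, hi2, huk', n1, n2⟩

/-- **[E-STR]/[E-DET]/[E-NF]** packaged as helper30's `Rho.EK`. -/
theorem exists_EK (hΔ : W.Δ ≠ 0) (hp2 : p ≠ 2) (hirr : W.ModRepIsIrreducible p) (T : Finset ℕ)
    (hT : ∀ r : ℕ, r.Prime → r ∉ T → W.IsGoodPrimeFor r ∧ r ≠ p)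
    (b : Module.Basis (Fin 2) (ZMod p) (TorsW W p))
    (hnf : ∃ (σ₀ τ₀ : GQ) (u : ZMod p),
      u * xF (fun g => (rbarB b g).trace) (2 : ZMod p)⁻¹ complexConjugation σ₀ τ₀ = 1 ∧
      ∀ g, rbarB b g
        = rhoMat (fun g => (rbarB b g).trace) (2 : ZMod p)⁻¹ complexConjugation σ₀ τ₀ u g) (k : ℕ) :
    ∃ B : Module.Basis (Fin 2) (ZMod (p ^ (k + 1))) (TorsW W (p ^ (k + 1))),
      (∀ i, redK W p k (B i) = b i) ∧ Rho.EK (p ^ (k + 1)) T W.apOfModel (rEB B) ∧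
      ∀ g, (rEB B g).map (castK p k) = rbarB b g := by
  obtain ⟨σ₀, τ₀, u, hu, hn⟩ := hnf
  obtain ⟨B, i2, uk, hBr, hi2, -, n1, n2⟩ := exists_basis_lift_nf hΔ hp2 hirr b hu hn k
  refine ⟨B, hBr, ⟨rEB_cont B (odd_pow_of_ne_two hp2 _), rEB_det b B hBr hΔ hp2 hirr, ?_,
    ⟨i2, σ₀, τ₀, uk, hi2, n1, n2⟩⟩, rEB_map_cast b B hBr⟩
  intro r hr hrT A hA φ hφ
  exact rEB_frob b B hBr hΔ hp2 hirr hr (hT r hr hrT).1 (hT r hr hrT).2 A hA φ hφ

/-- **the whole `E`-side** : the residual context and the tower `rE_k`, `k ≥ 0`. -/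
theorem exists_mctx_EK (hΔ : W.Δ ≠ 0) (hss : W.IsSemistableModel) (hp2 : p ≠ 2)
    (hirr : W.ModRepIsIrreducible p) (T : Finset ℕ) (h2 : 2 ∈ T) (hpT : p ∈ T)
    (hT : ∀ r : ℕ, r.Prime → r ∉ T → W.IsGoodPrimeFor r) :
    ∃ b : Module.Basis (Fin 2) (ZMod p) (TorsW W p), MCtx p T W.apOfModel (rbarB b) ∧
      ∀ k : ℕ, ∃ B : Module.Basis (Fin 2) (ZMod (p ^ (k + 1))) (TorsW W (p ^ (k + 1))),
        (∀ i, redK W p k (B i) = b i) ∧ Rho.EK (p ^ (k + 1)) T W.apOfModel (rEB B) ∧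
        ∀ g, (rEB B g).map (castK p k) = rbarB b g := by
  obtain ⟨b, hb⟩ := exists_mctx (W := W) (p := p) hΔ hss hp2 hirr T h2 hpT hT
  exact ⟨b, hb, fun k => exists_EK hΔ hp2 hirr T
    (fun r hr hrT => ⟨hT r hr hrT, fun h => hrT (h ▸ hpT)⟩) b hb.nf k⟩

end Fermat.Agent.ML.ESide
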