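import Fermat.Agent.TW.ESide.Big
import Fermat.Agent.TW.ESide.Conj
import Fermat.Agent.S40.Quad
import Fermat.Agent.S58.ESide
import Fermat.Agent.S58.Pts
import Fermat.Agent.HW.TorsCount
import Fermat.Agent.GAL.PC.CycloPow
import Fermat.Agent.GAL.PC.Core

/-!
# ML / E-side : the mod `p` representation of an arbitrary integral Weierstrass curve `W`, matrix form

Port of `TW/ESide/Rbar.lean` (Frey curve) to `W : WeierstrassCurve ℤ`, `W.Δ ≠ 0`, `p` ANY odd prime.  Nothing Frey specific: the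
non scalar element needed for `det = χ` comes from the irreducibility (no transvection at `2`).
-/

set_option autoImplicit false

namespace Fermat.Agent.ML.ESide

open Fermat.Agent.GAL Fermat.Agent.TW.ESide
open WeierstrassCurve WeierstrassCurve.Affine WeierstrassCurve.Affine.Point

local notation "Qbar" => AlgebraicClosure ℚ
local notation "GQ" => (AlgebraicClosure ℚ ≃ₐ[ℚ] AlgebraicClosure ℚ)
local notation "M₂" => Matrix (Fin 2) (Fin 2)

/-- `E[n]`, `E = W / ℚbar` (the type of the Prelude). -/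
noncomputable abbrev TorsW (W : WeierstrassCurve ℤ) (n : ℕ) :=
  Submodule.torsionBy ℤ (S58.EQ W) (n : ℤ)

variable (W : WeierstrassCurve ℤ)

theorem nsmul_coe_torsW {n : ℕ} (x : TorsW W n) : n • (x : S58.EQ W) = 0 := by
  have h := x.2
  rw [Submodule.mem_torsionBy_iff] at h
  rw [← natCast_zsmul]
  exact h

theorem map_Δ_ne_zero (hΔ : W.Δ ≠ 0) : (W.map (Int.castRingHom ℚ)).Δ ≠ 0 := by
  rw [WeierstrassCurve.map_Δ]
  simpa using hΔ

theorem finite_torsW {n : ℕ} (hn : Odd n) : Finite (TorsW W n) :=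
  HW.finite_torsionBy (k := Qbar) (W.map (Int.castRingHom ℚ)) hn (Nat.cast_ne_zero.2 hn.pos.ne')

theorem card_torsW (hΔ : W.Δ ≠ 0) {n : ℕ} (hn : Odd n) : Nat.card (TorsW W n) = n ^ 2 :=
  HW.card_torsionBy (k := Qbar) (W.map (Int.castRingHom ℚ)) two_ne_zero (map_Δ_ne_zero W hΔ) hn
    (Nat.cast_ne_zero.2 hn.pos.ne')

/-- finite level of `E[n]`. -/
theorem exists_level_torsW {n : ℕ} (hn : Odd n) :
    ∃ L : IntermediateField ℚ Qbar, FiniteDimensional ℚ L ∧
      ∀ σ : GQ, (∀ y ∈ L, σ y = y) → ∀ x : TorsW W n, σ • x = x := by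
  have : NeZero n := ⟨hn.pos.ne'⟩
  obtain ⟨L, hL, -, h, -⟩ := GAL.PC.CoreAux.exists_level (J := S58.EQ W) (X := {P : S58.EQ W | n • P = 0})
    (fun x _ => S58.exists_stab W x) (S58.finite_tors W hn) n
  exact ⟨L, hL, fun σ hσ x => Subtype.ext (h σ hσ _ (nsmul_coe_torsW W x))⟩

variable (p : ℕ) [Fact p.Prime]

theorem odd_of_ne_two (hp2 : p ≠ 2) : Odd p := (Fact.out : p.Prime).odd_of_ne_two hp2

theorem finrank_torsW (hΔ : W.Δ ≠ 0) (hp2 : p ≠ 2) :
    Module.finrank (ZMod p) (TorsW W p) = 2 := by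
  have hfin := finite_torsW W (odd_of_ne_two p hp2)
  have : Module.Finite (ZMod p) (TorsW W p) := Module.Finite.of_finite
  have h := Module.natCard_eq_pow_finrank (K := ZMod p) (V := TorsW W p)
  rw [Nat.card_zmod, card_torsW W hΔ (odd_of_ne_two p hp2)] at h
  exact (Nat.pow_right_injective (Fact.out : p.Prime).two_le h).symm

/-- the Galois action as a `ZMod p`-linear map -/
noncomputable def rhoLinW (σ : GQ) : TorsW W p →ₗ[ZMod p] TorsW W p :=
  (DistribSMul.toAddMonoidHom (TorsW W p) σ).toZModLinearMap p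

@[simp] lemma rhoLinW_apply (σ : GQ) (x : TorsW W p) : rhoLinW W p σ x = σ • x := rfl

/-- the Galois action on `E[p]` as a monoid hom to the endomorphism ring -/
noncomputable def rhoEndW : GQ →* Module.End (ZMod p) (TorsW W p) where
  toFun σ := rhoLinW W p σ
  map_one' := by ext x; simp
  map_mul' σ τ := by ext x; simp [mul_smul]

@[simp] lemma rhoEndW_apply (σ : GQ) (x : TorsW W p) : rhoEndW W p σ x = σ • x := rfl

variable {W p}

/-- the matrix representation attached to a basis of `E[p]` -/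
noncomputable def rbarB (b : Module.Basis (Fin 2) (ZMod p) (TorsW W p)) : GQ →* M₂ (ZMod p) :=
  ((LinearMap.toMatrixAlgEquiv b).toAlgHom.toRingHom.toMonoidHom).comp (rhoEndW W p)

variable (b : Module.Basis (Fin 2) (ZMod p) (TorsW W p))

lemma rbarB_apply (σ : GQ) : rbarB b σ = LinearMap.toMatrixAlgEquiv b (rhoEndW W p σ) := rfl

lemma rbarB_eq_one_iff (σ : GQ) : rbarB b σ = 1 ↔ ∀ x : TorsW W p, σ • x = x := by
  rw [rbarB_apply, ← map_one (LinearMap.toMatrixAlgEquiv b),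
    (LinearMap.toMatrixAlgEquiv b).injective.eq_iff]
  constructor
  · intro h x
    have := congrArg (fun f => f x) h
    simpa using this
  · intro h
    ext x
    simp [h x]

lemma rbarB_mulVec (σ : GQ) (x : TorsW W p) :
    (rbarB b σ).mulVec (b.repr x) = b.repr (σ • x) := by
  rw [rbarB_apply]
  exact LinearMap.toMatrix_mulVec_repr b b (rhoEndW W p σ) x

/-- no stable line over `𝔽_p` -/
theorem rbarB_noLine (hirr : W.ModRepIsIrreducible p) (v : Fin 2 → ZMod p) (hv : v ≠ 0) :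
    ∃ σ : GQ, ∀ c : ZMod p, (rbarB b σ).mulVec v ≠ c • v := by
  by_contra hcon
  push Not at hcon
  obtain ⟨x, hx⟩ : ∃ x : TorsW W p, (b.repr x : Fin 2 → ZMod p) = v :=
    ⟨b.equivFun.symm v, by
      have := b.equivFun.apply_symm_apply v
      exact this⟩
  have hx0 : x ≠ 0 := by
    rintro rfl
    apply hv
    rw [← hx]; simp
  have hstab : ∀ σ : GQ, ∃ c : ZMod p, σ • x = c • x := by
    intro σ
    obtain ⟨c, hc⟩ := hcon σ
    refine ⟨c, ?_⟩
    apply b.repr.injective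
    apply DFunLike.coe_injective
    rw [← rbarB_mulVec, hx, hc, map_smul, ← hx]
    rfl
  have hN : IsGaloisStable ℚ (Submodule.span (ZMod p) {x}) := by
    intro σ y hy
    obtain ⟨a, rfl⟩ := Submodule.mem_span_singleton.1 hy
    obtain ⟨c, hc⟩ := hstab σ
    have : σ • (a • x) = a • σ • x := (rhoLinW W p σ).map_smul a x
    rw [this, hc]
    exact Submodule.smul_mem _ _ (Submodule.smul_mem _ _ (Submodule.mem_span_singleton_self x))
  rcases hirr.2 _ hN with h | h
  · exact hx0 ((Submodule.span_singleton_eq_bot).1 h)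
  · have h1 := finrank_span_singleton (K := ZMod p) hx0
    rw [h, finrank_top, Module.finrank_eq_card_basis b] at h1
    simp at h1

/-- a non scalar element in the image. -/
theorem rbarB_exists_nonscalar (hirr : W.ModRepIsIrreducible p) :
    ∃ u : GQ, ∀ c : ZMod p, rbarB b u ≠ c • 1 := by
  obtain ⟨σ, hσ⟩ := rbarB_noLine b hirr (Pi.single 0 1) (by
    intro h
    have := congrFun h 0
    simp at this)
  refine ⟨σ, fun c hc => hσ c ?_⟩
  rw [hc, Matrix.smul_mulVec, Matrix.one_mulVec]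

/-- transport of an identity between endomorphisms to matrices -/
lemma toMatB_eq_zero {f : Module.End (ZMod p) (TorsW W p)} (h : ∀ x, f x = 0) :
    LinearMap.toMatrixAlgEquiv b f = 0 := by
  have : f = 0 := by ext x; simp [h x]
  rw [this, _root_.map_zero]

lemma toMatB_quad (f : Module.End (ZMod p) (TorsW W p)) (a c : ZMod p) :
    LinearMap.toMatrixAlgEquiv b f * LinearMap.toMatrixAlgEquiv b f
      - a • LinearMap.toMatrixAlgEquiv b f + c • 1
    = LinearMap.toMatrixAlgEquiv b (f * f - a • f + c • 1) := by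
  rw [map_add, map_sub, map_mul, map_smul, map_smul, map_one]

/-- inertia at `q ≠ p` is unipotent (strong form) at a prime of good or multiplicative reduction. -/
theorem rbarB_unip (hΔ : W.Δ ≠ 0) (hp2 : p ≠ 2) {q : ℕ} (hq : q.Prime) (hqp : q ≠ p)
    (hss : (q : ℤ) ∣ W.Δ → ¬ (q : ℤ) ∣ W.c₄)
    (A : ValuationSubring Qbar) (hA : A.LiesOverPrime q) {σ τ : GQ}
    (hσ : σ ∈ A.inertiaSubgroupIn ℚ) (hτ : τ ∈ A.inertiaSubgroupIn ℚ) :
    (rbarB b τ - 1) * (rbarB b σ - 1) = 0 := by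
  rw [rbarB_apply, rbarB_apply, ← map_one (LinearMap.toMatrixAlgEquiv b), ← map_sub,
    ← map_sub, ← map_mul]
  apply toMatB_eq_zero
  intro x
  have hcop : Nat.Coprime p q := (Nat.coprime_primes Fact.out hq).2 (Ne.symm hqp)
  have := S58.inertia_unipotent W hq hΔ hss (odd_of_ne_two p hp2) hcop A hA σ τ hσ hτ
    (x : S58.EQ W) (nsmul_coe_torsW W x)
  simp only [Module.End.mul_apply, LinearMap.sub_apply, rhoEndW_apply, Module.End.one_apply]
  apply Subtype.ext
  show τ • (σ • (x : S58.EQ W) - x) - (σ • (x : S58.EQ W) - x) = 0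
  rw [this, sub_self]

/-- unramified at the good primes `q ≠ p`. -/
theorem rbarB_unram (hp2 : p ≠ 2) {q : ℕ} (hq : q.Prime) (hqp : q ≠ p)
    (hgood : W.IsGoodPrimeFor q)
    (A : ValuationSubring Qbar) (hA : A.LiesOverPrime q) {σ : GQ}
    (hσ : σ ∈ A.inertiaSubgroupIn ℚ) : rbarB b σ = 1 := by
  rw [rbarB_eq_one_iff]
  intro x
  have hcop : Nat.Coprime p q := (Nat.coprime_primes Fact.out hq).2 (Ne.symm hqp)
  exact Subtype.ext (S58.inertia_good W hq hgood (odd_of_ne_two p hp2) hcop A hA σ hσ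
    (x : S58.EQ W) (nsmul_coe_torsW W x))

/-- the quadratic relation on points -/
theorem torsW_quad (hΔ : W.Δ ≠ 0) (hp2 : p ≠ 2) : ∃ t : GQ → ℤ, ∀ (σ : GQ) (x : TorsW W p),
    σ • x + ((cycloChar p σ : (ZMod p)ˣ) : ZMod p).val • σ⁻¹ • x = t σ • x := by
  have : NeZero p := ⟨(Fact.out : p.Prime).ne_zero⟩
  obtain ⟨t, ht, -⟩ := Fermat.Agent.S40.exists_quad W hΔ (p := p) (M := 1) Fact.out hp2
  exact ⟨t, fun σ x => Subtype.ext (ht σ (x : S58.EQ W) (nsmul_coe_torsW W x))⟩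

/-- the quadratic relation for matrices -/
theorem rbarB_quad (hΔ : W.Δ ≠ 0) (hp2 : p ≠ 2) (σ : GQ) :
    ∃ t : ZMod p, rbarB b σ * rbarB b σ - t • rbarB b σ
      + ((cycloChar p σ : (ZMod p)ˣ) : ZMod p) • 1 = 0 := by
  obtain ⟨t, ht⟩ := torsW_quad (W := W) (p := p) hΔ hp2
  refine ⟨(t σ : ZMod p), ?_⟩
  rw [rbarB_apply, toMatB_quad]
  apply toMatB_eq_zero
  intro x
  have h := ht σ (σ • x)
  rw [inv_smul_smul] at h
  simp only [LinearMap.add_apply, LinearMap.sub_apply, Module.End.mul_apply, LinearMap.smul_apply,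
    rhoEndW_apply, Module.End.one_apply]
  rw [Int.cast_smul_eq_zsmul, ← h]
  have e : ((cycloChar p σ : (ZMod p)ˣ) : ZMod p) • x
      = ((cycloChar p σ : (ZMod p)ˣ) : ZMod p).val • x := by
    rw [← Nat.cast_smul_eq_nsmul (ZMod p), ZMod.natCast_zmod_val]
  rw [e]
  abel

/-- `det = χ_p` -/
theorem rbarB_det (hΔ : W.Δ ≠ 0) (hp2 : p ≠ 2) (hirr : W.ModRepIsIrreducible p) (σ : GQ) :
    (rbarB b σ).det = ((cycloChar p σ : (ZMod p)ˣ) : ZMod p) := by
  obtain ⟨u, hu⟩ := rbarB_exists_nonscalar b hirr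
  exact det_eq_of_quad (rbarB b) (cycloChar p) (rbarB_quad b hΔ hp2) u hu σ

/-- trace and determinant of Frobenius at the good primes `ℓ ≠ p` (`ℓ = 2` allowed) -/
theorem rbarB_frob (hΔ : W.Δ ≠ 0) (hp2 : p ≠ 2) (hirr : W.ModRepIsIrreducible p)
    {ℓ : ℕ} (hℓ : ℓ.Prime) (hgood : W.IsGoodPrimeFor ℓ) (hℓp : ℓ ≠ p)
    (A : ValuationSubring Qbar) (hA : A.LiesOverPrime ℓ) (τ : GQ) (hτ : A.IsFrobeniusAt τ ℓ) :
    (rbarB b τ).trace = ((W.apOfModel ℓ : ℤ) : ZMod p) ∧ (rbarB b τ).det = ((ℓ : ℕ) : ZMod p) := by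
  obtain ⟨u, hu⟩ := rbarB_exists_nonscalar b hirr
  have hχ : ((cycloChar p τ : (ZMod p)ˣ) : ZMod p) = ℓ :=
    cycloChar_of_isFrobeniusAt hℓ hℓp hA hτ
  refine ⟨?_, by rw [rbarB_det b hΔ hp2 hirr, hχ]⟩
  apply trace_eq_of_quad (rbarB b) (cycloChar p) (rbarB_quad b hΔ hp2) u hu τ
  rw [hχ, rbarB_apply, toMatB_quad]
  apply toMatB_eq_zero
  intro x
  have hcop : Nat.Coprime p ℓ := (Nat.coprime_primes Fact.out hℓ).2 (Ne.symm hℓp)
  have h := S58.frobenius_relation_odd W hℓ hgood (odd_of_ne_two p hp2) hcop A hA τ hτ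
    (x : S58.EQ W) (nsmul_coe_torsW W x)
  simp only [LinearMap.add_apply, LinearMap.sub_apply, Module.End.mul_apply, LinearMap.smul_apply,
    rhoEndW_apply, Module.End.one_apply]
  rw [Int.cast_smul_eq_zsmul, Nat.cast_smul_eq_nsmul, ← natCast_zsmul]
  exact Subtype.ext h

/-- finite level -/
theorem rbarB_cont (hp2 : p ≠ 2) : GaloisFactorsThroughFiniteLevel (rbarB b) := by
  obtain ⟨L, hL, h⟩ := exists_level_torsW W (odd_of_ne_two p hp2)
  exact ⟨L, hL, fun σ hσ => (rbarB_eq_one_iff b σ).2 (h σ hσ)⟩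

end Fermat.Agent.ML.ESide
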