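import Fermat.Prelude.Def_FLTPrelim_Modularity

/-!
# ML / ESide / A2Bound : the trivial bound `|a_q(W)| ≤ q` and its consequences at `q = 2`

`a_q(W) = q + 1 - #W(𝔽_q)` and `1 ≤ #W(𝔽_q) ≤ q² + 1` (nonsingular affine points and the point at infinity).  With
`#W(𝔽_q) ≤ 2 q + 1` replaced by the crude `q² + 1` this is enough at `q = 2` : `-2 ≤ a_2(W) ≤ 2`, NO hypothesis on `W`.

* `apOfModel_two_le`, `neg_two_le_apOfModel_two`;
* `nine_sub_apOfModel_two_sq_ne_zero` : `9 - a_2² ≠ 0`;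
* `apOfModel_two_eq_zero_of_three_dvd` : `3 ∣ a_2² - 9 → a_2 = 0`, hence `9 - a_2² = 9`;
* `apOfModel_two_sq_of_five_dvd` : `5 ∣ a_2² - 9 → a_2² = 4`, hence `9 - a_2² = 5`.
-/

set_option autoImplicit false

namespace Fermat.Agent.ML.ESide

open WeierstrassCurve

/-- the map `point ↦ coordinates`. -/
def a2Coord {R : Type*} [CommRing R] (W' : WeierstrassCurve.Affine R) :
    W'.Point → Option (R × R)
  | .zero => none
  | .some x y _ => some (x, y)

theorem a2Coord_injective {R : Type*} [CommRing R] (W' : WeierstrassCurve.Affine R) :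
    Function.Injective (a2Coord W') := by
  rintro (_ | ⟨x₁, y₁, h₁⟩) (_ | ⟨x₂, y₂, h₂⟩) h <;>
    simp only [a2Coord, Option.some.injEq, Prod.mk.injEq, reduceCtorEq] at h
  · rfl
  · obtain ⟨rfl, rfl⟩ := h; rfl

theorem card_point_zmod_two_le (W' : WeierstrassCurve.Affine (ZMod 2)) :
    Nat.card W'.Point ≤ 5 := by
  have h := Nat.card_le_card_of_injective (a2Coord W') (a2Coord_injective W')
  have e : Nat.card (Option (ZMod 2 × ZMod 2)) = 5 := by
    rw [Nat.card_eq_fintype_card]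
    rfl
  rwa [e] at h

theorem one_le_card_point_zmod_two (W' : WeierstrassCurve.Affine (ZMod 2)) :
    1 ≤ Nat.card W'.Point := by
  have : Finite W'.Point := Finite.of_injective _ (a2Coord_injective W')
  have : Nonempty W'.Point := ⟨.zero⟩
  exact Nat.card_pos

theorem apOfModel_two_eq (W : WeierstrassCurve ℤ) :
    W.apOfModel 2 = 3 - (Nat.card (W.reductionMod 2).toAffine.Point : ℤ) := by
  have e : (Nat.card (ZMod 2) : ℤ) = 2 := by
    rw [Nat.card_eq_fintype_card, ZMod.card]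
    rfl
  rw [apOfModel, traceOfFrobenius, e, WeierstrassCurve.card]
  norm_num

theorem apOfModel_two_le (W : WeierstrassCurve ℤ) : W.apOfModel 2 ≤ 2 := by
  have h := one_le_card_point_zmod_two (W.reductionMod 2).toAffine
  rw [apOfModel_two_eq]
  omega

theorem neg_two_le_apOfModel_two (W : WeierstrassCurve ℤ) : -2 ≤ W.apOfModel 2 := by
  have h := card_point_zmod_two_le (W.reductionMod 2).toAffine
  rw [apOfModel_two_eq]
  omega

theorem apOfModel_two_sq_le (W : WeierstrassCurve ℤ) : W.apOfModel 2 ^ 2 ≤ 4 := by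
  have h1 := apOfModel_two_le W
  have h2 := neg_two_le_apOfModel_two W
  nlinarith

/-- `9 - a_2² ≠ 0`. -/
theorem nine_sub_apOfModel_two_sq_ne_zero (W : WeierstrassCurve ℤ) :
    9 - W.apOfModel 2 ^ 2 ≠ 0 := by
  have h := apOfModel_two_sq_le W
  omega

theorem apOfModel_two_sq_ne_nine (W : WeierstrassCurve ℤ) : W.apOfModel 2 ^ 2 ≠ 9 := by
  have h := apOfModel_two_sq_le W
  omega

/-- the mixed case at `p = 3`. -/
theorem apOfModel_two_eq_zero_of_three_dvd (W : WeierstrassCurve ℤ)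
    (h : (3 : ℤ) ∣ W.apOfModel 2 ^ 2 - 9) : W.apOfModel 2 = 0 := by
  have h1 := apOfModel_two_le W
  have h2 := neg_two_le_apOfModel_two W
  obtain ⟨a, ha⟩ : ∃ a, a = W.apOfModel 2 := ⟨_, rfl⟩
  rw [← ha] at h h1 h2 ⊢
  interval_cases a <;> first | rfl | (exfalso; revert h; decide)

theorem nine_sub_apOfModel_two_sq_of_three_dvd (W : WeierstrassCurve ℤ)
    (h : (3 : ℤ) ∣ W.apOfModel 2 ^ 2 - 9) : 9 - W.apOfModel 2 ^ 2 = 9 := by
  rw [apOfModel_two_eq_zero_of_three_dvd W h]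
  norm_num

/-- the mixed case at `p = 5`. -/
theorem apOfModel_two_sq_of_five_dvd (W : WeierstrassCurve ℤ)
    (h : (5 : ℤ) ∣ W.apOfModel 2 ^ 2 - 9) : W.apOfModel 2 ^ 2 = 4 := by
  have h1 := apOfModel_two_le W
  have h2 := neg_two_le_apOfModel_two W
  obtain ⟨a, ha⟩ : ∃ a, a = W.apOfModel 2 := ⟨_, rfl⟩
  rw [← ha] at h h1 h2 ⊢
  interval_cases a <;> first | rfl | (exfalso; revert h; decide)

theorem nine_sub_apOfModel_two_sq_of_five_dvd (W : WeierstrassCurve ℤ)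
    (h : (5 : ℤ) ∣ W.apOfModel 2 ^ 2 - 9) : 9 - W.apOfModel 2 ^ 2 = 5 := by
  rw [apOfModel_two_sq_of_five_dvd W h]
  norm_num

/-- uniform form : for `p ∈ {3, 5}`, `p³ ∤ 3 (9 - a_2²)` … in fact `3 (9 - a_2²) ∈ {15, 24, 27}`. -/
theorem not_pow_dvd_three_mul (W : WeierstrassCurve ℤ) {p : ℕ} (hp : p = 3 ∨ p = 5) :
    ¬ ((p : ℤ) ^ 4 ∣ 3 * (9 - W.apOfModel 2 ^ 2)) := by
  have h1 := apOfModel_two_le W
  have h2 := neg_two_le_apOfModel_two W
  obtain ⟨a, ha⟩ : ∃ a, a = W.apOfModel 2 := ⟨_, rfl⟩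
  rw [← ha] at h1 h2 ⊢
  rcases hp with rfl | rfl <;> interval_cases a <;> decide

end Fermat.Agent.ML.ESide
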