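import Fermat.Prelude.Def_FLTPrelim_Modularity

/-!
# ML / ESide / Ap2 : the trivial bound `|a_2(W)| ≤ 2`

`W.apOfModel 2 = 3 - #W(F_2)` and `1 ≤ #W(F_2) ≤ 5` (the points inject into `Option (F_2 × F_2)`), for EVERY integral Weierstrass
equation (good or bad at `2`).   Consequences used at the prime `2` in the mixed case (`tr rbar(Frob_2)^2 = 9` in `F_p`):

* `9 - a_2(W)^2 ≠ 0`;
* `p = 3`, `3 ∣ 9 - a_2^2`  :  `a_2 = 0`,  `3 (9 - a_2^2) = 27`;
* `p = 5`, `5 ∣ 9 - a_2^2`  :  `a_2 = ± 2`,  `3 (9 - a_2^2) = 15`.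
-/

set_option autoImplicit false

namespace Fermat.Agent.ML.ESide

open WeierstrassCurve

/-- the points of an affine Weierstrass curve as a subset of `Option (R × R)`. -/
def ptPair {R : Type*} [CommRing R] {W' : WeierstrassCurve.Affine R} :
    W'.Point → Option (R × R)
  | .zero => none
  | .some x y _ => Option.some (x, y)

theorem ptPair_injective {R : Type*} [CommRing R] {W' : WeierstrassCurve.Affine R} :
    Function.Injective (ptPair (W' := W')) := by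
  rintro (_ | ⟨x₁, y₁, h₁⟩) (_ | ⟨x₂, y₂, h₂⟩) h <;>
    simp only [ptPair, Option.some.injEq, Prod.mk.injEq, reduceCtorEq] at h
  · rfl
  · obtain ⟨rfl, rfl⟩ := h; rfl

/-- `#W(R) ≤ #R^2 + 1`. -/
theorem card_point_le {R : Type*} [CommRing R] [Finite R] (W' : WeierstrassCurve R) :
    W'.card ≤ Nat.card R * Nat.card R + 1 := by
  have h := Nat.card_le_card_of_injective _ (ptPair_injective (W' := W'.toAffine))
  have h2 : Nat.card (Option (R × R)) = Nat.card R * Nat.card R + 1 := by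
    rw [Finite.card_option, Nat.card_prod]
  rw [h2] at h
  exact h

/-- `1 ≤ #W(R)`. -/
theorem one_le_card_point {R : Type*} [CommRing R] [Finite R] (W' : WeierstrassCurve R) :
    1 ≤ W'.card := by
  have : Nonempty W'.toAffine.Point := ⟨.zero⟩
  exact Nat.one_le_iff_ne_zero.mpr (Nat.card_pos).ne'

/-- `- 2 ≤ a_2(W)`. -/
theorem neg_two_le_ap_two (W : WeierstrassCurve ℤ) : -2 ≤ W.apOfModel 2 := by
  have h := card_point_le (W.reductionMod 2)
  have h2 : Nat.card (ZMod 2) = 2 := Nat.card_zmod 2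
  unfold WeierstrassCurve.apOfModel WeierstrassCurve.traceOfFrobenius
  rw [h2] at h ⊢
  push_cast
  omega

/-- `a_2(W) ≤ 2`. -/
theorem ap_two_le_two (W : WeierstrassCurve ℤ) : W.apOfModel 2 ≤ 2 := by
  have h := one_le_card_point (W.reductionMod 2)
  have h2 : Nat.card (ZMod 2) = 2 := Nat.card_zmod 2
  unfold WeierstrassCurve.apOfModel WeierstrassCurve.traceOfFrobenius
  rw [h2]
  push_cast
  omega

theorem abs_ap_two_le (W : WeierstrassCurve ℤ) : |W.apOfModel 2| ≤ 2 :=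
  abs_le.mpr ⟨neg_two_le_ap_two W, ap_two_le_two W⟩

/-- `a_2(W)^2 ≤ 4`. -/
theorem ap_two_sq_le (W : WeierstrassCurve ℤ) : W.apOfModel 2 ^ 2 ≤ 4 := by
  have h1 := neg_two_le_ap_two W
  have h2 := ap_two_le_two W
  nlinarith

/-- `9 - a_2(W)^2 ≠ 0` : `W` never has `a_2 = ± 3`. -/
theorem nine_sub_ap_two_sq_ne_zero (W : WeierstrassCurve ℤ) : 9 - W.apOfModel 2 ^ 2 ≠ 0 := by
  have := ap_two_sq_le W
  omega

theorem nine_sub_ap_two_sq_pos (W : WeierstrassCurve ℤ) : 0 < 9 - W.apOfModel 2 ^ 2 := by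
  have := ap_two_sq_le W
  omega

/-- the five possible values. -/
theorem ap_two_cases (W : WeierstrassCurve ℤ) :
    W.apOfModel 2 = -2 ∨ W.apOfModel 2 = -1 ∨ W.apOfModel 2 = 0 ∨ W.apOfModel 2 = 1 ∨
      W.apOfModel 2 = 2 := by
  have h1 := neg_two_le_ap_two W
  have h2 := ap_two_le_two W
  omega

/-- mixed case, `p = 3` : `a_2(W) = 0`. -/
theorem ap_two_eq_zero_of_three_dvd (W : WeierstrassCurve ℤ) (h : (3 : ℤ) ∣ W.apOfModel 2) :
    W.apOfModel 2 = 0 := by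
  have h1 := neg_two_le_ap_two W
  have h2 := ap_two_le_two W
  omega

theorem ap_two_eq_zero_of_three_dvd_nine_sub (W : WeierstrassCurve ℤ)
    (h : (3 : ℤ) ∣ 9 - W.apOfModel 2 ^ 2) : W.apOfModel 2 = 0 := by
  rcases ap_two_cases W with h0 | h0 | h0 | h0 | h0 <;> rw [h0] at h ⊢ <;> revert h <;> decide

/-- mixed case, `p = 5` : `a_2(W) = ± 2`. -/
theorem ap_two_eq_of_five_dvd_nine_sub (W : WeierstrassCurve ℤ)
    (h : (5 : ℤ) ∣ 9 - W.apOfModel 2 ^ 2) : W.apOfModel 2 = 2 ∨ W.apOfModel 2 = -2 := by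
  rcases ap_two_cases W with h0 | h0 | h0 | h0 | h0 <;> rw [h0] at h ⊢ <;> revert h <;> decide

/-- mixed case, `p = 3` : the multiplier `3 (9 - a_2^2)` is `27`. -/
theorem mult_two_three (W : WeierstrassCurve ℤ) (h : (3 : ℤ) ∣ 9 - W.apOfModel 2 ^ 2) :
    3 * (9 - W.apOfModel 2 ^ 2) = 27 := by
  rw [ap_two_eq_zero_of_three_dvd_nine_sub W h]; norm_num

/-- mixed case, `p = 5` : the multiplier `3 (9 - a_2^2)` is `15`. -/
theorem mult_two_five (W : WeierstrassCurve ℤ) (h : (5 : ℤ) ∣ 9 - W.apOfModel 2 ^ 2) :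
    3 * (9 - W.apOfModel 2 ^ 2) = 15 := by
  rcases ap_two_eq_of_five_dvd_nine_sub W h with h0 | h0 <;> rw [h0] <;> norm_num

/-- uniform form : for `p = 3` or `5`, `p^4` never divides `3 (9 - a_2(W)^2)`   (no hypothesis on `W`). -/
theorem not_pow_four_dvd_mult_two (W : WeierstrassCurve ℤ) {p : ℕ} (hp : p = 3 ∨ p = 5) :
    ¬ ((p : ℤ) ^ 4 ∣ 3 * (9 - W.apOfModel 2 ^ 2)) := by
  rcases hp with rfl | rfl <;>
  rcases ap_two_cases W with h0 | h0 | h0 | h0 | h0 <;> rw [h0] <;> decide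

/-- uniform form for any prime `p` and any multiplier `c ≠ 0` : a bound `f` exists. -/
theorem exists_not_pow_dvd_mult_two (W : WeierstrassCurve ℤ) {p : ℕ} (hp : p.Prime) {c : ℤ}
    (hc : c ≠ 0) : ∃ f : ℕ, ¬ ((p : ℤ) ^ (f + 1) ∣ c * (9 - W.apOfModel 2 ^ 2)) := by
  have hne : c * (9 - W.apOfModel 2 ^ 2) ≠ 0 := mul_ne_zero hc (nine_sub_ap_two_sq_ne_zero W)
  set N := c * (9 - W.apOfModel 2 ^ 2) with hN
  refine ⟨N.natAbs, fun h => ?_⟩
  have h1 : p ^ (N.natAbs + 1) ∣ N.natAbs := by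
    have := Int.natAbs_dvd_natAbs.mpr h
    simpa [Int.natAbs_pow] using this
  have h2 : p ^ (N.natAbs + 1) ≤ N.natAbs := Nat.le_of_dvd (Int.natAbs_pos.mpr hne) h1
  have h3 : N.natAbs + 1 < p ^ (N.natAbs + 1) := Nat.lt_pow_self hp.one_lt
  omega

end Fermat.Agent.ML.ESide
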