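import Fermat.Agent.ML.ESide.Ap2
import Fermat.Agent.ML.Main.Spec1

/-!
# ML / ESide / Ap2Mixed : `W` good at `2`, mixed case : the value of `a_2(W)`

`Mixed2 (rbarB b)` (`tr rbar(Frob_2)^2 = 9` in `F_p`) and `W` good at `2` give `p ∣ 9 - a_2(W)^2`, hence (`|a_2| ≤ 2`)
`a_2(W) = 0` (`p = 3`) resp. `a_2(W) = ± 2` (`p = 5`), and the multiplier `3 (9 - a_2(W)^2)` is `27` resp. `15`.
-/

set_option autoImplicit false

noncomputable section

namespace Fermat.Agent.ML.ESide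

open Fermat.Agent.RIB Fermat.Agent.ML

local notation "Qbar" => AlgebraicClosure ℚ
local notation "GQ" => (AlgebraicClosure ℚ ≃ₐ[ℚ] AlgebraicClosure ℚ)

variable {W : WeierstrassCurve ℤ} {p : ℕ} [Fact p.Prime]

/-- `W` good at `2` : `tr rbar(Frob_2) = a_2(W)` at every place and for every Frobenius. -/
theorem trace_rbarB_frob_two (H : Hyp59 W p) (b : Module.Basis (Fin 2) (ZMod p) (TorsW W p))
    (hgood : W.IsGoodPrimeFor 2) (A : ValuationSubring Qbar) (hA : A.LiesOverPrime 2) (φ : GQ)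
    (hφ : A.IsFrobeniusAt φ 2) : (rbarB b φ).trace = ((W.apOfModel 2 : ℤ) : ZMod p) :=
  (rbarB_frob b H.hΔ H.ne_two H.hirr Nat.prime_two hgood (Ne.symm H.ne_two) A hA φ hφ).1

/-- `W` good at `2`, mixed case : `p ∣ 9 - a_2(W)^2`. -/
theorem dvd_nine_sub_of_mixed2 (H : Hyp59 W p) (b : Module.Basis (Fin 2) (ZMod p) (TorsW W p))
    (hgood : W.IsGoodPrimeFor 2) (hm : Mixed2 (rbarB b)) : (p : ℤ) ∣ 9 - W.apOfModel 2 ^ 2 := by
  obtain ⟨A, hA, φ, hφ, h⟩ := hm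
  rw [trace_rbarB_frob_two H b hgood A hA φ hφ] at h
  rw [← ZMod.intCast_zmod_eq_zero_iff_dvd]
  push_cast
  rw [h]
  ring

/-- `W` good at `2`, NOT the mixed case : `9 - a_2(W)^2` is prime to `p`. -/
theorem not_dvd_nine_sub_of_not_mixed2 (H : Hyp59 W p)
    (b : Module.Basis (Fin 2) (ZMod p) (TorsW W p)) (hgood : W.IsGoodPrimeFor 2)
    (A : ValuationSubring Qbar) (hA : A.LiesOverPrime 2) (φ : GQ) (hφ : A.IsFrobeniusAt φ 2)
    (hm : ¬ Mixed2 (rbarB b)) : ¬ (p : ℤ) ∣ 9 - W.apOfModel 2 ^ 2 := by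
  intro hd
  refine hm ⟨A, hA, φ, hφ, ?_⟩
  rw [trace_rbarB_frob_two H b hgood A hA φ hφ]
  rw [← ZMod.intCast_zmod_eq_zero_iff_dvd] at hd
  push_cast at hd
  linear_combination -hd

/-- `W` good at `2`, mixed case : `(p, a_2(W)) = (3, 0)`, `(5, 2)` or `(5, -2)`. -/
theorem ap_two_of_mixed2 (H : Hyp59 W p) (b : Module.Basis (Fin 2) (ZMod p) (TorsW W p))
    (hgood : W.IsGoodPrimeFor 2) (hm : Mixed2 (rbarB b)) :
    (p = 3 ∧ W.apOfModel 2 = 0) ∨ (p = 5 ∧ (W.apOfModel 2 = 2 ∨ W.apOfModel 2 = -2)) := by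
  have hd := dvd_nine_sub_of_mixed2 H b hgood hm
  rcases H.hp35 with h3 | h5
  · left
    refine ⟨h3, ap_two_eq_zero_of_three_dvd_nine_sub W ?_⟩
    rw [h3] at hd
    exact_mod_cast hd
  · right
    refine ⟨h5, ap_two_eq_of_five_dvd_nine_sub W ?_⟩
    rw [h5] at hd
    exact_mod_cast hd

/-- `W` good at `2`, mixed case : `3 (9 - a_2(W)^2) = 27` (`p = 3`) resp. `15` (`p = 5`). -/
theorem mult_two_of_mixed2 (H : Hyp59 W p) (b : Module.Basis (Fin 2) (ZMod p) (TorsW W p))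
    (hgood : W.IsGoodPrimeFor 2) (hm : Mixed2 (rbarB b)) :
    (p = 3 ∧ 3 * (9 - W.apOfModel 2 ^ 2) = 27) ∨ (p = 5 ∧ 3 * (9 - W.apOfModel 2 ^ 2) = 15) := by
  rcases ap_two_of_mixed2 H b hgood hm with ⟨h, h0⟩ | ⟨h, h0 | h0⟩
  · left; exact ⟨h, by rw [h0]; norm_num⟩
  · right; exact ⟨h, by rw [h0]; norm_num⟩
  · right; exact ⟨h, by rw [h0]; norm_num⟩

end Fermat.Agent.ML.ESide
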