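import Fermat.Agent.TW.ESide.Conj

/-!
# ML / E-side : abstract `2 × 2` lemmas over a commutative ring

* `nf_of_diag` : `r c₀ = diag (1,-1)`, `(r σ₀) 0 1 = 1`, `u * (r τ₀) 1 0 = 1` ⟹ `r` is in Wiles' normal form;
* `diag_of_nf` : the converse (over a field);
* `det_eq_of_quad_loc`, `trace_eq_of_quad_loc` : `det = χ`, `tr = P` from the quadratic relations, over a ring `R` with a
  "residue map" `π : R → F` detecting the units, when the reduction of `r` contains a non scalar matrix.
-/

set_option autoImplicit false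

namespace Fermat.Agent.ML.ESide

open Matrix Fermat.Agent.TW.TR Fermat.Agent.RIB.Rho

section NF

variable {R : Type*} [CommRing R] {G : Type*} [Group G]

local notation "M₂" => Matrix (Fin 2) (Fin 2) R

theorem aF_of_diag (r : G →* M₂) {i2 : R} (h2 : i2 * 2 = 1) {c₀ : G}
    (hc : r c₀ = !![1, 0; 0, -1]) (g : G) :
    aF (fun g => (r g).trace) i2 c₀ g = r g 0 0 := by
  rw [aF_eq, map_mul, hc]
  simp only [Matrix.trace_fin_two, Matrix.mul_apply, Fin.sum_univ_two, Matrix.of_apply,
    Matrix.cons_val_zero, Matrix.cons_val_one, Matrix.cons_val', Matrix.cons_val_fin_one]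
  linear_combination (r g 0 0) * h2

theorem dF_of_diag (r : G →* M₂) {i2 : R} (h2 : i2 * 2 = 1) {c₀ : G}
    (hc : r c₀ = !![1, 0; 0, -1]) (g : G) :
    dF (fun g => (r g).trace) i2 c₀ g = r g 1 1 := by
  rw [dF_eq, map_mul, hc]
  simp only [Matrix.trace_fin_two, Matrix.mul_apply, Fin.sum_univ_two, Matrix.of_apply,
    Matrix.cons_val_zero, Matrix.cons_val_one, Matrix.cons_val', Matrix.cons_val_fin_one]
  linear_combination (r g 1 1) * h2

theorem xF_of_diag (r : G →* M₂) {i2 : R} (h2 : i2 * 2 = 1) {c₀ : G}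
    (hc : r c₀ = !![1, 0; 0, -1]) (g g' : G) :
    xF (fun g => (r g).trace) i2 c₀ g g' = r g 0 1 * r g' 1 0 := by
  rw [xF_eq]
  simp only [map_mul, hc]
  simp only [Matrix.trace_fin_two, Matrix.mul_apply, Fin.sum_univ_two, Matrix.of_apply,
    Matrix.cons_val_zero, Matrix.cons_val_one, Matrix.cons_val', Matrix.cons_val_fin_one]
  linear_combination (r g 0 1 * r g' 1 0) * (i2 * 2 + 1) * h2

/-- a representation with `c₀ ↦ diag (1,-1)` and normalised off-diagonal entries is in Wiles' normal form. -/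
theorem nf_of_diag (r : G →* M₂) {i2 : R} (h2 : i2 * 2 = 1) {c₀ σ₀ τ₀ : G} {u : R}
    (hc : r c₀ = !![1, 0; 0, -1]) (hσ : r σ₀ 0 1 = 1) (hτ : u * r τ₀ 1 0 = 1) :
    u * xF (fun g => (r g).trace) i2 c₀ σ₀ τ₀ = 1 ∧
      ∀ g, r g = rhoMat (fun g => (r g).trace) i2 c₀ σ₀ τ₀ u g := by
  refine ⟨by rw [xF_of_diag r h2 hc, hσ, one_mul, hτ], fun g => ?_⟩
  rw [rhoMat, aF_of_diag r h2 hc, dF_of_diag r h2 hc, xF_of_diag r h2 hc, xF_of_diag r h2 hc, hσ,
    one_mul]
  ext i j
  fin_cases i <;> fin_cases j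
  · rfl
  · show r g 0 1 = u * (r g 0 1 * r τ₀ 1 0)
    linear_combination (-(r g 0 1)) * hτ
  · rfl
  · rfl

end NF

section Conv

variable {F : Type*} [Field F] {G : Type*} [Group G]

local notation "M₂" => Matrix (Fin 2) (Fin 2) F

/-- the converse of `nf_of_diag`. -/
theorem diag_of_nf (r : G →* M₂) {i2 : F} (h2 : i2 * 2 = 1) {c₀ σ₀ τ₀ : G} {u : F}
    (hc₀ : c₀ * c₀ = 1) (hdet : (r c₀).det = -1)
    (hu : u * xF (fun g => (r g).trace) i2 c₀ σ₀ τ₀ = 1)
    (hnf : ∀ g, r g = rhoMat (fun g => (r g).trace) i2 c₀ σ₀ τ₀ u g) :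
    r c₀ = !![1, 0; 0, -1] ∧ r σ₀ 0 1 = 1 ∧ u * r τ₀ 1 0 = 1 := by
  have hCC : r c₀ * r c₀ = 1 := by rw [← map_mul, hc₀, map_one]
  have hCtr : (r c₀).trace = 0 := by
    have h := Fermat.Agent.TW.ESide.cayley_hamilton_two (r c₀)
    rw [hCC, hdet] at h
    have h3 : (r c₀).trace • r c₀ = 0 := by
      have h5 : (r c₀).trace • r c₀ - (-1 : F) • (1 : M₂) = (r c₀).trace • r c₀ + 1 := by
        rw [neg_smul, one_smul, sub_neg_eq_add]
      rw [h5] at h
      exact (left_eq_add.1 (by rw [add_comm]; exact h))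
    rcases smul_eq_zero.1 h3 with h4 | h4
    · exact h4
    · rw [h4, zero_mul] at hCC
      exact absurd hCC zero_ne_one
  refine ⟨?_, ?_, ?_⟩
  · have e := hnf c₀
    rw [rhoMat, aF_eq, dF_eq, xF_eq, xF_eq] at e
    simp only [hc₀, one_mul, mul_assoc, mul_one] at e
    have t1 : (r (1 : G)).trace = 2 := by rw [map_one]; simp
    have t2 : (r (c₀ * (σ₀ * c₀))).trace = (r σ₀).trace := by
      rw [map_mul, Matrix.trace_mul_comm, ← map_mul, mul_assoc, hc₀, mul_one]
    have t3 : (r (σ₀ * c₀)).trace = (r (c₀ * σ₀)).trace := by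
      rw [map_mul, Matrix.trace_mul_comm, ← map_mul]
    rw [e]
    simp only [hCtr, t1, t2, t3]
    ext i j
    fin_cases i <;> fin_cases j
    · show i2 * (0 + 2) = 1
      linear_combination h2
    · show u * (i2 * (i2 * _)) = 0
      ring
    · show i2 * (i2 * _) = 0
      ring
    · show i2 * (0 - 2) = -1
      linear_combination (-1 : F) * h2
  · rw [hnf σ₀]
    exact hu
  · rw [hnf τ₀]
    exact hu

end Conv

section Loc

variable {R : Type*} [CommRing R] {F : Type*} [Field F] (π : R →+* F) {G : Type*} [Group G]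

local notation "M₂" => Matrix (Fin 2) (Fin 2)

lemma cayley_hamilton_two_ring (M : M₂ R) : M * M = M.trace • M - M.det • 1 := by
  ext i j
  fin_cases i <;> fin_cases j <;>
    simp [Matrix.mul_apply, Fin.sum_univ_two, Matrix.trace_fin_two, Matrix.det_fin_two] <;> ring

/-- a multiple `l • M` of a matrix with non scalar reduction is scalar only if `l = 0`. -/
lemma eq_zero_of_smul_eq_smul_one (hπ : ∀ x : R, π x ≠ 0 → IsUnit x) {M : M₂ R}
    (hM : ∀ c : F, M.map π ≠ c • 1) {l μ : R} (h : l • M = μ • 1) : l = 0 ∧ μ = 0 := by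
  have h00 := congrFun (congrFun h 0) 0
  have h01 := congrFun (congrFun h 0) 1
  have h10 := congrFun (congrFun h 1) 0
  have h11 := congrFun (congrFun h 1) 1
  simp only [Matrix.smul_apply, smul_eq_mul, Matrix.one_apply_eq, mul_one, ne_eq, zero_ne_one,
    one_ne_zero, not_false_eq_true, Matrix.one_apply_ne, mul_zero] at h00 h01 h10 h11
  have hl : l = 0 := by
    by_contra hl
    have k : ∀ x : R, l * x = 0 → π x = 0 := by
      intro x hx
      by_contra hx0
      obtain ⟨y, hy⟩ := (hπ x hx0).exists_right_inv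
      apply hl
      calc l = l * (x * y) := by rw [hy, mul_one]
        _ = 0 := by rw [← mul_assoc, hx, zero_mul]
    apply hM (π (M 0 0))
    ext i j
    fin_cases i <;> fin_cases j
    · simp
    · simpa using k _ h01
    · simpa using k _ h10
    · have := k (M 1 1 - M 0 0) (by rw [mul_sub, h11, h00, sub_self])
      rw [map_sub, sub_eq_zero] at this
      simpa using this
  refine ⟨hl, ?_⟩
  rw [← h00, hl, zero_mul]

/-- `det = χ` from the quadratic relations. -/
theorem det_eq_of_quad_loc (hπ : ∀ x : R, π x ≠ 0 → IsUnit x) (r : G →* M₂ R) (χ : G →* R)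
    (hq : ∀ σ : G, ∃ P : R, r σ * r σ - P • r σ + χ σ • 1 = 0) (u : G)
    (hu : ∀ c : F, (r u).map π ≠ c • 1) (σ : G) : (r σ).det = χ σ := by
  have step : ∀ τ : G, (∀ c : F, (r τ).map π ≠ c • 1) → (r τ).det = χ τ := by
    intro τ hτ
    obtain ⟨P, hP⟩ := hq τ
    rw [cayley_hamilton_two_ring] at hP
    have h : ((r τ).trace - P) • r τ = ((r τ).det - χ τ) • 1 := by
      rw [sub_smul, sub_smul, ← sub_eq_zero, ← hP]
      abel
    exact sub_eq_zero.1 (eq_zero_of_smul_eq_smul_one π hπ hτ h).2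
  by_cases hσ : ∀ c : F, (r σ).map π ≠ c • 1
  · exact step σ hσ
  · push Not at hσ
    obtain ⟨c, hc⟩ := hσ
    have hmap : ∀ a b : G, (r (a * b)).map π = (r a).map π * (r b).map π := by
      intro a b
      rw [map_mul]
      exact Matrix.map_mul
    have hc0 : c ≠ 0 := by
      rintro rfl
      have := hmap σ σ⁻¹
      rw [mul_inv_cancel, map_one, hc, zero_smul, zero_mul] at this
      have h00 := congrFun (congrFun this 0) 0
      simp at h00
    have hσu : ∀ c' : F, (r (σ * u)).map π ≠ c' • 1 := by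
      intro c' hc'
      rw [hmap, hc, smul_mul_assoc, one_mul] at hc'
      apply hu (c⁻¹ * c')
      rw [mul_smul, ← hc', smul_smul, inv_mul_cancel₀ hc0, one_smul]
    have h1 := step (σ * u) hσu
    rw [map_mul, Matrix.det_mul, step u hu, map_mul] at h1
    have hunit : χ u * χ u⁻¹ = 1 := by rw [← map_mul, mul_inv_cancel, map_one]
    calc (r σ).det = (r σ).det * χ u * χ u⁻¹ := by rw [mul_assoc, hunit, mul_one]
      _ = χ σ := by rw [h1, mul_assoc, hunit, mul_one]

/-- `tr = P` from the quadratic relation, once `det = χ`. -/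
theorem trace_eq_of_quad_loc (r : G →* M₂ R) {σ : G} {P d : R} (hdet : (r σ).det = d)
    (hP : r σ * r σ - P • r σ + d • 1 = 0) : (r σ).trace = P := by
  rw [cayley_hamilton_two_ring, hdet] at hP
  have h : ((r σ).trace - P) • r σ = 0 := by
    rw [sub_smul, ← hP]
    abel
  have h2 := congrArg (fun M => M * r σ⁻¹) h
  simp only [smul_mul_assoc, ← map_mul, mul_inv_cancel, map_one, zero_mul] at h2
  have h00 := congrFun (congrFun h2 0) 0
  simp only [Matrix.smul_apply, Matrix.one_apply_eq, smul_eq_mul, mul_one, Matrix.zero_apply] at h00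
  exact sub_eq_zero.1 h00

end Loc

end Fermat.Agent.ML.ESide
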