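import Fermat.Agent.ML.ESide.Res
import Fermat.Agent.HW.NEMain
import Fermat.Prelude.Def_ExtCitation_KummerBridge

/-!
# ML / E-side : `W[p]` in Wiles' normal form, and the residual context `ResCtx`

`W : WeierstrassCurve ℤ`, `W.Δ ≠ 0`, `p` an odd prime, `W[p]` irreducible.  There is a BASIS of `W[p]` in which the matrix
representation is in Wiles' normal form (`complexConjugation ↦ diag (1,-1)`), so every statement of `Res.lean` applies to it.
`ResCtx p T θ rbar0` = `RIB.ECtx` without the Frey specific fields `hp5, unram, ram2, unip2`.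
-/

set_option autoImplicit false

namespace Fermat.Agent.ML.ESide

open Fermat.Agent.GAL Fermat.Agent.TW.ESide Fermat.Agent.TW.TR Fermat.Agent.RIB.Rho

local notation "Qbar" => AlgebraicClosure ℚ
local notation "GQ" => (AlgebraicClosure ℚ ≃ₐ[ℚ] AlgebraicClosure ℚ)
local notation "M₂" => Matrix (Fin 2) (Fin 2)

variable {W : WeierstrassCurve ℤ} {p : ℕ} [Fact p.Prime]

/-- change of basis by an invertible matrix. -/
noncomputable def basisConj (b : Module.Basis (Fin 2) (ZMod p) (TorsW W p)) {U V : M₂ (ZMod p)}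
    (hUV : U * V = 1) (hVU : V * U = 1) : Module.Basis (Fin 2) (ZMod p) (TorsW W p) :=
  Module.Basis.ofEquivFun (b.equivFun.trans (Matrix.toLin'OfInv hVU hUV))

lemma basisConj_repr (b : Module.Basis (Fin 2) (ZMod p) (TorsW W p)) {U V : M₂ (ZMod p)}
    (hUV : U * V = 1) (hVU : V * U = 1) (x : TorsW W p) :
    ((basisConj b hUV hVU).repr x : Fin 2 → ZMod p) = U.mulVec (b.repr x) := by
  show (basisConj b hUV hVU).equivFun x = _
  rw [basisConj, Module.Basis.equivFun_ofEquivFun]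
  rfl

theorem rbarB_basisConj (b : Module.Basis (Fin 2) (ZMod p) (TorsW W p)) {U V : M₂ (ZMod p)}
    (hUV : U * V = 1) (hVU : V * U = 1) (σ : GQ) :
    rbarB (basisConj b hUV hVU) σ = U * rbarB b σ * V := by
  have key : ∀ v : Fin 2 → ZMod p,
      (rbarB (basisConj b hUV hVU) σ).mulVec v = (U * rbarB b σ * V).mulVec v := by
    intro v
    obtain ⟨x, rfl⟩ : ∃ x : TorsW W p, ((basisConj b hUV hVU).repr x : Fin 2 → ZMod p) = v :=
      ⟨(basisConj b hUV hVU).equivFun.symm v, (basisConj b hUV hVU).equivFun.apply_symm_apply v⟩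
    rw [rbarB_mulVec, basisConj_repr, basisConj_repr, Matrix.mulVec_mulVec, mul_assoc, mul_assoc,
      hVU, mul_one, ← Matrix.mulVec_mulVec, rbarB_mulVec]
  ext i j
  have := congrFun (key (Pi.single j 1)) i
  simpa using this

lemma two_ne_zero_zmodp (hp2 : p ≠ 2) : (2 : ZMod p) ≠ 0 := by
  intro h
  have h3 : ((2 : ℕ) : ZMod p) = 0 := by exact_mod_cast h
  rw [ZMod.natCast_eq_zero_iff] at h3
  exact hp2 ((Nat.prime_dvd_prime_iff_eq Fact.out Nat.prime_two).1 h3)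

/-- **[NF]** a basis of `W[p]` in which the representation is in Wiles' normal form. -/
theorem exists_basis_nf (hΔ : W.Δ ≠ 0) (hp2 : p ≠ 2) (hirr : W.ModRepIsIrreducible p) :
    ∃ (b : Module.Basis (Fin 2) (ZMod p) (TorsW W p)) (σ₀ τ₀ : GQ) (u : ZMod p),
      u * xF (fun g => (rbarB b g).trace) (2 : ZMod p)⁻¹ complexConjugation σ₀ τ₀ = 1 ∧
      ∀ g, rbarB b g
        = rhoMat (fun g => (rbarB b g).trace) (2 : ZMod p)⁻¹ complexConjugation σ₀ τ₀ u g := by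
  have hfin := finite_torsW W (odd_of_ne_two p hp2)
  have : Module.Finite (ZMod p) (TorsW W p) := Module.Finite.of_finite
  have b₀ : Module.Basis (Fin 2) (ZMod p) (TorsW W p) :=
    Module.finBasisOfFinrankEq _ _ (finrank_torsW W p hΔ hp2)
  have h2 : (2 : ZMod p)⁻¹ * 2 = 1 := inv_mul_cancel₀ (two_ne_zero_zmodp hp2)
  have hdet : (rbarB b₀ complexConjugation).det = -1 := by
    rw [rbarB_det b₀ hΔ hp2 hirr]
    exact Fermat.Agent.GAL.PC.cycloChar_complexConjugation p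
  obtain ⟨σ₀, τ₀, h⟩ := exists_xF_ne_zero (rbarB b₀) h2 complexConjugation_mul_self hdet
    (rbarB_noLine b₀ hirr)
  obtain ⟨U, V, hUV, hVU, hc⟩ := exists_conj_rhoMat (rbarB b₀) h2 complexConjugation_mul_self hdet
    (inv_mul_cancel₀ h)
  have htr : (fun g => (rbarB (basisConj b₀ hUV hVU) g).trace) = fun g => (rbarB b₀ g).trace := by
    funext g
    rw [rbarB_basisConj, Matrix.trace_mul_comm, ← mul_assoc, hVU, one_mul]
  refine ⟨basisConj b₀ hUV hVU, σ₀, τ₀,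
    (xF (fun g => (rbarB b₀ g).trace) (2 : ZMod p)⁻¹ complexConjugation σ₀ τ₀)⁻¹, ?_, fun g => ?_⟩
  · rw [htr]
    exact inv_mul_cancel₀ h
  · rw [htr, hc, rbarB_basisConj]

/-- **the residual `E`-side context** (`RIB.ECtx` without `hp5, unram, ram2, unip2`). -/
structure ResCtx (p : ℕ) [Fact p.Prime] (T : Finset ℕ) (θ : ℕ → ℤ) (rbar0 : GQ →* M₂ (ZMod p)) :
    Prop where
  hp2 : p ≠ 2
  cont : GaloisFactorsThroughFiniteLevel rbar0
  det : ∀ g : GQ, (rbar0 g).det = ((ExtCitation.cycloChar p g : (ZMod p)ˣ) : ZMod p)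
  frob : ∀ r : ℕ, r.Prime → r ∉ T → ∀ A : ValuationSubring Qbar, A.LiesOverPrime r →
    ∀ φ : GQ, A.IsFrobeniusAt φ r →
      (rbar0 φ).trace = ((θ r : ℤ) : ZMod p) ∧ (rbar0 φ).det = ((r : ℕ) : ZMod p)
  nf : ∃ (σ₀ τ₀ : GQ) (u : ZMod p),
    u * xF (fun g => (rbar0 g).trace) (2 : ZMod p)⁻¹ complexConjugation σ₀ τ₀ = 1 ∧
    ∀ g, rbar0 g = rhoMat (fun g => (rbar0 g).trace) (2 : ZMod p)⁻¹ complexConjugation σ₀ τ₀ u g
  unramT : ∀ q : ℕ, q.Prime → q ∉ T → ∀ A : ValuationSubring Qbar, A.LiesOverPrime q →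
    ∀ σ ∈ A.inertiaSubgroupIn ℚ, rbar0 σ = 1
  unip : ∀ q : ℕ, q.Prime → q ≠ p → ∀ A : ValuationSubring Qbar, A.LiesOverPrime q →
    ∀ σ ∈ A.inertiaSubgroupIn ℚ, ∀ τ ∈ A.inertiaSubgroupIn ℚ, (rbar0 τ - 1) * (rbar0 σ - 1) = 0
  noLine : ∀ v : Fin 2 → ZMod p, v ≠ 0 → ∃ σ : GQ, ∀ c : ZMod p, (rbar0 σ).mulVec v ≠ c • v
  nonEis : ∀ M₀ : ℕ, 0 < M₀ → ∀ S : Finset ℕ, ∃ l : ℕ, l.Prime ∧ l ≡ 1 [MOD M₀] ∧ l ∉ S ∧
    ¬ (p : ℤ) ∣ θ l - ((l : ℤ) + 1)

/-- **[E-RES]** -/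
theorem exists_resCtx (hΔ : W.Δ ≠ 0) (hss : W.IsSemistableModel) (hp2 : p ≠ 2)
    (hirr : W.ModRepIsIrreducible p) (T : Finset ℕ)
    (hT : ∀ r : ℕ, r.Prime → r ∉ T → W.IsGoodPrimeFor r ∧ r ≠ p) :
    ∃ b : Module.Basis (Fin 2) (ZMod p) (TorsW W p), ResCtx p T W.apOfModel (rbarB b) := by
  obtain ⟨b, σ₀, τ₀, u, hu, hnf⟩ := exists_basis_nf (W := W) (p := p) hΔ hp2 hirr
  refine ⟨b, ⟨hp2, rbarB_cont b hp2, rbarB_det b hΔ hp2 hirr, ?_, ⟨σ₀, τ₀, u, hu, hnf⟩, ?_, ?_,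
    rbarB_noLine b hirr, ?_⟩⟩
  · intro r hr hrT A hA φ hφ
    exact rbarB_frob b hΔ hp2 hirr hr (hT r hr hrT).1 (hT r hr hrT).2 A hA φ hφ
  · intro q hq hqT A hA σ hσ
    exact rbarB_unram b hp2 hq (hT q hq hqT).2 (hT q hq hqT).1 A hA hσ
  · intro q hq hqp A hA σ hσ τ hτ
    exact rbarB_unip b hΔ hp2 hq hqp (hss q hq) A hA hσ hτ
  · intro M₀ hM₀ S
    obtain ⟨l, hl, hlS, -, -, hl1, hne⟩ :=
      HW.exists_prime_not_eisenstein_model W hΔ Fact.out hp2 hirr M₀ hM₀ S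
    exact ⟨l, hl, hl1, hlS, hne⟩

end Fermat.Agent.ML.ESide
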