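import Fermat.Agent.ML.ESide.Str
import Fermat.Agent.ML.ESide.Norm
import Fermat.Agent.ML.ESide.MatK

/-!
# ML / E-side : **[E-STR]** `W[p^(k+1)]` is free of rank `2` over `ℤ/p^(k+1)`

* `redK W p k : W[p^(k+1)] →+ W[p]`, `x ↦ p^k x`: equivariant, semilinear, SURJECTIVE (`redK_surjective`);
* `exists_basis_of_lift` : every lift of a basis of `W[p]` is a basis of `W[p^(k+1)]`;
* `rEB_map_cast` : the matrix representation in a lifted basis reduces to `rbarB b`.
-/

set_option autoImplicit false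

namespace Fermat.Agent.ML.ESide

open Fermat.Agent.GAL Fermat.Agent.RIB.Rho

local notation "Qbar" => AlgebraicClosure ℚ
local notation "GQ" => (AlgebraicClosure ℚ ≃ₐ[ℚ] AlgebraicClosure ℚ)
local notation "M₂" => Matrix (Fin 2) (Fin 2)

/-- `x ↦ p^k x`, `W[p^(k+1)] → W[p]`. -/
noncomputable def redK (W : WeierstrassCurve ℤ) (p k : ℕ) : TorsW W (p ^ (k + 1)) →+ TorsW W p where
  toFun x := ⟨p ^ k • (x : S58.EQ W), by
    rw [Submodule.mem_torsionBy_iff, natCast_zsmul, ← mul_nsmul', ← pow_succ']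
    exact nsmul_coe_torsW W x⟩
  map_zero' := Subtype.ext (by simp)
  map_add' x y := Subtype.ext (by simp [nsmul_add])

variable {W : WeierstrassCurve ℤ} {p : ℕ}

theorem coe_redK (k : ℕ) (x : TorsW W (p ^ (k + 1))) :
    ((redK W p k x : TorsW W p) : S58.EQ W) = p ^ k • (x : S58.EQ W) := rfl

theorem redK_gal (k : ℕ) (σ : GQ) (x : TorsW W (p ^ (k + 1))) :
    redK W p k (σ • x) = σ • redK W p k x := by
  apply Subtype.ext
  show p ^ k • (σ • (x : S58.EQ W)) = σ • (p ^ k • (x : S58.EQ W))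
  exact (map_nsmul (DistribSMul.toAddMonoidHom (S58.EQ W) σ) (p ^ k) (x : S58.EQ W)).symm

theorem redK_eq_zero_iff (k : ℕ) (x : TorsW W (p ^ (k + 1))) :
    redK W p k x = 0 ↔ p ^ k • x = 0 := by
  constructor
  · intro h
    have h' : ((redK W p k x : TorsW W p) : S58.EQ W) = 0 := by rw [h]; rfl
    exact Subtype.ext h'
  · intro h
    have h' : ((p ^ k • x : TorsW W (p ^ (k + 1))) : S58.EQ W) = 0 := by rw [h]; rfl
    exact Subtype.ext h'

variable [Fact p.Prime]

theorem odd_pow_of_ne_two (hp2 : p ≠ 2) (k : ℕ) : Odd (p ^ k) := (odd_of_ne_two p hp2).pow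

instance neZero_pow_p (k : ℕ) : NeZero (p ^ k) := ⟨pow_ne_zero k (Fact.out : p.Prime).ne_zero⟩

/-- the reduction `ℤ/p^(k+1) → ℤ/p`. -/
noncomputable def castK (p k : ℕ) : ZMod (p ^ (k + 1)) →+* ZMod p :=
  ZMod.castHom (dvd_pow_self p k.succ_ne_zero) (ZMod p)

theorem redK_zmod_smul (k : ℕ) (a : ZMod (p ^ (k + 1))) (x : TorsW W (p ^ (k + 1))) :
    redK W p k (a • x) = castK p k a • redK W p k x := by
  rw [← ZMod.natCast_zmod_val a, Nat.cast_smul_eq_nsmul, map_nsmul, map_natCast,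
    Nat.cast_smul_eq_nsmul]

theorem redK_surjective (hΔ : W.Δ ≠ 0) (hp2 : p ≠ 2) (k : ℕ) :
    Function.Surjective (redK W p k) := by
  have hp : p.Prime := Fact.out
  have f1 := finite_torsW W (odd_pow_of_ne_two (p := p) hp2 (k + 1))
  have f0 := finite_torsW W (odd_pow_of_ne_two (p := p) hp2 k)
  have fp := finite_torsW W (odd_of_ne_two p hp2)
  have c1 := card_torsW W hΔ (odd_pow_of_ne_two (p := p) hp2 (k + 1))
  have c0 := card_torsW W hΔ (odd_pow_of_ne_two (p := p) hp2 k)
  have cp := card_torsW W hΔ (odd_of_ne_two p hp2)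
  -- the kernel injects into `W[p^k]`
  have hker : Nat.card (redK W p k).ker ≤ (p ^ k) ^ 2 := by
    rw [← c0]
    refine Nat.card_le_card_of_injective
      (fun x : (redK W p k).ker => (⟨((x : TorsW W (p ^ (k + 1))) : S58.EQ W), by
        rw [Submodule.mem_torsionBy_iff, natCast_zsmul]
        have h' : ((redK W p k (x : TorsW W (p ^ (k + 1))) : TorsW W p) : S58.EQ W) = 0 := by
          rw [(AddMonoidHom.mem_ker).1 x.2]; rfl
        exact h'⟩ : TorsW W (p ^ k))) ?_
    intro x y hxy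
    have h' : ((x : TorsW W (p ^ (k + 1))) : S58.EQ W) = ((y : TorsW W (p ^ (k + 1))) : S58.EQ W) :=
      congrArg (fun z : TorsW W (p ^ k) => (z : S58.EQ W)) hxy
    exact Subtype.ext (Subtype.ext h')
  have hmul := (redK W p k).ker.card_mul_index
  rw [AddSubgroup.index_ker, c1] at hmul
  have hge : p ^ 2 ≤ Nat.card (redK W p k).range := by
    by_contra hlt
    rw [not_le] at hlt
    have hpos : 0 < (p ^ k) ^ 2 := pow_pos (pow_pos hp.pos k) 2
    have : Nat.card (redK W p k).ker * Nat.card (redK W p k).range < (p ^ k) ^ 2 * p ^ 2 :=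
      lt_of_le_of_lt (Nat.mul_le_mul_right _ hker) (Nat.mul_lt_mul_of_pos_left hlt hpos)
    rw [hmul] at this
    apply lt_irrefl _ (lt_of_lt_of_eq this _)
    ring
  rw [← AddMonoidHom.range_eq_top]
  exact AddSubgroup.eq_top_of_le_card _ (by rw [cp]; exact hge)

/-- integral relations between lifts of a basis. -/
theorem dvd_of_comb_eq_zero (b : Module.Basis (Fin 2) (ZMod p) (TorsW W p)) {k : ℕ}
    (f : Fin 2 → TorsW W (p ^ (k + 1))) (hf : ∀ i, redK W p k (f i) = b i) (c : Fin 2 → ℤ)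
    (h : ∑ i, c i • f i = 0) : ∀ j : ℕ, j ≤ k + 1 → ∀ i, (p : ℤ) ^ j ∣ c i := by
  intro j
  induction j with
  | zero => intro _ i; simp
  | succ j ih =>
    intro hj
    have ih' := ih (by omega)
    choose c' hc' using ih'
    set y : TorsW W (p ^ (k + 1)) := ∑ i, c' i • f i with hy
    have h1 : p ^ j • y = 0 := by
      rw [hy, Finset.smul_sum, ← h]
      refine Finset.sum_congr rfl fun i _ => ?_
      rw [hc' i, mul_smul, ← natCast_zsmul, Nat.cast_pow]
    have h2 : redK W p k y = 0 := by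
      rw [redK_eq_zero_iff]
      obtain ⟨d, hd⟩ : ∃ d, k = d + j := ⟨k - j, by omega⟩
      have e : p ^ k = p ^ d * p ^ j := by rw [hd, pow_add]
      rw [e, mul_nsmul', h1, smul_zero]
    rw [hy, map_sum] at h2
    have h3 : ∑ i, ((c' i : ℤ) : ZMod p) • b i = 0 := by
      rw [← h2]
      refine Finset.sum_congr rfl fun i _ => ?_
      rw [map_zsmul, hf, Int.cast_smul_eq_zsmul]
    have h4 := Fintype.linearIndependent_iff.1 b.linearIndependent _ h3
    intro i
    rw [hc' i, pow_succ]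
    exact mul_dvd_mul_left _ ((ZMod.intCast_zmod_eq_zero_iff_dvd (c' i) p).1 (h4 i))

/-- **[E-STR]** every lift of a basis of `W[p]` is a basis of `W[p^(k+1)]` over `ℤ/p^(k+1)`. -/
theorem exists_basis_of_lift (hΔ : W.Δ ≠ 0) (hp2 : p ≠ 2)
    (b : Module.Basis (Fin 2) (ZMod p) (TorsW W p)) {k : ℕ}
    (f : Fin 2 → TorsW W (p ^ (k + 1))) (hf : ∀ i, redK W p k (f i) = b i) :
    ∃ B : Module.Basis (Fin 2) (ZMod (p ^ (k + 1))) (TorsW W (p ^ (k + 1))), ∀ i, B i = f i := by
  have f1 := finite_torsW W (odd_pow_of_ne_two (p := p) hp2 (k + 1))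
  have c1 := card_torsW W hΔ (odd_pow_of_ne_two (p := p) hp2 (k + 1))
  have hli : LinearIndependent (ZMod (p ^ (k + 1))) f := by
    rw [Fintype.linearIndependent_iff]
    intro g hg i
    have h : ∑ i, ((g i).cast : ℤ) • f i = 0 := by
      rw [← hg]
      refine Finset.sum_congr rfl fun i _ => ?_
      rw [← Int.cast_smul_eq_zsmul (ZMod (p ^ (k + 1))), ZMod.intCast_zmod_cast]
    have := dvd_of_comb_eq_zero b f hf _ h (k + 1) le_rfl i
    rw [← ZMod.intCast_zmod_cast (g i), ZMod.intCast_zmod_eq_zero_iff_dvd]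
    push_cast
    exact this
  have hinj : Function.Injective (Fintype.linearCombination (ZMod (p ^ (k + 1))) f) := by
    rw [← LinearMap.ker_eq_bot]
    exact Fintype.linearIndependent_iff'.1 hli
  have hbij := hinj.bijective_of_nat_card_le (by
    rw [c1, Nat.card_eq_fintype_card, Fintype.card_fun, ZMod.card, Fintype.card_fin])
  have hsp : ⊤ ≤ Submodule.span (ZMod (p ^ (k + 1))) (Set.range f) := by
    rw [← Fintype.range_linearCombination, LinearMap.range_eq_top.2 hbij.2]
  exact ⟨Module.Basis.mk hli hsp, fun i => Module.Basis.mk_apply hli hsp i⟩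

/-- existence of a basis of `W[p^(k+1)]` lifting a given basis of `W[p]`. -/
theorem exists_basis_lift (hΔ : W.Δ ≠ 0) (hp2 : p ≠ 2)
    (b : Module.Basis (Fin 2) (ZMod p) (TorsW W p)) (k : ℕ) :
    ∃ B : Module.Basis (Fin 2) (ZMod (p ^ (k + 1))) (TorsW W (p ^ (k + 1))),
      ∀ i, redK W p k (B i) = b i := by
  choose f hf using fun i => redK_surjective (W := W) (p := p) hΔ hp2 k (b i)
  obtain ⟨B, hB⟩ := exists_basis_of_lift hΔ hp2 b f hf
  exact ⟨B, fun i => by rw [hB, hf]⟩

lemma rbarB_entry (b : Module.Basis (Fin 2) (ZMod p) (TorsW W p)) (σ : GQ) (i j : Fin 2) :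
    rbarB b σ i j = b.repr (σ • b j) i := by
  rw [rbarB_apply, LinearMap.toMatrixAlgEquiv_apply, rhoEndW_apply]

/-- the coordinates of the reduction. -/
theorem repr_redK (b : Module.Basis (Fin 2) (ZMod p) (TorsW W p)) {k : ℕ}
    (B : Module.Basis (Fin 2) (ZMod (p ^ (k + 1))) (TorsW W (p ^ (k + 1))))
    (hB : ∀ i, redK W p k (B i) = b i) (x : TorsW W (p ^ (k + 1))) (i : Fin 2) :
    b.repr (redK W p k x) i = castK p k (B.repr x i) := by
  have h : redK W p k x = ∑ i, castK p k (B.repr x i) • b i := by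
    conv_lhs => rw [← B.sum_repr x]
    rw [map_sum]
    exact Finset.sum_congr rfl fun i _ => by rw [redK_zmod_smul, hB]
  rw [h, b.repr_sum_self]

/-- the representation in a lifted basis reduces to `rbarB b`. -/
theorem rEB_map_cast (b : Module.Basis (Fin 2) (ZMod p) (TorsW W p)) {k : ℕ}
    (B : Module.Basis (Fin 2) (ZMod (p ^ (k + 1))) (TorsW W (p ^ (k + 1))))
    (hB : ∀ i, redK W p k (B i) = b i) (σ : GQ) :
    (rEB B σ).map (castK p k) = rbarB b σ := by
  ext i j
  rw [Matrix.map_apply, rEB_entry, rbarB_entry, ← repr_redK b B hB, redK_gal, hB]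

end Fermat.Agent.ML.ESide
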