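import Fermat.Agent.HW.Red

/-!
# ML / ESIDE / [E-ST+], part 1 : the group of nonsingular points of a nodal cubic is `𝔾_m`

`W` a Weierstrass cubic over a field `k` with a node at `(x0, y0)` and tangent directions `α ≠ β`:
in the coordinates `X = x - x0`, `Y = y - y0` the equation is `(Y - αX)(Y - βX) = X³`.
`uN P = (Y - αX)/(Y - βX)` is an injective homomorphism from Mathlib's group of nonsingular points to
`kˣ`, and every `t ≠ 0, 1` is a value.
-/

set_option autoImplicit false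

namespace Fermat.Agent.ML.ESide

open WeierstrassCurve WeierstrassCurve.Affine WeierstrassCurve.Affine.Point
open Fermat.Agent.S05 Fermat.Agent.HW

variable {k : Type*} [Field k]

/-- a nodal Weierstrass cubic. -/
structure NodeK (W : WeierstrassCurve.Affine k) (x0 y0 α β : k) : Prop where
  hy : 2 * y0 + W.a₁ * x0 + W.a₃ = 0
  hx : W.a₁ * y0 - (3 * x0 ^ 2 + 2 * W.a₂ * x0 + W.a₄) = 0
  hc : x0 ^ 3 + W.a₂ * x0 ^ 2 + W.a₄ * x0 + W.a₆ - (y0 ^ 2 + W.a₁ * x0 * y0 + W.a₃ * y0) = 0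
  hsum : α + β = - W.a₁
  hprod : α * β = -(W.a₂ + 3 * x0)
  hne : α ≠ β

/-- the key identity: the three intersection points of `(AX+n)(BX+n) = X³`. -/
theorem node_key (A B n X1 X2 : k) (h1 : (A * X1 + n) * (B * X1 + n) = X1 ^ 3)
    (E2 : A * B * (X1 + X2) + n * (A + B) = X1 ^ 2 + X1 * X2 + X2 ^ 2) :
    (A * X1 + n) * (A * X2 + n) * (A * (A * B - X1 - X2) + n)
      = (B * X1 + n) * (B * X2 + n) * (B * (A * B - X1 - X2) + n) := by
  linear_combination (A - B) * ((A ^ 2 + A * B + B ^ 2) * X1 + (A + B) * n) * E2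
    - (A - B) * (A ^ 2 + A * B + B ^ 2) * h1

namespace NodeK

variable {W : WeierstrassCurve.Affine k} {x0 y0 α β : k}

theorem a₁_eq (N : NodeK W x0 y0 α β) : W.a₁ = -(α + β) := by
  linear_combination N.hsum
theorem a₂_eq (N : NodeK W x0 y0 α β) : W.a₂ = -(α * β) - 3 * x0 := by
  linear_combination N.hprod
theorem a₃_eq (N : NodeK W x0 y0 α β) : W.a₃ = -2 * y0 + (α + β) * x0 := by
  linear_combination N.hy - x0 * N.hsum
theorem a₄_eq (N : NodeK W x0 y0 α β) :
    W.a₄ = -(α + β) * y0 - 3 * x0 ^ 2 - 2 * (-(α * β) - 3 * x0) * x0 := by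
  linear_combination -N.hx + y0 * N.hsum - 2 * x0 * N.hprod
theorem a₆_eq (N : NodeK W x0 y0 α β) :
    W.a₆ = - x0 ^ 3 - (-(α * β) - 3 * x0) * x0 ^ 2
      - (-(α + β) * y0 - 3 * x0 ^ 2 - 2 * (-(α * β) - 3 * x0) * x0) * x0
      + y0 ^ 2 + -(α + β) * x0 * y0 + (-2 * y0 + (α + β) * x0) * y0 := by
  have h := N.hc
  rw [N.a₄_eq, N.a₃_eq, N.a₂_eq, N.a₁_eq] at h
  linear_combination h

/-- the equation in the shifted coordinates -/
theorem eqn_iff (N : NodeK W x0 y0 α β) (x y : k) :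
    W.Equation x y ↔ ((y - y0) - α * (x - x0)) * ((y - y0) - β * (x - x0)) = (x - x0) ^ 3 := by
  rw [equation_iff, N.a₆_eq, N.a₄_eq, N.a₃_eq, N.a₂_eq, N.a₁_eq]
  constructor
  · intro h; linear_combination h
  · intro h; linear_combination h

/-- a nonsingular point is not the node -/
theorem X_ne_zero (N : NodeK W x0 y0 α β) {x y : k} (h : W.Nonsingular x y) : x - x0 ≠ 0 := by
  intro hX
  have hx : x = x0 := sub_eq_zero.1 hX
  subst hx
  have e := (N.eqn_iff x y).1 h.1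
  have hY : y - y0 = 0 := by
    have : (y - y0) ^ 2 = 0 := by linear_combination e
    exact pow_eq_zero_iff (two_ne_zero) |>.1 this
  have hy : y = y0 := sub_eq_zero.1 hY
  subst hy
  rw [nonsingular_iff] at h
  rcases h.2 with h2 | h2
  · exact h2 (by linear_combination N.hx)
  · exact h2 (by linear_combination N.hy)

theorem f_ne_zero (N : NodeK W x0 y0 α β) {x y : k} (h : W.Nonsingular x y) :
    (y - y0) - α * (x - x0) ≠ 0 := by
  intro h0
  have e := (N.eqn_iff x y).1 h.1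
  rw [h0, zero_mul] at e
  exact N.X_ne_zero h (pow_eq_zero_iff (three_ne_zero) |>.1 e.symm)

theorem g_ne_zero (N : NodeK W x0 y0 α β) {x y : k} (h : W.Nonsingular x y) :
    (y - y0) - β * (x - x0) ≠ 0 := by
  intro h0
  have e := (N.eqn_iff x y).1 h.1
  rw [h0, mul_zero] at e
  exact N.X_ne_zero h (pow_eq_zero_iff (three_ne_zero) |>.1 e.symm)

end NodeK

/-- the parameter `(Y - αX)/(Y - βX)`, with value `1` at the origin. -/
noncomputable def uN {W : WeierstrassCurve.Affine k} (x0 y0 α β : k) : W.Point → k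
  | .zero => 1
  | .some x y _ => ((y - y0) - α * (x - x0)) / ((y - y0) - β * (x - x0))

namespace NodeK

variable {W : WeierstrassCurve.Affine k} {x0 y0 α β : k}

@[simp] theorem uN_zero : uN x0 y0 α β (0 : W.Point) = 1 := rfl

theorem uN_some {x y : k} (h : W.Nonsingular x y) :
    uN x0 y0 α β (Point.some x y h) = ((y - y0) - α * (x - x0)) / ((y - y0) - β * (x - x0)) := rfl

theorem uN_ne_zero (N : NodeK W x0 y0 α β) (P : W.Point) : uN x0 y0 α β P ≠ 0 := by
  cases P with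
  | zero => exact one_ne_zero
  | some x y h => exact div_ne_zero (N.f_ne_zero h) (N.g_ne_zero h)

theorem uN_neg (N : NodeK W x0 y0 α β) (P : W.Point) :
    uN x0 y0 α β (-P) = (uN x0 y0 α β P)⁻¹ := by
  cases P with
  | zero => simp [← zero_def]
  | some x y h =>
    rw [neg_some, uN_some, uN_some, inv_div]
    have hf := N.f_ne_zero h
    have hg := N.g_ne_zero h
    have e1 : W.negY x y - y0 - α * (x - x0) = -((y - y0) - β * (x - x0)) := by
      rw [negY, N.a₃_eq, N.a₁_eq]; ring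
    have e2 : W.negY x y - y0 - β * (x - x0) = -((y - y0) - α * (x - x0)) := by
      rw [negY, N.a₃_eq, N.a₁_eq]; ring
    rw [e1, e2, neg_div_neg_eq]

theorem uN_eq_one (N : NodeK W x0 y0 α β) {P : W.Point} (h : uN x0 y0 α β P = 1) : P = 0 := by
  cases P with
  | zero => rfl
  | some x y hP =>
    exfalso
    rw [uN_some, div_eq_one_iff_eq (N.g_ne_zero hP)] at h
    have h1 : (α - β) * (x - x0) = 0 := by linear_combination -h
    rcases mul_eq_zero.1 h1 with h2 | h2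
    · exact N.hne (sub_eq_zero.1 h2)
    · exact N.X_ne_zero hP h2

variable [DecidableEq k]

theorem uN_add_some (N : NodeK W x0 y0 α β) {x1 y1 x2 y2 : k} (h1 : W.Nonsingular x1 y1)
    (h2 : W.Nonsingular x2 y2) (hxy : ¬(x1 = x2 ∧ y1 = W.negY x2 y2)) :
    uN x0 y0 α β (Point.some x1 y1 h1 + Point.some x2 y2 h2)
      = uN x0 y0 α β (Point.some x1 y1 h1) * uN x0 y0 α β (Point.some x2 y2 h2) := by
  rw [add_some hxy, uN_some, uN_some, uN_some]
  have h3 := nonsingular_add h1 h2 hxy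
  have hf3 := N.f_ne_zero h3
  have hg3 := N.g_ne_zero h3
  have hf1 := N.f_ne_zero h1
  have hg1 := N.g_ne_zero h1
  have hf2 := N.f_ne_zero h2
  have hg2 := N.g_ne_zero h2
  have e1 := (N.eqn_iff x1 y1).1 h1.1
  have e2 := (N.eqn_iff x2 y2).1 h2.1
  obtain ⟨l, hl⟩ : ∃ l, l = W.slope x1 x2 y1 y2 := ⟨_, rfl⟩
  rw [← hl] at hf3 hg3 ⊢
  -- the line and the derivative relation
  have hline : l * (x1 - x2) = y1 - y2 ∧
      (l - α) * (l - β) * ((x1 - x0) + (x2 - x0)) + ((y1 - y0) - l * (x1 - x0)) * ((l - α) + (l - β))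
        = (x1 - x0) ^ 2 + (x1 - x0) * (x2 - x0) + (x2 - x0) ^ 2 := by
    by_cases hx : x1 = x2
    · have hy : y1 ≠ W.negY x2 y2 := fun h => hxy ⟨hx, h⟩
      have hyy : y1 = y2 := Y_eq_of_Y_ne h1.1 h2.1 hx hy
      subst hx; subst hyy
      have hd : y1 - W.negY x1 y1 ≠ 0 := sub_ne_zero.2 hy
      have hs : l * (y1 - W.negY x1 y1) = 3 * x1 ^ 2 + 2 * W.a₂ * x1 + W.a₄ - W.a₁ * y1 := by
        rw [hl, slope_of_Y_ne rfl hy, div_mul_cancel₀ _ hd]
      rw [negY, N.a₄_eq, N.a₃_eq, N.a₂_eq, N.a₁_eq] at hs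
      refine ⟨by ring, ?_⟩
      linear_combination hs
    · have hd : x1 - x2 ≠ 0 := sub_ne_zero.2 hx
      have hs : l * (x1 - x2) = y1 - y2 := by
        rw [hl, slope_of_X_ne hx, div_mul_cancel₀ _ hd]
      refine ⟨hs, ?_⟩
      apply mul_left_cancel₀ hd
      have hy2 : y2 = y1 - l * (x1 - x2) := by linear_combination hs
      rw [hy2] at e2
      linear_combination e1 - e2
  obtain ⟨hs, hE2⟩ := hline
  have key := node_key (l - α) (l - β) ((y1 - y0) - l * (x1 - x0)) (x1 - x0) (x2 - x0)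
    (by linear_combination e1) hE2
  -- the coordinates of the sum
  have hX3 : W.addX x1 x2 l - x0 = (l - α) * (l - β) - (x1 - x0) - (x2 - x0) := by
    rw [addX, N.a₂_eq, N.a₁_eq]; ring
  have hF3 : W.addY x1 x2 y1 l - y0 - α * (W.addX x1 x2 l - x0)
      = -((l - β) * ((l - α) * (l - β) - (x1 - x0) - (x2 - x0)) + ((y1 - y0) - l * (x1 - x0))) := by
    rw [← hX3, addY, negAddY, negY, N.a₃_eq, N.a₁_eq]; ring
  have hG3 : W.addY x1 x2 y1 l - y0 - β * (W.addX x1 x2 l - x0)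
      = -((l - α) * ((l - α) * (l - β) - (x1 - x0) - (x2 - x0)) + ((y1 - y0) - l * (x1 - x0))) := by
    rw [← hX3, addY, negAddY, negY, N.a₃_eq, N.a₁_eq]; ring
  rw [hF3] at hf3 ⊢
  rw [hG3] at hg3 ⊢
  rw [div_mul_div_comm, div_eq_div_iff hg3 (mul_ne_zero hg1 hg2)]
  have hy2 : y2 = y1 - l * (x1 - x2) := by linear_combination hs
  rw [hy2]
  linear_combination key

theorem uN_add (N : NodeK W x0 y0 α β) (P Q : W.Point) :
    uN x0 y0 α β (P + Q) = uN x0 y0 α β P * uN x0 y0 α β Q := by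
  cases P with
  | zero => rw [← zero_def, zero_add, uN_zero, one_mul]
  | some x1 y1 h1 =>
    cases Q with
    | zero => rw [← zero_def, add_zero, uN_zero, mul_one]
    | some x2 y2 h2 =>
      by_cases hxy : x1 = x2 ∧ y1 = W.negY x2 y2
      · have hP : Point.some x1 y1 h1 = -Point.some x2 y2 h2 := by
          rw [neg_some]
          obtain ⟨hx, hy⟩ := hxy
          subst hx; subst hy; rfl
        rw [hP, neg_add_cancel, N.uN_neg, uN_zero, inv_mul_cancel₀ (N.uN_ne_zero _)]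
      · exact N.uN_add_some h1 h2 hxy

theorem uN_nsmul (N : NodeK W x0 y0 α β) (n : ℕ) (P : W.Point) :
    uN x0 y0 α β (n • P) = uN x0 y0 α β P ^ n := by
  induction n with
  | zero => simp
  | succ n ih => rw [succ_nsmul, N.uN_add, ih, pow_succ]

theorem nsmul_eq_zero_iff (N : NodeK W x0 y0 α β) (n : ℕ) (P : W.Point) :
    n • P = 0 ↔ uN x0 y0 α β P ^ n = 1 := by
  rw [← N.uN_nsmul]
  exact ⟨fun h => by rw [h, uN_zero], N.uN_eq_one⟩

omit [DecidableEq k] in
/-- every `t ≠ 0, 1` is a value of `uN`. -/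
theorem exists_uN_eq (N : NodeK W x0 y0 α β) {t : k} (h0 : t ≠ 0) (h1 : t ≠ 1) :
    ∃ P : W.Point, P ≠ 0 ∧ uN x0 y0 α β P = t := by
  have ht : t - 1 ≠ 0 := sub_ne_zero.2 h1
  have hd : β - α ≠ 0 := sub_ne_zero.2 (Ne.symm N.hne)
  obtain ⟨X, hX⟩ : ∃ X, X = t * (β - α) ^ 2 / (t - 1) ^ 2 := ⟨_, rfl⟩
  obtain ⟨g, hg⟩ : ∃ g, g = t * (β - α) ^ 3 / (t - 1) ^ 3 := ⟨_, rfl⟩
  have hX0 : X ≠ 0 := by
    rw [hX]; exact div_ne_zero (mul_ne_zero h0 (pow_ne_zero _ hd)) (pow_ne_zero _ ht)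
  have hg0 : g ≠ 0 := by
    rw [hg]; exact div_ne_zero (mul_ne_zero h0 (pow_ne_zero _ hd)) (pow_ne_zero _ ht)
  have r1 : g * (t - 1) = (β - α) * X := by
    rw [hg, hX]; field_simp
  have r2 : t * g ^ 2 = X ^ 3 := by
    rw [hg, hX]; field_simp
  have heq : W.Equation (X + x0) (g + β * X + y0) := by
    rw [N.eqn_iff]
    have : (g + β * X + y0 - y0 - α * (X + x0 - x0)) = t * g := by linear_combination -r1
    rw [this]
    linear_combination r2
  have hns : W.Nonsingular (X + x0) (g + β * X + y0) := by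
    rw [nonsingular_iff]
    refine ⟨heq, ?_⟩
    by_contra hcon
    push Not at hcon
    obtain ⟨c1, c2⟩ := hcon
    rw [N.a₄_eq, N.a₂_eq, N.a₁_eq] at c1
    rw [N.a₃_eq, N.a₁_eq] at c2
    -- `X F_X + Y F_Y = 2 F - X³`
    have h3 : X ^ 3 = 0 := by
      have e := (N.eqn_iff _ _).1 heq
      linear_combination 2 * e - X * c1 - (g + β * X) * c2
    exact hX0 (pow_eq_zero_iff (three_ne_zero) |>.1 h3)
  refine ⟨Point.some _ _ hns, some_ne_zero _, ?_⟩
  rw [uN_some]
  have e1 : g + β * X + y0 - y0 - α * (X + x0 - x0) = t * g := by linear_combination -r1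
  have e2 : g + β * X + y0 - y0 - β * (X + x0 - x0) = g := by ring
  rw [e1, e2, mul_div_assoc, div_self hg0, mul_one]

/-- a point of exact order `m`. -/
theorem exists_addOrderOf_eq (N : NodeK W x0 y0 α β) {m : ℕ} (hm : 1 < m) {ζ : k}
    (hζ : IsPrimitiveRoot ζ m) : ∃ P : W.Point, P ≠ 0 ∧ addOrderOf P = m := by
  have h0 : ζ ≠ 0 := hζ.ne_zero (by omega)
  have h1 : ζ ≠ 1 := hζ.ne_one hm
  obtain ⟨P, hP, hu⟩ := N.exists_uN_eq h0 h1
  refine ⟨P, hP, ?_⟩
  rw [addOrderOf_eq_iff (by omega)]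
  refine ⟨by rw [N.nsmul_eq_zero_iff, hu, hζ.pow_eq_one], ?_⟩
  intro j hj hj0 h
  rw [N.nsmul_eq_zero_iff, hu] at h
  exact absurd (Nat.le_of_dvd hj0 ((hζ.pow_eq_one_iff_dvd j).1 h)) (by omega)

end NodeK

end Fermat.Agent.ML.ESide
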