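import Fermat.Agent.HW.Pow.Node

/-!
# ML / ESIDE : `[E-ST]`, abstract part.  The multiplicative parameter on the points with
nonsingular reduction of a curve with multiplicative reduction

Notation of `HW.NodeData`: `X = x - x0`, `Y = y - y0`, `f = Y - αX`, `g = Y - βX`, `f g = X³ + c`.
For a line `Y = l X + n` through `P`, `Q`, `-(P+Q)`:
`f_P f_Q g_{P+Q} = c (l-α)³ - n³`, `g_P g_Q f_{P+Q} = c (l-β)³ - n³`   (exact identities),
so `u = f/g` is multiplicative modulo the maximal ideal on the `m`-torsion points with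
nonsingular reduction, and injective there.
-/

set_option autoImplicit false
set_option linter.unusedVariables false

namespace Fermat.Agent.ML.ESide

open WeierstrassCurve WeierstrassCurve.Affine WeierstrassCurve.Affine.Point
open Fermat.Agent.S05 Fermat.Agent.HW

variable {K : Type*} [Field K] {A : ValuationSubring K}
  {W : WeierstrassCurve.Affine K} {x0 y0 α β c : K}

/-- `Y - t X` -/
def nF (x0 y0 t : K) (P : W.Point) : K := (yc P - y0) - t * (xc P - x0)

section Line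

variable [DecidableEq K]

/-- the line through `P`, `Q` (tangent if `P = Q`), `P + Q ≠ 0`. -/
theorem exists_line {P Q : W.Point} (hP : P ≠ 0) (hQ : Q ≠ 0) (hPQ : P + Q ≠ 0) :
    ∃ l : K,
      xc (P + Q) = l ^ 2 + W.a₁ * l - W.a₂ - xc P - xc Q ∧
      yc (P + Q) = -(l * (xc (P + Q) - xc P) + yc P) - W.a₁ * xc (P + Q) - W.a₃ ∧
      ((xc P ≠ xc Q ∧ l * (xc P - xc Q) = yc P - yc Q) ∨
       (P = Q ∧ l * (2 * yc P + W.a₁ * xc P + W.a₃)
          = 3 * xc P ^ 2 + 2 * W.a₂ * xc P + W.a₄ - W.a₁ * yc P)) := by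
  cases P with
  | zero => exact absurd rfl hP
  | some x1 y1 h1 =>
    cases Q with
    | zero => exact absurd rfl hQ
    | some x2 y2 h2 =>
      by_cases hx : x1 = x2
      · have hy : y1 ≠ W.negY x2 y2 := by
          intro hy
          exact hPQ (add_of_Y_eq hx hy)
        have hyy : y1 = y2 := Y_eq_of_Y_ne h1.1 h2.1 hx hy
        subst hx
        subst hyy
        refine ⟨W.slope x1 x1 y1 y1, ?_, ?_, Or.inr ⟨rfl, ?_⟩⟩
        · rw [add_of_Y_ne hy]
          simp only [xc_some, addX]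
        · rw [add_of_Y_ne hy]
          simp only [xc_some, yc_some, addY, negAddY, negY, addX]
        · simp only [xc_some, yc_some]
          rw [slope_of_Y_ne rfl hy]
          have hd : y1 - W.negY x1 y1 ≠ 0 := sub_ne_zero.2 hy
          have e : 2 * y1 + W.a₁ * x1 + W.a₃ = y1 - W.negY x1 y1 := by rw [negY]; ring
          rw [e, div_mul_cancel₀ _ hd]
      · refine ⟨W.slope x1 x2 y1 y2, ?_, ?_, Or.inl ⟨hx, ?_⟩⟩
        · rw [add_of_X_ne hx]
          simp only [xc_some, addX]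
        · rw [add_of_X_ne hx]
          simp only [xc_some, yc_some, addY, negAddY, negY, addX]
        · simp only [xc_some, yc_some]
          rw [slope_of_X_ne hx, div_mul_cancel₀ _ (sub_ne_zero.2 hx)]

omit [DecidableEq K] in
/-- pure algebra: the product of `(l - a) X_i + n` over the three intersection points. -/
theorem prod_line_aux (X1 X2 l n a b c : K)
    (h1 : ((l - a) * X1 + n) * ((l - b) * X1 + n) = X1 ^ 3 + c)
    (r12 : X1 ^ 2 + X1 * X2 + X2 ^ 2 - (l - a) * (l - b) * (X1 + X2) - n * (2 * l - a - b) = 0) :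
    ((l - a) * X1 + n) * ((l - a) * X2 + n) * ((l - a) * ((l - a) * (l - b) - X1 - X2) + n)
      = n ^ 3 - c * (l - a) ^ 3 := by
  linear_combination (-(l - a) ^ 3) * h1 + (-(l - a) ^ 3 * X1 - (l - a) ^ 2 * n) * r12

/-- the line through `P`, `Q`, `-(P+Q)` in the coordinates of the node. -/
theorem exists_line_node (N : NodeData A W x0 y0 α β c) {P Q : W.Point} (hP : P ≠ 0) (hQ : Q ≠ 0)
    (hPQ : P + Q ≠ 0) :
    ∃ l n : K,
      nF x0 y0 α P = (l - α) * (xc P - x0) + n ∧ nF x0 y0 β P = (l - β) * (xc P - x0) + n ∧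
      nF x0 y0 α Q = (l - α) * (xc Q - x0) + n ∧ nF x0 y0 β Q = (l - β) * (xc Q - x0) + n ∧
      xc (P + Q) - x0 = (l - α) * (l - β) - (xc P - x0) - (xc Q - x0) ∧
      nF x0 y0 α (P + Q) = -((l - β) * (xc (P + Q) - x0) + n) ∧
      nF x0 y0 β (P + Q) = -((l - α) * (xc (P + Q) - x0) + n) ∧
      nF x0 y0 α P * nF x0 y0 α Q * nF x0 y0 β (P + Q) = c * (l - α) ^ 3 - n ^ 3 ∧
      nF x0 y0 β P * nF x0 y0 β Q * nF x0 y0 α (P + Q) = c * (l - β) ^ 3 - n ^ 3 ∧
      ((xc P ≠ xc Q ∧ l * (xc P - xc Q) = yc P - yc Q) ∨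
       (P = Q ∧ l * (nF x0 y0 α P + nF x0 y0 β P)
          = 3 * (xc P - x0) ^ 2 - 2 * (α * β) * (xc P - x0) + (α + β) * (yc P - y0))) := by
  obtain ⟨l, h1, h2, h3⟩ := exists_line hP hQ hPQ
  have eP := N.eqn hP
  have eQ := N.eqn hQ
  rw [N.a₂_eq, N.a₁_eq] at h1
  rw [N.a₃_eq, N.a₁_eq] at h2
  rw [N.a₄_eq, N.a₃_eq, N.a₂_eq, N.a₁_eq] at h3
  obtain ⟨x1, hx1⟩ : ∃ x, x = xc P := ⟨_, rfl⟩
  obtain ⟨y1, hy1⟩ : ∃ x, x = yc P := ⟨_, rfl⟩
  obtain ⟨x2, hx2⟩ : ∃ x, x = xc Q := ⟨_, rfl⟩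
  obtain ⟨y2, hy2⟩ : ∃ x, x = yc Q := ⟨_, rfl⟩
  obtain ⟨x3, hx3⟩ : ∃ x, x = xc (P + Q) := ⟨_, rfl⟩
  obtain ⟨y3, hy3⟩ : ∃ x, x = yc (P + Q) := ⟨_, rfl⟩
  simp only [nF]
  rw [← hx1, ← hy1, ← hx2, ← hy2, ← hx3, ← hy3]
  rw [← hx1, ← hy1] at eP
  rw [← hx2, ← hy2] at eQ
  rw [← hx1, ← hx2, ← hx3] at h1
  rw [← hx1, ← hy1, ← hx3, ← hy3] at h2
  -- the second point is on the line
  have hQl : y2 - y0 = l * (x2 - x0) + ((y1 - y0) - l * (x1 - x0)) := by
    rcases h3 with ⟨-, h⟩ | ⟨h, -⟩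
    · rw [← hx1, ← hy1, ← hx2, ← hy2] at h
      linear_combination h
    · rw [hx2, hy2, ← h, ← hx1, ← hy1]; ring
  have r12 : (x1 - x0) ^ 2 + (x1 - x0) * (x2 - x0) + (x2 - x0) ^ 2
      - (l - α) * (l - β) * ((x1 - x0) + (x2 - x0))
      - ((y1 - y0) - l * (x1 - x0)) * (2 * l - α - β) = 0 := by
    rcases h3 with ⟨hne, h⟩ | ⟨h, h'⟩
    · rw [← hx1, ← hx2] at hne
      have hd : x1 - x2 ≠ 0 := sub_ne_zero.2 hne
      apply mul_left_cancel₀ hd
      rw [mul_zero]
      have hy2' : y2 = y0 + (l * (x2 - x0) + ((y1 - y0) - l * (x1 - x0))) := by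
        linear_combination hQl
      rw [hy2'] at eQ
      linear_combination eQ - eP
    · have e2 : x2 = x1 := by rw [hx2, ← h, hx1]
      rw [← hx1, ← hy1] at h'
      rw [e2]
      linear_combination -h'
  have hX3 : x3 - x0 = (l - α) * (l - β) - (x1 - x0) - (x2 - x0) := by linear_combination h1
  have fP : y1 - y0 - α * (x1 - x0) = (l - α) * (x1 - x0) + ((y1 - y0) - l * (x1 - x0)) := by ring
  have gP : y1 - y0 - β * (x1 - x0) = (l - β) * (x1 - x0) + ((y1 - y0) - l * (x1 - x0)) := by ring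
  have fQ : y2 - y0 - α * (x2 - x0) = (l - α) * (x2 - x0) + ((y1 - y0) - l * (x1 - x0)) := by
    linear_combination hQl
  have gQ : y2 - y0 - β * (x2 - x0) = (l - β) * (x2 - x0) + ((y1 - y0) - l * (x1 - x0)) := by
    linear_combination hQl
  have fR : y3 - y0 - α * (x3 - x0) = -((l - β) * (x3 - x0) + ((y1 - y0) - l * (x1 - x0))) := by
    linear_combination h2
  have gR : y3 - y0 - β * (x3 - x0) = -((l - α) * (x3 - x0) + ((y1 - y0) - l * (x1 - x0))) := by
    linear_combination h2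
  refine ⟨l, (y1 - y0) - l * (x1 - x0), fP, gP, fQ, gQ, hX3, fR, gR, ?_, ?_, ?_⟩
  · have hh := prod_line_aux (x1 - x0) (x2 - x0) l ((y1 - y0) - l * (x1 - x0)) α β c
      (by rw [← fP, ← gP]; exact eP) r12
    rw [gR, fP, fQ, hX3]
    linear_combination -hh
  · have hh := prod_line_aux (x1 - x0) (x2 - x0) l ((y1 - y0) - l * (x1 - x0)) β α c
      (by rw [← fP, ← gP, mul_comm]; exact eP) (by linear_combination r12)
    rw [fR, gP, gQ, hX3]
    linear_combination -hh
  · rcases h3 with ⟨hne, h⟩ | ⟨h, h'⟩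
    · rw [← hx1, ← hx2] at hne
      rw [← hx1, ← hy1, ← hx2, ← hy2] at h
      exact Or.inl ⟨hne, h⟩
    · refine Or.inr ⟨h, ?_⟩
      rw [← hx1, ← hy1] at h'
      linear_combination h'

end Line

/-! ### small / integral / unit calculus -/

section Val

variable {Γ₀ : Type*} [LinearOrderedCommGroupWithZero Γ₀] (v : Valuation K Γ₀)

theorem sm2 {i1 s1 i2 s2 : K} (hi1 : v i1 ≤ 1) (hs1 : v s1 < 1) (hi2 : v i2 ≤ 1) (hs2 : v s2 < 1) :
    v (i1 * s1 + i2 * s2) < 1 :=
  val_add_lt_one v (val_mul_lt_one_right v hi1 hs1) (val_mul_lt_one_right v hi2 hs2)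

theorem sm3 {i1 s1 i2 s2 i3 s3 : K} (hi1 : v i1 ≤ 1) (hs1 : v s1 < 1) (hi2 : v i2 ≤ 1)
    (hs2 : v s2 < 1) (hi3 : v i3 ≤ 1) (hs3 : v s3 < 1) :
    v (i1 * s1 + i2 * s2 + i3 * s3) < 1 :=
  val_add_lt_one v (sm2 v hi1 hs1 hi2 hs2) (val_mul_lt_one_right v hi3 hs3)

theorem sm_of_unit_mul {u x : K} (hu : v u = 1) (h : v (u * x) < 1) : v x < 1 := by
  rwa [map_mul, hu, one_mul] at h

theorem sm_of_pow {x : K} (k : ℕ) (h : v (x ^ k) < 1) : v x < 1 := by
  by_contra hcon
  rw [not_lt] at hcon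
  rw [map_pow] at h
  exact absurd (one_le_pow₀ hcon) (not_le.2 h)

theorem sm_or_of_mul {x y : K} (h : v (x * y) < 1) : v x < 1 ∨ v y < 1 := by
  by_contra hcon
  push Not at hcon
  rw [map_mul] at h
  exact absurd (one_le_mul_of_one_le_of_one_le hcon.1 hcon.2) (not_le.2 h)

theorem unit_of_mul {x y : K} (hx : v x ≤ 1) (hy : v y ≤ 1) (h : v (x * y) = 1) :
    v x = 1 ∧ v y = 1 := by
  rw [map_mul] at h
  constructor
  · refine le_antisymm hx ?_
    rw [← h]
    exact mul_le_of_le_one_right' hy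
  · refine le_antisymm hy ?_
    rw [← h]
    exact mul_le_of_le_one_left' hx

theorem unit_add_sm {x y : K} (hx : v x = 1) (hy : v y < 1) : v (x + y) = 1 := by
  rw [Valuation.map_add_eq_of_lt_left v (by rw [hx]; exact hy), hx]

theorem int_pow {x : K} (hx : v x ≤ 1) (k : ℕ) : v (x ^ k) ≤ 1 := by
  rw [map_pow]; exact pow_le_one₀ zero_le hx

theorem unit_pow {x : K} (hx : v x = 1) (k : ℕ) : v (x ^ k) = 1 := by
  rw [map_pow, hx, one_pow]

theorem unit_mul {x y : K} (hx : v x = 1) (hy : v y = 1) : v (x * y) = 1 := by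
  rw [map_mul, hx, hy, one_mul]

end Val

/-! ### points with nonsingular reduction -/

section Core

variable [DecidableEq K] {m q : ℕ}

omit [DecidableEq K] in
theorem nF_neg_left (N : NodeData A W x0 y0 α β c) {P : W.Point} (hP : P ≠ 0) :
    nF x0 y0 α (-P) = - nF x0 y0 β P := by
  rw [nF, nF, xc_neg, yc_neg hP, negY, N.a₃_eq, N.a₁_eq]; ring

omit [DecidableEq K] in
theorem nF_neg_right (N : NodeData A W x0 y0 α β c) {P : W.Point} (hP : P ≠ 0) :
    nF x0 y0 β (-P) = - nF x0 y0 α P := by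
  rw [nF, nF, xc_neg, yc_neg hP, negY, N.a₃_eq, N.a₁_eq]; ring

omit [DecidableEq K] in
theorem nF_sub (P : W.Point) :
    nF x0 y0 α P - nF x0 y0 β P = (β - α) * (xc P - x0) := by rw [nF, nF]; ring

omit [DecidableEq K] in
theorem val_beta_sub_alpha (N : NodeData A W x0 y0 α β c) : A.valuation (β - α) = 1 := by
  rw [← N.vαβ, ← Valuation.map_neg, neg_sub]

/-- a nonzero point with integral coordinates and nonsingular reduction. -/
structure Pt (A : ValuationSubring K) (x0 y0 α β : K) (P : W.Point) : Prop where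
  ne : P ≠ 0
  x : A.valuation (xc P) ≤ 1
  y : A.valuation (yc P) ≤ 1
  X : A.valuation (xc P - x0) = 1
  f : A.valuation (nF x0 y0 α P) = 1
  g : A.valuation (nF x0 y0 β P) = 1

omit [DecidableEq K] in
theorem nF_int (N : NodeData A W x0 y0 α β c) {t : K} (ht : A.valuation t ≤ 1) {P : W.Point}
    (hx : A.valuation (xc P) ≤ 1) (hy : A.valuation (yc P) ≤ 1) :
    A.valuation (nF x0 y0 t P) ≤ 1 :=
  val_sub_le_one _ (val_sub_le_one _ hy N.vy0) (val_mul_le_one _ ht (val_sub_le_one _ hx N.vx0))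

omit [DecidableEq K] in
theorem Pt.of_int (N : NodeData A W x0 y0 α β c) {P : W.Point} (hP : P ≠ 0)
    (hx : A.valuation (xc P) ≤ 1) (hy : A.valuation (yc P) ≤ 1)
    (hX : A.valuation (xc P - x0) = 1) : Pt A x0 y0 α β P := by
  have h1 : A.valuation (nF x0 y0 α P * nF x0 y0 β P) = 1 := by
    have := N.eqn hP
    rw [nF, nF, this]
    exact unit_add_sm _ (unit_pow _ hX 3) N.vc
  obtain ⟨h2, h3⟩ := unit_of_mul _ (nF_int N N.vα hx hy) (nF_int N N.vβ hx hy) h1
  exact ⟨hP, hx, hy, hX, h2, h3⟩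

theorem Pt.of_tors (N : NodeData A W x0 y0 α β c) (I : IntData A W) (D : OddData A m q)
    {P : W.Point} (hP : P ≠ 0) (hmP : m • P = 0) (hX : A.valuation (xc P - x0) = 1) :
    Pt A x0 y0 α β P :=
  Pt.of_int N hP (tors_x_odd I D hP hmP) (tors_y_odd I D hP hmP) hX

theorem Pt.neg (N : NodeData A W x0 y0 α β c) (I : IntData A W) {P : W.Point}
    (h : Pt A x0 y0 α β P) : Pt A x0 y0 α β (-P) := by
  refine ⟨neg_ne_zero.2 h.ne, by rw [xc_neg]; exact h.x, ?_, by rw [xc_neg]; exact h.X,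
    by rw [nF_neg_left N h.ne, Valuation.map_neg]; exact h.g,
    by rw [nF_neg_right N h.ne, Valuation.map_neg]; exact h.f⟩
  rw [yc_neg h.ne, negY]
  exact val_sub_le_one _ (val_sub_le_one _ (by rw [Valuation.map_neg]; exact h.y)
    (val_mul_le_one _ ((A.valuation_le_one_iff _).2 I.h₁) h.x)) ((A.valuation_le_one_iff _).2 I.h₃)

omit [DecidableEq K] in
theorem Pt.hns (N : NodeData A W x0 y0 α β c) (I : IntData A W) {P : W.Point}
    (h : Pt A x0 y0 α β P) :
    A.valuation (W.a₁ * yc P - (3 * xc P ^ 2 + 2 * W.a₂ * xc P + W.a₄)) = 1 ∨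
      A.valuation (2 * yc P + W.a₁ * xc P + W.a₃) = 1 :=
  N.hns_of_unit I h.ne h.x h.y h.X

/-- two torsion points with nonsingular reduction and congruent coordinates are equal. -/
theorem Pt.eq_of_congr (N : NodeData A W x0 y0 α β c) (I : IntData A W) (D : OddData A m q)
    {P Q : W.Point} (hP : Pt A x0 y0 α β P) (hQ : Pt A x0 y0 α β Q) (hmP : m • P = 0)
    (hmQ : m • Q = 0) (hx : A.valuation (xc P - xc Q) < 1) (hy : A.valuation (yc P - yc Q) < 1) :
    P = Q :=
  eq_of_congr_of_hns_odd A m q D.hm D.hq D.hmq D.hqA I.h₁ I.h₂ I.h₃ I.h₄ I.h₆ hP.ne hQ.ne hmP hmQ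
    hx hy (hQ.hns N I)

/-- two distinct, non opposite torsion points with nonsingular reduction have incongruent
`x`-coordinates. -/
theorem Pt.val_sub_eq_one (N : NodeData A W x0 y0 α β c) (I : IntData A W) (D : OddData A m q)
    {P Q : W.Point} (hP : Pt A x0 y0 α β P) (hQ : Pt A x0 y0 α β Q) (hmP : m • P = 0)
    (hmQ : m • Q = 0) (h1 : P ≠ Q) (h2 : P ≠ -Q) : A.valuation (xc P - xc Q) = 1 := by
  refine le_antisymm (val_sub_le_one _ hP.x hQ.x) ?_
  by_contra hcon
  rw [not_le] at hcon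
  have v₁ := (A.valuation_le_one_iff _).2 I.h₁
  have v₂ := (A.valuation_le_one_iff _).2 I.h₂
  have v₄ := (A.valuation_le_one_iff _).2 I.h₄
  have eP := equation_xc_yc hP.ne
  have eQ := equation_xc_yc hQ.ne
  have key : (yc P - yc Q) * (yc P + yc Q + W.a₁ * xc Q + W.a₃)
      = (xc P ^ 2 + xc P * xc Q + xc Q ^ 2 + W.a₂ * (xc P + xc Q) + W.a₄ - W.a₁ * yc P)
        * (xc P - xc Q) := by
    linear_combination eP - eQ
  have hsm : A.valuation ((yc P - yc Q) * (yc P + yc Q + W.a₁ * xc Q + W.a₃)) < 1 := by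
    rw [key]
    refine val_mul_lt_one_right _ ?_ hcon
    refine val_sub_le_one _ (val_add_le_one _ (val_add_le_one _ (val_add_le_one _ (val_add_le_one _
      (int_pow _ hP.x 2) (val_mul_le_one _ hP.x hQ.x)) (int_pow _ hQ.x 2))
      (val_mul_le_one _ v₂ (val_add_le_one _ hP.x hQ.x))) v₄) (val_mul_le_one _ v₁ hP.y)
  rcases sm_or_of_mul _ hsm with h | h
  · exact h1 (Pt.eq_of_congr N I D hP hQ hmP hmQ hcon h)
  · refine h2 (Pt.eq_of_congr N I D hP (hQ.neg N I) hmP (by rw [smul_neg, hmQ, _root_.neg_zero])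
      (by rw [xc_neg]; exact hcon) ?_)
    rw [yc_neg hQ.ne, negY]
    have : yc P - (-yc Q - W.a₁ * xc Q - W.a₃) = yc P + yc Q + W.a₁ * xc Q + W.a₃ := by ring
    rw [this]; exact h

/-- **the sum of two torsion points with nonsingular reduction**. -/
theorem Pt.add (N : NodeData A W x0 y0 α β c) (I : IntData A W) (D : OddData A m q)
    {P Q : W.Point} (hP : Pt A x0 y0 α β P) (hQ : Pt A x0 y0 α β Q) (hmP : m • P = 0)
    (hmQ : m • Q = 0) (hPQ : P + Q ≠ 0) :
    Pt A x0 y0 α β (P + Q) ∧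
    A.valuation (nF x0 y0 β P * nF x0 y0 β Q * nF x0 y0 α (P + Q)
      - nF x0 y0 α P * nF x0 y0 α Q * nF x0 y0 β (P + Q)) < 1 := by
  obtain ⟨l, n, fP, gP, fQ, gQ, hX3, fR, gR, prα, prβ, hsl⟩ := exists_line_node N hP.ne hQ.ne hPQ
  have hmR : m • (P + Q) = 0 := by rw [smul_add, hmP, hmQ, add_zero]
  have hxR := tors_x_odd I D hPQ hmR
  have hyR := tors_y_odd I D hPQ hmR
  have hXR : A.valuation (xc (P + Q) - x0) ≤ 1 := val_sub_le_one _ hxR N.vx0
  have hfR : A.valuation (nF x0 y0 α (P + Q)) ≤ 1 := nF_int N N.vα hxR hyR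
  have hgR : A.valuation (nF x0 y0 β (P + Q)) ≤ 1 := nF_int N N.vβ hxR hyR
  have eR : nF x0 y0 α (P + Q) * nF x0 y0 β (P + Q) = (xc (P + Q) - x0) ^ 3 + c := N.eqn hPQ
  have eP : nF x0 y0 α P * nF x0 y0 β P = (xc P - x0) ^ 3 + c := N.eqn hP.ne
  have dR := nF_sub (x0 := x0) (y0 := y0) (α := α) (β := β) (P + Q)
  have dP := nF_sub (x0 := x0) (y0 := y0) (α := α) (β := β) P
  have w2 : A.valuation (2 : K) ≤ 1 := by exact_mod_cast valuation_natCast_le_one A 2
  have w3 : A.valuation (3 : K) ≤ 1 := by exact_mod_cast valuation_natCast_le_one A 3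
  have w8 : A.valuation (8 : K) ≤ 1 := by exact_mod_cast valuation_natCast_le_one A 8
  -- the slope is integral
  have hl : A.valuation l ≤ 1 := by
    rcases hsl with ⟨hne, h⟩ | ⟨h, h'⟩
    · have h1 : P ≠ Q := fun h => hne (by rw [h])
      have h2 : P ≠ -Q := fun h => hPQ (by rw [h, neg_add_cancel])
      have h3 := Pt.val_sub_eq_one N I D hP hQ hmP hmQ h1 h2
      have h4 := congrArg A.valuation h
      rw [map_mul, h3, mul_one] at h4
      rw [h4]
      exact val_sub_le_one _ hP.y hQ.y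
    · subst h
      have hd := N.dbl hP.ne hPQ
      have hsq : (nF x0 y0 α P + nF x0 y0 β P) ^ 2
          = 4 * (xc P - x0) ^ 3 + (α - β) ^ 2 * (xc P - x0) ^ 2 + 4 * c := by
        linear_combination 4 * eP + (nF x0 y0 α P - nF x0 y0 β P + (β - α) * (xc P - x0)) * dP
      have hu : A.valuation (nF x0 y0 α P + nF x0 y0 β P) = 1 := by
        refine le_antisymm (val_add_le_one _ hP.f.le hP.g.le) ?_
        by_contra hcon
        rw [not_le] at hcon
        have h1 : A.valuation ((xc (P + P) - x0)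
            * (4 * (xc P - x0) ^ 3 + (α - β) ^ 2 * (xc P - x0) ^ 2 + 4 * c)) < 1 := by
          rw [← hsq, sq]
          exact val_mul_lt_one_right _ hXR (val_mul_lt_one_right _ hcon.le hcon)
        rw [hd] at h1
        have h2 : (xc P - x0) ^ 4 - 8 * c * (xc P - x0) - (α - β) ^ 2 * c
            = (xc P - x0) ^ 4 + ((-(8 * (xc P - x0))) * c + (-(α - β) ^ 2) * c) := by ring
        rw [h2, unit_add_sm _ (unit_pow _ hP.X 4)] at h1
        · exact lt_irrefl _ h1
        · refine sm2 _ ?_ N.vc ?_ N.vc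
          · rw [Valuation.map_neg]; exact val_mul_le_one _ w8 hP.X.le
          · rw [Valuation.map_neg]; exact (unit_pow _ N.vαβ 2).le
      have h4 := congrArg A.valuation h'
      rw [map_mul, hu, mul_one] at h4
      rw [h4]
      refine val_add_le_one _ (val_sub_le_one _ (val_mul_le_one _ w3 (int_pow _ hP.X.le 2))
        (val_mul_le_one _ (val_mul_le_one _ w2 (val_mul_le_one _ N.vα N.vβ)) hP.X.le))
        (val_mul_le_one _ (val_add_le_one _ N.vα N.vβ) (val_sub_le_one _ hP.y N.vy0))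
  have hlα : A.valuation (l - α) ≤ 1 := val_sub_le_one _ hl N.vα
  have hlβ : A.valuation (l - β) ≤ 1 := val_sub_le_one _ hl N.vβ
  have hn : A.valuation n ≤ 1 := by
    have : n = nF x0 y0 α P - (l - α) * (xc P - x0) := by rw [fP]; ring
    rw [this]
    exact val_sub_le_one _ hP.f.le (val_mul_le_one _ hlα hP.X.le)
  -- the sum has nonsingular reduction
  have hXR1 : A.valuation (xc (P + Q) - x0) = 1 := by
    refine le_antisymm hXR ?_
    by_contra hcon
    rw [not_le] at hcon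
    have h1 : A.valuation (nF x0 y0 α (P + Q)) < 1 := by
      apply sm_of_pow _ 2
      have : nF x0 y0 α (P + Q) ^ 2 = (xc (P + Q) - x0) ^ 2 * (xc (P + Q) - x0) + 1 * c
          + (nF x0 y0 α (P + Q) * (β - α)) * (xc (P + Q) - x0) := by
        linear_combination eR + nF x0 y0 α (P + Q) * dR
      rw [this]
      exact sm3 _ (int_pow _ hXR 2) hcon (by rw [map_one]) N.vc
        (val_mul_le_one _ hfR (val_beta_sub_alpha N).le) hcon
    have h2 : A.valuation (nF x0 y0 β (P + Q)) < 1 := by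
      have : nF x0 y0 β (P + Q) = 1 * nF x0 y0 α (P + Q) + (-(β - α)) * (xc (P + Q) - x0) := by
        linear_combination -dR
      rw [this]
      exact sm2 _ (by rw [map_one]) h1 (by rw [Valuation.map_neg]; exact (val_beta_sub_alpha N).le)
        hcon
    have h3 : A.valuation n < 1 := by
      apply sm_of_pow _ 3
      have : n ^ 3 = (l - α) ^ 3 * c + (-(nF x0 y0 α P * nF x0 y0 α Q)) * nF x0 y0 β (P + Q) := by
        linear_combination prα
      rw [this]
      exact sm2 _ (int_pow _ hlα 3) N.vc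
        (by rw [Valuation.map_neg]; exact (unit_mul _ hP.f hQ.f).le) h2
    have h4 : A.valuation ((l - α) * (l - β) - (xc P - x0)) < 1 := by
      apply sm_of_unit_mul _ (unit_pow _ hP.X 2)
      have : (xc P - x0) ^ 2 * ((l - α) * (l - β) - (xc P - x0))
          = 1 * c + (-((l - α) + (l - β)) * (xc P - x0) - n) * n := by
        rw [fP, gP] at eP
        linear_combination eP
      rw [this]
      refine sm2 _ (by rw [map_one]) N.vc ?_ h3
      refine val_sub_le_one _ (val_mul_le_one _ ?_ hP.X.le) hn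
      rw [Valuation.map_neg]
      exact val_add_le_one _ hlα hlβ
    have h5 : A.valuation (xc Q - x0) < 1 := by
      have : xc Q - x0 = 1 * ((l - α) * (l - β) - (xc P - x0)) + (-1) * (xc (P + Q) - x0) := by
        linear_combination hX3
      rw [this]
      exact sm2 _ (by rw [map_one]) h4 (by rw [Valuation.map_neg, map_one]) hcon
    rw [hQ.X] at h5
    exact lt_irrefl _ h5
  refine ⟨Pt.of_int N hPQ hxR hyR hXR1, ?_⟩
  have : nF x0 y0 β P * nF x0 y0 β Q * nF x0 y0 α (P + Q)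
      - nF x0 y0 α P * nF x0 y0 α Q * nF x0 y0 β (P + Q)
      = (l - β) ^ 3 * c + (-(l - α) ^ 3) * c := by
    linear_combination prβ - prα
  rw [this]
  exact sm2 _ (int_pow _ hlβ 3) N.vc (by rw [Valuation.map_neg]; exact int_pow _ hlα 3) N.vc

/-! ### the multiplicative parameter -/

/-- "`u(P) ≡ a` modulo the maximal ideal", `u = f / g`, `u(0) = 1`. -/
def IsU (A : ValuationSubring K) (x0 y0 α β : K) (P : W.Point) (a : K) : Prop :=
  A.valuation a = 1 ∧ ((P = 0 ∧ A.valuation (a - 1) < 1) ∨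
    (Pt A x0 y0 α β P ∧ A.valuation (nF x0 y0 α P - a * nF x0 y0 β P) < 1))

omit [DecidableEq K] in
theorem IsU.zero : IsU A x0 y0 α β (0 : W.Point) 1 :=
  ⟨map_one _, Or.inl ⟨rfl, by rw [sub_self, _root_.map_zero]; exact zero_lt_one⟩⟩

omit [DecidableEq K] in
theorem Pt.exists_isU {P : W.Point} (h : Pt A x0 y0 α β P) :
    IsU A x0 y0 α β P (nF x0 y0 α P / nF x0 y0 β P) := by
  have hg0 : nF x0 y0 β P ≠ 0 := by
    intro h0
    have := h.g
    rw [h0, _root_.map_zero] at this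
    exact zero_ne_one this
  refine ⟨by rw [map_div₀, h.f, h.g, div_one], Or.inr ⟨h, ?_⟩⟩
  rw [div_mul_cancel₀ _ hg0, sub_self, _root_.map_zero]
  exact zero_lt_one

omit [DecidableEq K] in
theorem IsU.congr {P : W.Point} {a b : K} (h : IsU A x0 y0 α β P a)
    (hab : A.valuation (a - b) < 1) : IsU A x0 y0 α β P b := by
  have hb : A.valuation b = 1 := by
    have : b = a + -(a - b) := by ring
    rw [this]
    exact unit_add_sm _ h.1 (by rw [Valuation.map_neg]; exact hab)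
  refine ⟨hb, ?_⟩
  rcases h.2 with ⟨h0, h1⟩ | ⟨hP, h1⟩
  · refine Or.inl ⟨h0, ?_⟩
    have : b - 1 = (a - 1) - (a - b) := by ring
    rw [this]
    exact val_sub_lt_one _ h1 hab
  · refine Or.inr ⟨hP, ?_⟩
    have : nF x0 y0 α P - b * nF x0 y0 β P
        = 1 * (nF x0 y0 α P - a * nF x0 y0 β P) + nF x0 y0 β P * (a - b) := by ring
    rw [this]
    exact sm2 _ (by rw [map_one]) h1 hP.g.le hab

theorem IsU.neg (N : NodeData A W x0 y0 α β c) (I : IntData A W) {P : W.Point} {a : K}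
    (h : IsU A x0 y0 α β P a) : IsU A x0 y0 α β (-P) a⁻¹ := by
  have ha0 : a ≠ 0 := by
    intro h0
    have := h.1
    rw [h0, _root_.map_zero] at this
    exact zero_ne_one this
  have hinv : A.valuation a⁻¹ = 1 := by rw [map_inv₀, h.1, inv_one]
  refine ⟨hinv, ?_⟩
  rcases h.2 with ⟨h0, h1⟩ | ⟨hP, h1⟩
  · refine Or.inl ⟨by rw [h0, _root_.neg_zero], ?_⟩
    have : a⁻¹ - 1 = (-a⁻¹) * (a - 1) := by field_simp; ring
    rw [this]
    exact val_mul_lt_one_right _ (by rw [Valuation.map_neg]; exact hinv.le) h1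
  · refine Or.inr ⟨hP.neg N I, ?_⟩
    rw [nF_neg_left N hP.ne, nF_neg_right N hP.ne]
    have : -nF x0 y0 β P - a⁻¹ * -nF x0 y0 α P
        = a⁻¹ * (nF x0 y0 α P - a * nF x0 y0 β P) := by field_simp; ring
    rw [this]
    exact val_mul_lt_one_right _ hinv.le h1

theorem IsU.add (N : NodeData A W x0 y0 α β c) (I : IntData A W) (D : OddData A m q)
    {P Q : W.Point} (hmP : m • P = 0) (hmQ : m • Q = 0) {a b : K}
    (hP : IsU A x0 y0 α β P a) (hQ : IsU A x0 y0 α β Q b) :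
    IsU A x0 y0 α β (P + Q) (a * b) := by
  rcases hP.2 with ⟨h0, h1⟩ | ⟨pP, h1⟩
  · rw [h0, zero_add]
    refine hQ.congr ?_
    have : b - a * b = (-b) * (a - 1) := by ring
    rw [this]
    exact val_mul_lt_one_right _ (by rw [Valuation.map_neg]; exact hQ.1.le) h1
  rcases hQ.2 with ⟨h0, h2⟩ | ⟨pQ, h2⟩
  · rw [h0, add_zero]
    refine hP.congr ?_
    have : a - a * b = (-a) * (b - 1) := by ring
    rw [this]
    exact val_mul_lt_one_right _ (by rw [Valuation.map_neg]; exact hP.1.le) h2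
  have hab : A.valuation (a * b) = 1 := unit_mul _ hP.1 hQ.1
  refine ⟨hab, ?_⟩
  by_cases hPQ : P + Q = 0
  · refine Or.inl ⟨hPQ, ?_⟩
    have hQP : Q = -P := (neg_eq_of_add_eq_zero_right hPQ).symm
    rw [hQP, nF_neg_left N pP.ne, nF_neg_right N pP.ne] at h2
    apply sm_of_unit_mul _ pP.g
    have : nF x0 y0 β P * (a * b - 1) = (-b) * (nF x0 y0 α P - a * nF x0 y0 β P)
        + 1 * (-nF x0 y0 β P - b * -nF x0 y0 α P) := by ring
    rw [this]
    exact sm2 _ (by rw [Valuation.map_neg]; exact hQ.1.le) h1 (by rw [map_one]) h2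
  · obtain ⟨pR, h3⟩ := Pt.add N I D pP pQ hmP hmQ hPQ
    refine Or.inr ⟨pR, ?_⟩
    apply sm_of_unit_mul _ (unit_mul _ pP.g pQ.g)
    have : nF x0 y0 β P * nF x0 y0 β Q * (nF x0 y0 α (P + Q) - a * b * nF x0 y0 β (P + Q))
        = 1 * (nF x0 y0 β P * nF x0 y0 β Q * nF x0 y0 α (P + Q)
            - nF x0 y0 α P * nF x0 y0 α Q * nF x0 y0 β (P + Q))
          + (nF x0 y0 β (P + Q) * nF x0 y0 α P) * (nF x0 y0 α Q - b * nF x0 y0 β Q)
          + (nF x0 y0 β (P + Q) * b * nF x0 y0 β Q) * (nF x0 y0 α P - a * nF x0 y0 β P) := by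
      ring
    rw [this]
    exact sm3 _ (by rw [map_one]) h3 (unit_mul _ pR.g pP.f).le h2
      (unit_mul _ (unit_mul _ pR.g hQ.1) pQ.g).le h1

theorem IsU.nsmul (N : NodeData A W x0 y0 α β c) (I : IntData A W) (D : OddData A m q)
    {P : W.Point} (hmP : m • P = 0) {a : K} (hP : IsU A x0 y0 α β P a) (k : ℕ) :
    IsU A x0 y0 α β (k • P) (a ^ k) := by
  induction k with
  | zero => rw [zero_smul, pow_zero]; exact IsU.zero
  | succ k ih =>
    rw [succ_nsmul, pow_succ]
    exact IsU.add N I D (by rw [smul_comm, hmP, smul_zero]) hmP ih hP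

/-- **injectivity** of the parameter on torsion points. -/
theorem IsU.inj (N : NodeData A W x0 y0 α β c) (I : IntData A W) (D : OddData A m q)
    {P Q : W.Point} (hmP : m • P = 0) (hmQ : m • Q = 0) {a : K}
    (hP : IsU A x0 y0 α β P a) (hQ : IsU A x0 y0 α β Q a) : P = Q := by
  have hD := val_beta_sub_alpha N
  -- a point with parameter `≡ 1` is zero
  have key0 : ∀ {R : W.Point}, Pt A x0 y0 α β R →
      A.valuation (nF x0 y0 α R - a * nF x0 y0 β R) < 1 → A.valuation (a - 1) = 1 := by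
    intro R pR h
    have h1 : A.valuation ((a - 1) * nF x0 y0 β R) = 1 := by
      have : (a - 1) * nF x0 y0 β R
          = (β - α) * (xc R - x0) + -(nF x0 y0 α R - a * nF x0 y0 β R) := by
        have := nF_sub (x0 := x0) (y0 := y0) (α := α) (β := β) R
        linear_combination this
      rw [this]
      exact unit_add_sm _ (unit_mul _ hD pR.X) (by rw [Valuation.map_neg]; exact h)
    rw [map_mul, pR.g, mul_one] at h1
    exact h1
  rcases hP.2 with ⟨h0, h1⟩ | ⟨pP, h1⟩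
  · rcases hQ.2 with ⟨h0', -⟩ | ⟨pQ, h2⟩
    · rw [h0, h0']
    · exact absurd h1 (by rw [key0 pQ h2]; exact lt_irrefl _)
  rcases hQ.2 with ⟨-, h2⟩ | ⟨pQ, h2⟩
  · exact absurd h2 (by rw [key0 pP h1]; exact lt_irrefl _)
  have ha1 := key0 pP h1
  -- `(a-1)² X ≡ a D²`
  have keyX : ∀ {R : W.Point}, Pt A x0 y0 α β R →
      A.valuation (nF x0 y0 α R - a * nF x0 y0 β R) < 1 →
      A.valuation ((a - 1) ^ 2 * (xc R - x0) - a * (β - α) ^ 2) < 1 := by
    intro R pR h
    apply sm_of_unit_mul _ (unit_pow _ pR.X 2)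
    have e := N.eqn pR.ne
    have d := nF_sub (x0 := x0) (y0 := y0) (α := α) (β := β) R
    obtain ⟨f, hf⟩ : ∃ f, f = nF x0 y0 α R := ⟨_, rfl⟩
    obtain ⟨g, hg⟩ : ∃ g, g = nF x0 y0 β R := ⟨_, rfl⟩
    obtain ⟨X, hX⟩ : ∃ X, X = xc R - x0 := ⟨_, rfl⟩
    have e' : f * g = X ^ 3 + c := by rw [hf, hg, hX]; exact e
    rw [← hf, ← hg, ← hX] at d
    rw [← hf, ← hg] at h
    rw [← hX]
    have hfv : A.valuation f = 1 := by rw [hf]; exact pR.f
    have hgv : A.valuation g = 1 := by rw [hg]; exact pR.g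
    have : X ^ 2 * ((a - 1) ^ 2 * X - a * (β - α) ^ 2)
        = (-(a - 1) ^ 2) * c + ((a - 1) ^ 2 * g - a * (f - a * g) - 2 * a * (a - 1) * g) * (f - a * g)
          := by
      have hDX : (β - α) * X = f - g := d.symm
      have : X ^ 2 * ((a - 1) ^ 2 * X - a * (β - α) ^ 2)
          = (a - 1) ^ 2 * X ^ 3 - a * ((β - α) * X) ^ 2 := by ring
      rw [this, hDX]
      linear_combination (-(a - 1) ^ 2) * e'
    rw [this]
    refine sm2 _ (by rw [Valuation.map_neg]; exact (unit_pow _ ha1 2).le) N.vc ?_ h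
    have w2 : A.valuation (2 : K) ≤ 1 := by exact_mod_cast valuation_natCast_le_one A 2
    refine val_sub_le_one _ (val_sub_le_one _ (val_mul_le_one _ (unit_pow _ ha1 2).le hgv.le)
      (val_mul_le_one _ hP.1.le h.le)) (val_mul_le_one _ (val_mul_le_one _
      (val_mul_le_one _ w2 hP.1.le) ha1.le) hgv.le)
  have hx : A.valuation (xc P - xc Q) < 1 := by
    apply sm_of_unit_mul _ (unit_pow _ ha1 2)
    have : (a - 1) ^ 2 * (xc P - xc Q) = ((a - 1) ^ 2 * (xc P - x0) - a * (β - α) ^ 2)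
        - ((a - 1) ^ 2 * (xc Q - x0) - a * (β - α) ^ 2) := by ring
    rw [this]
    exact val_sub_lt_one _ (keyX pP h1) (keyX pQ h2)
  have hg : A.valuation (nF x0 y0 β P - nF x0 y0 β Q) < 1 := by
    apply sm_of_unit_mul _ ha1
    have dP := nF_sub (x0 := x0) (y0 := y0) (α := α) (β := β) P
    have dQ := nF_sub (x0 := x0) (y0 := y0) (α := α) (β := β) Q
    have : (a - 1) * (nF x0 y0 β P - nF x0 y0 β Q) = (β - α) * (xc P - xc Q)
        + (-1) * (nF x0 y0 α P - a * nF x0 y0 β P) + 1 * (nF x0 y0 α Q - a * nF x0 y0 β Q) := by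
      linear_combination dP - dQ
    rw [this]
    exact sm3 _ hD.le hx (by rw [Valuation.map_neg, map_one]) h1 (by rw [map_one]) h2
  have hy : A.valuation (yc P - yc Q) < 1 := by
    have : yc P - yc Q = 1 * (nF x0 y0 β P - nF x0 y0 β Q) + β * (xc P - xc Q) := by
      rw [nF, nF]; ring
    rw [this]
    exact sm2 _ (by rw [map_one]) hg N.vβ hx
  exact Pt.eq_of_congr N I D pP pQ hmP hmQ hx hy

/-! ### Frobenius -/

/-- a Frobenius-like pair (field endomorphism, induced endomorphism of the points). -/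
structure FrobLike (A : ValuationSubring K) (W : WeierstrassCurve.Affine K) (σ : K →+* K)
    (s : W.Point →+ W.Point) (q : ℕ) : Prop where
  hs : ∀ P : W.Point, P ≠ 0 → s P ≠ 0 ∧ xc (s P) = σ (xc P) ∧ yc (s P) = σ (yc P)
  hv : ∀ x, A.valuation (σ x) = A.valuation x
  hσ : ∀ x, A.valuation x ≤ 1 → A.valuation (σ x - x ^ q) < 1

variable {σ : K →+* K} {s : W.Point →+ W.Point}

theorem FrobLike.nF_eq (F : FrobLike A W σ s q) (hx0 : σ x0 = x0) (hy0 : σ y0 = y0) {t t' : K}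
    (ht : σ t = t') {P : W.Point} (hP : P ≠ 0) : nF x0 y0 t' (s P) = σ (nF x0 y0 t P) := by
  obtain ⟨-, h1, h2⟩ := F.hs P hP
  rw [nF, nF, h1, h2, map_sub, map_sub, map_mul, map_sub, hx0, hy0, ht]

theorem FrobLike.pt (F : FrobLike A W σ s q) (hx0 : σ x0 = x0) (hy0 : σ y0 = y0) {α' β' : K}
    (hα : σ α = α') (hβ : σ β = β') {P : W.Point} (h : Pt A x0 y0 α β P) :
    Pt A x0 y0 α' β' (s P) := by
  obtain ⟨h0, h1, h2⟩ := F.hs P h.ne
  refine ⟨h0, by rw [h1, F.hv]; exact h.x, by rw [h2, F.hv]; exact h.y, ?_,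
    by rw [F.nF_eq hx0 hy0 hα h.ne, F.hv]; exact h.f,
    by rw [F.nF_eq hx0 hy0 hβ h.ne, F.hv]; exact h.g⟩
  have : xc (s P) - x0 = σ (xc P - x0) := by rw [h1, map_sub, hx0]
  rw [this, F.hv]
  exact h.X

/-- split case: `σ` fixes the two tangent directions. -/
theorem FrobLike.eq_nsmul (N : NodeData A W x0 y0 α β c) (I : IntData A W) (D : OddData A m q)
    (F : FrobLike A W σ s q) (hx0 : σ x0 = x0) (hy0 : σ y0 = y0) (hα : σ α = α) (hβ : σ β = β)
    {P : W.Point} (hmP : m • P = 0) (h : Pt A x0 y0 α β P) : s P = q • P := by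
  have hU := h.exists_isU
  obtain ⟨a, ha⟩ : ∃ a, a = nF x0 y0 α P / nF x0 y0 β P := ⟨_, rfl⟩
  rw [← ha] at hU
  have h1 : A.valuation (nF x0 y0 α P - a * nF x0 y0 β P) < 1 := by
    rcases hU.2 with ⟨h0, -⟩ | ⟨-, h1⟩
    · exact absurd h0 h.ne
    · exact h1
  have hU2 : IsU A x0 y0 α β (s P) (a ^ q) := by
    refine ⟨unit_pow _ hU.1 q, Or.inr ⟨F.pt hx0 hy0 hα hβ h, ?_⟩⟩
    rw [F.nF_eq hx0 hy0 hα h.ne, F.nF_eq hx0 hy0 hβ h.ne]
    have : σ (nF x0 y0 α P) - a ^ q * σ (nF x0 y0 β P)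
        = 1 * σ (nF x0 y0 α P - a * nF x0 y0 β P) + σ (nF x0 y0 β P) * (σ a - a ^ q) := by
      rw [map_sub, map_mul]; ring
    rw [this]
    exact sm2 _ (by rw [map_one]) (by rw [F.hv]; exact h1) (by rw [F.hv]; exact h.g.le)
      (F.hσ a hU.1.le)
  exact IsU.inj N I D (by rw [← map_nsmul, hmP, _root_.map_zero]) (by rw [smul_comm, hmP, smul_zero])
    hU2 (hU.nsmul N I D hmP q)

/-- non split case: `σ` exchanges the two tangent directions. -/
theorem FrobLike.eq_neg_nsmul (N : NodeData A W x0 y0 α β c) (I : IntData A W)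
    (D : OddData A m q) (F : FrobLike A W σ s q) (hx0 : σ x0 = x0) (hy0 : σ y0 = y0)
    (hα : σ α = β) (hβ : σ β = α)
    {P : W.Point} (hmP : m • P = 0) (h : Pt A x0 y0 α β P) : s P = -(q • P) := by
  have hU := h.exists_isU
  obtain ⟨a, ha⟩ : ∃ a, a = nF x0 y0 α P / nF x0 y0 β P := ⟨_, rfl⟩
  rw [← ha] at hU
  have h1 : A.valuation (nF x0 y0 α P - a * nF x0 y0 β P) < 1 := by
    rcases hU.2 with ⟨h0, -⟩ | ⟨-, h1⟩
    · exact absurd h0 h.ne
    · exact h1
  have haq : A.valuation (a ^ q) = 1 := unit_pow _ hU.1 q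
  have haq0 : a ^ q ≠ 0 := by
    intro h0
    rw [h0, _root_.map_zero] at haq
    exact zero_ne_one haq
  have hinv : A.valuation (a ^ q)⁻¹ = 1 := by rw [map_inv₀, haq, inv_one]
  have hU2 : IsU A x0 y0 α β (s P) (a ^ q)⁻¹ := by
    refine ⟨hinv, Or.inr ⟨?_, ?_⟩⟩
    · have := F.pt hx0 hy0 hα hβ h
      exact ⟨this.ne, this.x, this.y, this.X, this.g, this.f⟩
    rw [F.nF_eq hx0 hy0 hβ h.ne, F.nF_eq hx0 hy0 hα h.ne]
    have : σ (nF x0 y0 β P) - (a ^ q)⁻¹ * σ (nF x0 y0 α P)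
        = (-(a ^ q)⁻¹) * σ (nF x0 y0 α P - a * nF x0 y0 β P)
          + (-(a ^ q)⁻¹ * σ (nF x0 y0 β P)) * (σ a - a ^ q) := by
      rw [map_sub, map_mul]; field_simp; ring
    rw [this]
    refine sm2 _ (by rw [Valuation.map_neg]; exact hinv.le) (by rw [F.hv]; exact h1) ?_
      (F.hσ a hU.1.le)
    rw [map_mul, Valuation.map_neg, hinv, one_mul, F.hv]
    exact h.g.le
  exact IsU.inj N I D (by rw [← map_nsmul, hmP, _root_.map_zero])
    (by rw [smul_neg, smul_comm, hmP, smul_zero, _root_.neg_zero])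
    hU2 ((hU.nsmul N I D hmP q).neg N I)

omit [DecidableEq K] in
/-- an automorphism preserving the valuation and the curve fixes the node and permutes the two
tangent directions. -/
theorem node_fixed [CharZero K] (N : NodeData A W x0 y0 α β c)
    (hv : ∀ x, A.valuation (σ x) = A.valuation x)
    (h₁ : σ W.a₁ = W.a₁) (h₂ : σ W.a₂ = W.a₂) (h₃ : σ W.a₃ = W.a₃) (h₄ : σ W.a₄ = W.a₄)
    (h₆ : σ W.a₆ = W.a₆) :
    σ x0 = x0 ∧ σ y0 = y0 ∧ ((σ α = α ∧ σ β = β) ∨ (σ α = β ∧ σ β = α)) := by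
  have ey := congrArg σ N.hy
  have ex := congrArg σ N.hx
  have ec := congrArg σ N.hc
  simp only [map_add, map_sub, map_mul, map_pow, _root_.map_zero, map_ofNat, h₁, h₂, h₃, h₄, h₆]
    at ey ex ec
  have esum := congrArg σ N.hsum
  have eprod := congrArg σ N.hprod
  simp only [map_add, map_mul, map_neg, map_ofNat, h₁, h₂] at esum eprod
  obtain ⟨X, hX⟩ : ∃ X, X = σ x0 - x0 := ⟨_, rfl⟩
  obtain ⟨Y, hY⟩ : ∃ Y, Y = σ y0 - y0 := ⟨_, rfl⟩
  have hx' : σ x0 = x0 + X := by rw [hX]; ring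
  have hy' : σ y0 = y0 + Y := by rw [hY]; ring
  rw [hx', hy'] at ey ex ec
  rw [hx'] at eprod
  have e1 : 2 * Y = (α + β) * X := by
    linear_combination ey - N.hy - X * N.hsum
  have e2 : X * ((α - β) ^ 2 + 6 * X) = 0 := by
    have e3 : -(α + β) * Y - 3 * X ^ 2 + 2 * (α * β) * X = 0 := by
      linear_combination ex - N.hx - Y * N.hsum + 2 * X * N.hprod
    linear_combination (-2) * e3 - (α + β) * e1
  have hX0 : X = 0 := by
    rcases mul_eq_zero.1 e2 with h | h
    · exact h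
    · exfalso
      have e4 : σ c - c = X ^ 3 - (Y - α * X) * (Y - β * X) := by
        linear_combination ec - N.hc - Y * N.hy - X * N.hx - X * Y * N.hsum + X ^ 2 * N.hprod
      have e5 : 432 * (σ c - c) = ((α - β) ^ 2) ^ 3 := by
        have h6 : 6 * X = -(α - β) ^ 2 := by linear_combination h
        have e6 : 4 * (σ c - c) = 4 * X ^ 3 + (α - β) ^ 2 * X ^ 2 := by
          linear_combination 4 * e4 - (2 * Y - (α + β) * X) * e1
        have : 432 * (σ c - c) = 2 * (6 * X) ^ 3 + 3 * (α - β) ^ 2 * (6 * X) ^ 2 := by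
          linear_combination 108 * e6
        rw [this, h6]; ring
      have h7 : A.valuation (432 * (σ c - c)) < 1 := by
        refine val_mul_lt_one_right _ ?_ (val_sub_lt_one _ (by rw [hv]; exact N.vc) N.vc)
        exact_mod_cast valuation_natCast_le_one A 432
      rw [e5, unit_pow _ (unit_pow _ N.vαβ 2) 3] at h7
      exact lt_irrefl _ h7
  have hY0 : Y = 0 := by
    rw [hX0, mul_zero] at e1
    exact (mul_eq_zero.1 e1).resolve_left two_ne_zero
  rw [hX0, add_zero] at hx' eprod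
  rw [hY0, add_zero] at hy'
  refine ⟨hx', hy', ?_⟩
  have hr : (σ α - α) * (σ α - β) = 0 := by
    linear_combination (-1 : K) * eprod + N.hprod + σ α * esum - σ α * N.hsum
  rcases mul_eq_zero.1 hr with h | h
  · have hα := sub_eq_zero.1 h
    refine Or.inl ⟨hα, ?_⟩
    linear_combination esum - N.hsum - h
  · have hα := sub_eq_zero.1 h
    refine Or.inr ⟨hα, ?_⟩
    linear_combination esum - N.hsum - h

/-- `(τ - 1) P` has nonsingular reduction (or is zero), for `τ` inertia-like. -/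
theorem sub_eq_zero_or_pt (N : NodeData A W x0 y0 α β c) (I : IntData A W) (D : OddData A m q)
    (G : GalData A W σ s) (hv : ∀ x, A.valuation (σ x) = A.valuation x)
    (hσx0 : σ x0 = x0) (hσy0 : σ y0 = y0) (hσα : σ α = α) (hσβ : σ β = β)
    {P : W.Point} (hmP : m • P = 0) : s P - P = 0 ∨ Pt A x0 y0 α β (s P - P) := by
  by_cases hP : P = 0
  · left; rw [hP, _root_.map_zero, sub_zero]
  have hx := tors_x_odd I D hP hmP
  have hy := tors_y_odd I D hP hmP
  have hfix : ∀ {R : W.Point}, R ≠ 0 → m • R = 0 → 1 ≤ A.valuation (xc R - x0) → s R = R := by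
    intro R hR hmR h1
    have hxR := tors_x_odd I D hR hmR
    have hyR := tors_y_odd I D hR hmR
    exact fixed_of_nonsingular_red_odd I D G hR hmR
      (N.hns_of_unit I hR hxR hyR (le_antisymm (Valuation.map_sub_le _ hxR N.vx0) h1))
  have hbr : (s P = P ∨ 1 ≤ A.valuation (xc (s P - P) - x0)) →
      s P - P = 0 ∨ Pt A x0 y0 α β (s P - P) := by
    rintro (h | h)
    · left; rw [h, sub_self]
    · by_cases hR : s P - P = 0
      · exact Or.inl hR
      · right
        have hmR : m • (s P - P) = 0 := by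
          rw [smul_sub, ← map_nsmul, hmP, _root_.map_zero, sub_zero]
        exact Pt.of_tors N I D hR hmR
          (le_antisymm (Valuation.map_sub_le _ (tors_x_odd I D hR hmR) N.vx0) h)
  rcases (Valuation.map_sub_le _ hx N.vx0 : A.valuation (xc P - x0) ≤ 1).lt_or_eq with hX | hX
  · rcases lt_trichotomy (A.valuation ((yc P - y0) - β * (xc P - x0)))
      (A.valuation ((yc P - y0) - α * (xc P - x0))) with h | h | h
    · exact hbr (N.branch G.hs hv hσx0 hσy0 hσα hσβ hP hX h)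
    · have h2P : P + P ≠ 0 := by
        intro h0
        apply hP
        have h2 : 2 • P = 0 := by rw [two_smul]; exact h0
        obtain ⟨k, hk⟩ := D.hm
        rw [hk, add_smul, mul_comm, mul_smul, h2, smul_zero, zero_add, one_smul] at hmP
        exact hmP
      left
      rw [sub_eq_zero]
      apply fixed_of_two_nsmul D.hm hmP
      exact hfix h2P (by rw [smul_add, hmP, add_zero]) (N.middle hP h2P hX h.symm)
    · exact hbr (N.symm.branch G.hs hv hσx0 hσy0 hσβ hσα hP hX h)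
  · left
    rw [sub_eq_zero]
    exact hfix hP hmP hX.ge

end Core

end Fermat.Agent.ML.ESide
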