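import Fermat.Agent.HW.Pow.Red

/-!
# ML / ESIDE / [E-ST+], part 2 : additivity of the reduction on torsion points with nonsingular reduction

Port of `HW.TorsHypOdd.lift_add` WITHOUT the hypothesis "unit discriminant": `HW.Lift P Pk` already
contains the information that `P` reduces to the NONSINGULAR point `Pk` of the (possibly singular)
reduced cubic.
-/

set_option autoImplicit false
set_option linter.unusedSectionVars false
noncomputable section

namespace Fermat.Agent.ML.ESide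

open WeierstrassCurve WeierstrassCurve.Affine WeierstrassCurve.Affine.Point
open Fermat.Agent.S05 Fermat.Agent.HW

variable {K : Type*} [Field K] {A : ValuationSubring K} {k : Type*} [Field k]
variable [DecidableEq K] [DecidableEq k]

/-- the standing hypotheses (no condition on the discriminant) -/
structure TorsHypNode (π : A →+* k) (WA : WeierstrassCurve A) (m q : ℕ) : Prop where
  res : IsResidueMap π
  hm : Odd m
  hq : q.Prime
  hmq : ¬ q ∣ m
  hqA : A.valuation (q : K) < 1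

variable {π : A →+* k} {WA : WeierstrassCurve A} {m q : ℕ}

namespace TorsHypNode

variable (H : TorsHypNode π WA m q)
include H

theorem val_eq_one {Z : A} (hZ : π Z ≠ 0) : A.valuation (Z : K) = 1 :=
  le_antisymm (A.valuation_le_one Z) (not_lt.mp fun h => hZ ((H.res Z).mpr h))

/-- a point which lifts a (nonsingular) point has nonsingular reduction -/
theorem hns_of_lift {Q : (WK WA).Point} {Qk : (Wk π WA).Point} (hQ0 : Q ≠ 0) (hQ : Lift Q Qk) :
    A.valuation ((WK WA).a₁ * yc Q - (3 * xc Q ^ 2 + 2 * (WK WA).a₂ * xc Q + (WK WA).a₄)) = 1 ∨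
      A.valuation (2 * yc Q + (WK WA).a₁ * xc Q + (WK WA).a₃) = 1 := by
  rcases hQ with ⟨h0, -⟩ | ⟨-, hQk0, X, Y, hX, hY, hXk, hYk⟩
  · exact absurd h0 hQ0
  have hns := nonsingular_xc_yc hQk0
  rw [hXk, hYk, nonsingular_iff] at hns
  rw [hX, hY]
  rcases hns.2 with h | h
  · left
    have h1 : π (WA.a₁ * Y - (3 * X ^ 2 + 2 * WA.a₂ * X + WA.a₄)) ≠ 0 := by
      intro h0
      apply h
      have h2 : π WA.a₁ * π Y - (3 * π X ^ 2 + 2 * π WA.a₂ * π X + π WA.a₄) = 0 := by
        simpa only [map_sub, map_add, map_mul, map_pow, map_ofNat] using h0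
      exact sub_eq_zero.1 h2
    exact H.val_eq_one h1
  · right
    have h1 : π (2 * Y + WA.a₁ * X + WA.a₃) ≠ 0 := by
      intro h0
      apply h
      have h2 : 2 * π Y + π WA.a₁ * π X + π WA.a₃ = 0 := by
        simpa only [map_add, map_mul, map_ofNat] using h0
      show π Y = -π Y - π WA.a₁ * π X - π WA.a₃
      linear_combination h2
    exact H.val_eq_one h1

/-- two torsion points with the same nonsingular reduction are equal -/
theorem eq_of_lift {P Q : (WK WA).Point} {Rk : (Wk π WA).Point} (hmP : m • P = 0)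
    (hmQ : m • Q = 0) (hP : Lift P Rk) (hQ : Lift Q Rk) : P = Q := by
  rcases hP with ⟨hP0, hR0⟩ | ⟨hP0, hR0, X₁, Y₁, hX₁, hY₁, hX₁k, hY₁k⟩
  · rw [hR0] at hQ
    rw [hP0, hQ.eq_zero]
  have hQ' := hQ
  rcases hQ with ⟨-, hR0'⟩ | ⟨hQ0, -, X₂, Y₂, hX₂, hY₂, hX₂k, hY₂k⟩
  · exact absurd hR0' hR0
  refine eq_of_congr_of_hns_odd A m q H.hm H.hq H.hmq H.hqA (W := WK WA) (WA.a₁).2 (WA.a₂).2
    (WA.a₃).2 (WA.a₄).2 (WA.a₆).2 hP0 hQ0 hmP hmQ ?_ ?_ (H.hns_of_lift hQ0 hQ')
  · rw [hX₁, hX₂]; exact H.res.val_sub_lt (hX₁k.symm.trans hX₂k)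
  · rw [hY₁, hY₂]; exact H.res.val_sub_lt (hY₁k.symm.trans hY₂k)

theorem eq_zero_of_eq_neg {P : (WK WA).Point} (hmP : m • P = 0) (h : P = -P) : P = 0 := by
  have h2 : 2 • P = 0 := by
    rw [two_smul]
    nth_rewrite 1 [h]
    exact neg_add_cancel P
  obtain ⟨j, hj⟩ := H.hm
  rw [hj, add_smul, mul_comm, mul_smul, h2, smul_zero, zero_add, one_smul] at hmP
  exact hmP

/-- additivity of the reduction -/
theorem lift_add {P Q : (WK WA).Point} {Pk Qk : (Wk π WA).Point} (hmP : m • P = 0)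
    (hmQ : m • Q = 0) (hP : Lift P Pk) (hQ : Lift Q Qk) : Lift (P + Q) (Pk + Qk) := by
  have hP' := hP
  have hQ' := hQ
  rcases hP with ⟨rfl, rfl⟩ | ⟨hP0, hPk0, X₁, Y₁, hX₁, hY₁, hX₁k, hY₁k⟩
  · rw [zero_add, zero_add]; exact hQ
  rcases hQ with ⟨rfl, rfl⟩ | ⟨hQ0, hQk0, X₂, Y₂, hX₂, hY₂, hX₂k, hY₂k⟩
  · rw [add_zero, add_zero]; exact hP'
  have negK : ∀ X Y : A, (WK WA).negY (X : K) (Y : K) = ((WA.toAffine.negY X Y : A) : K) :=
    fun X Y => map_negY (W' := WA.toAffine) A.subtype X Y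
  have negk : ∀ X Y : A, (Wk π WA).negY (π X) (π Y) = π (WA.toAffine.negY X Y) :=
    fun X Y => map_negY (W' := WA.toAffine) π X Y
  by_cases hX : π X₁ = π X₂
  · by_cases hY : π Y₁ = π Y₂
    · -- `P = Q`: doubling
      have hk : Pk = Qk := point_ext hPk0 hQk0 (by rw [hX₁k, hX₂k, hX]) (by rw [hY₁k, hY₂k, hY])
      subst hk
      have hPQ : P = Q := H.eq_of_lift hmP hmQ hP' hQ'
      subst hPQ
      have eX : X₁ = X₂ := Subtype.ext (hX₁.symm.trans hX₂)
      have eY : Y₁ = Y₂ := Subtype.ext (hY₁.symm.trans hY₂)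
      subst eX; subst eY
      have hD : π (Y₁ - WA.toAffine.negY X₁ Y₁) ≠ 0 := by
        intro h0
        rw [map_sub, sub_eq_zero] at h0
        have hkn : Pk = -Pk := point_ext hPk0 (neg_ne_zero.mpr hPk0) (by rw [xc_neg])
          (by rw [yc_neg hPk0, hX₁k, hY₁k, negk, h0])
        have hneg : P = -P := by
          have h1 := hP'.neg
          rw [← hkn] at h1
          exact H.eq_of_lift hmP (by rw [smul_neg, hmP, _root_.neg_zero]) hP' h1
        exact hP0 (H.eq_zero_of_eq_neg hmP hneg)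
      obtain ⟨U, hU⟩ := H.res.exists_inv hD
      have hyK : (Y₁ : K) ≠ (WK WA).negY X₁ Y₁ := by
        intro h
        rw [negK] at h
        apply hD
        have h' : Y₁ = WA.toAffine.negY X₁ Y₁ := Subtype.ext h
        rw [map_sub, ← h', sub_self]
      have hyk : π Y₁ ≠ (Wk π WA).negY (π X₁) (π Y₁) := by
        intro h
        rw [negk] at h
        apply hD
        rw [map_sub, h, sub_self]
      refine lift_add_of_slope
        (Λ := (3 * X₁ ^ 2 + 2 * WA.a₂ * X₁ + WA.a₄ - WA.a₁ * Y₁) * U) hP0 hP0 hPk0 hPk0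
        hX₁ hY₁ hX₁ hY₁ hX₁k hY₁k hX₁k hY₁k (fun h => hyK h.2) (fun h => hyk h.2) ?_ ?_
      · rw [slope_of_Y_ne rfl hyK, negK]
        exact TorsHyp.map_div_of_mul_eq_one A.subtype hU
          (3 * X₁ ^ 2 + 2 * WA.a₂ * X₁ + WA.a₄ - WA.a₁ * Y₁)
      · rw [slope_of_Y_ne rfl hyk, negk]
        have := TorsHyp.map_div_of_mul_eq_one π hU (3 * X₁ ^ 2 + 2 * WA.a₂ * X₁ + WA.a₄ - WA.a₁ * Y₁)
        rw [← this]
        simp only [map_sub, map_add, map_mul, map_pow, map_ofNat]
        rfl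
    · -- `P = -Q`
      have e1 : (Wk π WA).Equation (π X₁) (π Y₁) := by
        rw [← hX₁k, ← hY₁k]; exact (nonsingular_xc_yc hPk0).1
      have e2 : (Wk π WA).Equation (π X₂) (π Y₂) := by
        rw [← hX₂k, ← hY₂k]; exact (nonsingular_xc_yc hQk0).1
      have hneg : π Y₁ = π (WA.toAffine.negY X₂ Y₂) := by
        rw [← negk]
        exact (Y_eq_of_X_eq e1 e2 hX).resolve_left hY
      have hk : Pk = -Qk := point_ext hPk0 (neg_ne_zero.mpr hQk0)
        (by rw [xc_neg, hX₁k, hX₂k, hX]) (by rw [yc_neg hQk0, hY₁k, hX₂k, hY₂k, negk, hneg])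
      have hPQ : P = -Q := by
        have h1 := hQ'.neg
        rw [← hk] at h1
        exact H.eq_of_lift hmP (by rw [smul_neg, hmQ, _root_.neg_zero]) hP' h1
      rw [hPQ, hk, neg_add_cancel, neg_add_cancel]
      exact lift_zero
  · -- generic case
    obtain ⟨U, hU⟩ := H.res.exists_inv (Z := X₁ - X₂) (by rw [map_sub]; exact sub_ne_zero.mpr hX)
    have hXK : (X₁ : K) ≠ X₂ := fun h => hX (by rw [Subtype.ext h])
    refine lift_add_of_slope (Λ := (Y₁ - Y₂) * U) hP0 hQ0 hPk0 hQk0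
      hX₁ hY₁ hX₂ hY₂ hX₁k hY₁k hX₂k hY₂k (fun h => hXK h.1) (fun h => hX h.1) ?_ ?_
    · rw [slope_of_X_ne hXK]
      exact TorsHyp.map_div_of_mul_eq_one A.subtype hU (Y₁ - Y₂)
    · rw [slope_of_X_ne hX, ← map_sub, ← map_sub]
      exact TorsHyp.map_div_of_mul_eq_one π hU _

theorem lift_nsmul {P : (WK WA).Point} {Pk : (Wk π WA).Point} (hmP : m • P = 0)
    (hP : Lift P Pk) (n : ℕ) : Lift (n • P) (n • Pk) := by
  induction n with
  | zero => rw [zero_smul, zero_smul]; exact lift_zero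
  | succ n ih =>
    rw [succ_nsmul, succ_nsmul]
    exact H.lift_add (by rw [smul_comm, hmP, smul_zero]) hmP ih hP

/-- the order of a torsion point is the order of its (nonsingular) reduction. -/
theorem addOrderOf_eq {P : (WK WA).Point} {Pk : (Wk π WA).Point} (hmP : m • P = 0)
    (hP : Lift P Pk) : addOrderOf P = addOrderOf Pk := by
  apply Nat.dvd_antisymm
  · rw [addOrderOf_dvd_iff_nsmul_eq_zero]
    have h := H.lift_nsmul hmP hP (addOrderOf Pk)
    rw [addOrderOf_nsmul_eq_zero] at h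
    exact h.eq_zero
  · rw [addOrderOf_dvd_iff_nsmul_eq_zero]
    have h := H.lift_nsmul hmP hP (addOrderOf P)
    rw [addOrderOf_nsmul_eq_zero] at h
    exact (h.unique lift_zero)

end TorsHypNode

end Fermat.Agent.ML.ESide
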