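import Fermat.Agent.ML.ESide.NodeGm
import Fermat.Agent.ML.ESide.NodeRed
import Fermat.Agent.HW.Pow.Unip
import Fermat.Agent.HW.Main
import Fermat.Agent.RIB.Wrap.Ram2Lad
import Fermat.Agent.RED.GalEq.Residue

/-!
# ML / ESIDE / [E-ST+], part 3 : a torsion point of EXACT order `m` with nonsingular reduction

`W` with multiplicative reduction at `q`, `m` odd, `q ∤ m`.  Every `m`-torsion point of the smooth locus
of the reduction lifts to an `m`-torsion point (`S13.torsPoly` commutes with ring homs and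
`S13.odd_nsmul_eq_zero_iff` holds for singular cubics as well).  With `NodeK.exists_addOrderOf_eq`:
there is `P ∈ W[m]` of exact order `m` which does not reduce to the node.
-/

set_option autoImplicit false
set_option linter.unusedSectionVars false
noncomputable section

namespace Fermat.Agent.ML.ESide

open Polynomial WeierstrassCurve WeierstrassCurve.Affine WeierstrassCurve.Affine.Point
open Fermat.Agent.S05 Fermat.Agent.HW Fermat.Agent.S13

section Root

variable {K : Type*} [Field K] [IsAlgClosed K] {Γ₀ : Type*} [LinearOrderedCommGroupWithZero Γ₀]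

/-- a polynomial with unit leading coefficient which is small at `a` has a root close to `a`. -/
theorem exists_root_near (v : Valuation K Γ₀) (f : K[X]) (hlead : v f.leadingCoeff = 1) (a : K)
    (h0 : v (f.eval a) < 1) : ∃ x, f.eval x = 0 ∧ v (x - a) < 1 := by
  obtain ⟨x, hx, hv⟩ := Fermat.Agent.RIB.exists_root_val_lt_one v (f.comp (X + C a))
    (by
      rw [leadingCoeff_comp (by rw [natDegree_X_add_C]; exact one_ne_zero), leadingCoeff_X_add_C,
        one_pow, mul_one]
      exact hlead)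
    (by simpa [eval_comp] using h0)
  refine ⟨x + a, by simpa [eval_comp] using hx, by simpa using hv⟩

end Root

variable {K : Type*} [Field K] {A : ValuationSubring K} {k : Type*} [Field k]
variable [DecidableEq K] [DecidableEq k]
variable {π : A →+* k} {WA : WeierstrassCurve A} {m q : ℕ}

/-- **lifting of torsion points of the smooth locus.** -/
theorem TorsHypNode.exists_lift [IsAlgClosed K] (H : TorsHypNode π WA m q)
    (hsurj : Function.Surjective π) (hΔ : (WK WA).Δ ≠ 0) {Pk : (Wk π WA).Point} (hPk : Pk ≠ 0)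
    (hmPk : m • Pk = 0) : ∃ P : (WK WA).Point, m • P = 0 ∧ Lift P Pk := by
  obtain ⟨n, hn⟩ := H.hm
  have hn1 : 1 ≤ n := by
    by_contra hcon
    have : n = 0 := by omega
    subst this
    rw [hn] at hmPk
    simp at hmPk
    exact hPk hmPk
  have hv : A.valuation (2 * (n : K) + 1) = 1 := by
    have := valuation_natCast_eq_one A H.hq H.hqA (n := m) H.hmq
    rw [hn] at this
    simpa using this
  have hchar : (2 * (n : K) + 1) ≠ 0 := by
    intro h; rw [h, _root_.map_zero] at hv; exact zero_ne_one hv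
  set fA : A[X] := torsPoly WA.b₂ WA.b₄ WA.b₆ WA.b₈ n with hfA
  have eK : torsPoly (WK WA).b₂ (WK WA).b₄ (WK WA).b₆ (WK WA).b₈ n = fA.map A.subtype := by
    rw [hfA, torsPoly_map]
    rfl
  have ek : torsPoly (Wk π WA).b₂ (Wk π WA).b₄ (Wk π WA).b₆ (Wk π WA).b₈ n = fA.map π := by
    rw [hfA, torsPoly_map]
    show torsPoly (WA.map π).b₂ (WA.map π).b₄ (WA.map π).b₆ (WA.map π).b₈ n = _
    rw [WeierstrassCurve.map_b₂, WeierstrassCurve.map_b₄, WeierstrassCurve.map_b₆,
      WeierstrassCurve.map_b₈]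
  obtain ⟨X0, hX0⟩ := hsurj (xc Pk)
  have h1 : (fA.map π).eval (π X0) = 0 := by
    rw [← ek, hX0]
    rw [hn] at hmPk
    exact (odd_nsmul_eq_zero_iff hPk n).1 hmPk
  rw [eval_map, eval₂_at_apply] at h1
  have h2 : A.valuation ((fA.map A.subtype).eval (X0 : K)) < 1 := by
    have : (fA.map A.subtype).eval (X0 : K) = ((fA.eval X0 : A) : K) := by
      rw [eval_map]
      exact eval₂_at_apply A.subtype X0
    rw [this]
    exact (H.res _).1 h1
  have hlead : (torsPoly (WK WA).b₂ (WK WA).b₄ (WK WA).b₆ (WK WA).b₈ n).leadingCoeff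
      = -(2 * (n : K) + 1) := by
    rw [leadingCoeff, natDegree_torsPoly n hn1 hchar]
    exact (DL_torsPoly (WK WA).b₂ (WK WA).b₄ (WK WA).b₆ (WK WA).b₈ n hn1).2
  obtain ⟨ξ, hξ, hξv⟩ := exists_root_near A.valuation
    (torsPoly (WK WA).b₂ (WK WA).b₄ (WK WA).b₆ (WK WA).b₈ n)
    (by rw [hlead, Valuation.map_neg, hv]) (X0 : K) (by rw [eK]; exact h2)
  obtain ⟨Q, hQ, hxQ⟩ := exists_point_of_x hΔ ξ
  have hmQ : m • Q = 0 := by
    rw [hn]
    exact (odd_nsmul_eq_zero_iff hQ n).2 (by rw [hxQ]; exact hξ)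
  have hξA : A.valuation ξ ≤ 1 := by
    have : ξ = (ξ - X0) + X0 := by ring
    rw [this]
    exact (Valuation.map_add _ _ _).trans (max_le hξv.le (A.valuation_le_one X0))
  have hyA : A.valuation (yc Q) ≤ 1 :=
    y_integral A (W := WK WA) (WA.a₁).2 (WA.a₂).2 (WA.a₃).2 (WA.a₄).2 (WA.a₆).2 hQ
      (by rw [hxQ]; exact hξA)
  obtain ⟨X, hX⟩ : ∃ X : A, (X : K) = ξ := ⟨⟨ξ, (A.valuation_le_one_iff _).1 hξA⟩, rfl⟩
  obtain ⟨Y, hY⟩ : ∃ Y : A, (Y : K) = yc Q := ⟨⟨_, (A.valuation_le_one_iff _).1 hyA⟩, rfl⟩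
  have hπX : π X = xc Pk := by
    rw [← hX0, ← sub_eq_zero, ← map_sub, H.res]
    show A.valuation ((X : K) - (X0 : K)) < 1
    rw [hX]; exact hξv
  have heK : (WK WA).Equation (X : K) (Y : K) := by
    rw [hX, hY, ← hxQ]; exact (nonsingular_xc_yc hQ).1
  have heA : WA.toAffine.Equation X Y :=
    (map_equation (W := WA.toAffine) (f := A.subtype) Subtype.val_injective X Y).mp heK
  have hek : (Wk π WA).Equation (π X) (π Y) := Equation.map π heA
  have hek' : (Wk π WA).Equation (xc Pk) (yc Pk) := (nonsingular_xc_yc hPk).1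
  rcases Y_eq_of_X_eq hek hek' hπX with hy | hy
  · exact ⟨Q, hmQ, Or.inr ⟨hQ, hPk, X, Y, by rw [hX, hxQ], hY.symm, hπX.symm, hy.symm⟩⟩
  · have hL : Lift Q (-Pk) := Or.inr ⟨hQ, neg_ne_zero.2 hPk, X, Y, by rw [hX, hxQ], hY.symm,
      by rw [xc_neg, hπX], by rw [yc_neg hPk, hy]⟩
    refine ⟨-Q, by rw [smul_neg, hmQ, _root_.neg_zero], ?_⟩
    have := hL.neg
    rwa [neg_neg] at this

/-- the node of the reduction. -/
theorem nodeK_of_nodeData (hres : IsResidueMap π) {x0 y0 α β : A} {c : K}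
    (N : NodeData A (WK WA) (x0 : K) (y0 : K) (α : K) (β : K) c) :
    NodeK (Wk π WA) (π x0) (π y0) (π α) (π β) := by
  have inj : Function.Injective (A.subtype) := Subtype.val_injective
  have hc' : A.valuation (((x0 ^ 3 + WA.a₂ * x0 ^ 2 + WA.a₄ * x0 + WA.a₆
      - (y0 ^ 2 + WA.a₁ * x0 * y0 + WA.a₃ * y0) : A)) : K) < 1 := by
    have := N.vc
    rw [N.hc] at this
    exact this
  refine ⟨?_, ?_, ?_, ?_, ?_, ?_⟩
  · have h : (2 * y0 + WA.a₁ * x0 + WA.a₃ : A) = 0 := by
      apply inj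
      simp only [map_add, map_mul, map_ofNat, _root_.map_zero]
      exact N.hy
    have := congrArg π h
    simp only [map_add, map_mul, map_ofNat, _root_.map_zero] at this
    exact this
  · have h : (WA.a₁ * y0 - (3 * x0 ^ 2 + 2 * WA.a₂ * x0 + WA.a₄) : A) = 0 := by
      apply inj
      simp only [map_sub, map_add, map_mul, map_pow, map_ofNat, _root_.map_zero]
      exact N.hx
    have := congrArg π h
    simp only [map_sub, map_add, map_mul, map_pow, map_ofNat, _root_.map_zero] at this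
    exact this
  · have := (hres _).2 hc'
    simp only [map_sub, map_add, map_mul, map_pow] at this
    exact this
  · have h : (α + β : A) = - WA.a₁ := by
      apply inj
      simp only [map_add, map_neg]
      exact N.hsum
    have := congrArg π h
    simp only [map_add, map_neg] at this
    exact this
  · have h : (α * β : A) = -(WA.a₂ + 3 * x0) := by
      apply inj
      simp only [map_add, map_mul, map_neg, map_ofNat]
      exact N.hprod
    have := congrArg π h
    simp only [map_add, map_mul, map_neg, map_ofNat] at this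
    exact this
  · intro h
    have h1 : π (α - β) = 0 := by rw [map_sub, h, sub_self]
    have h2 := (hres _).1 h1
    have h3 : A.valuation (((α - β : A)) : K) = 1 := N.vαβ
    rw [h3] at h2
    exact lt_irrefl _ h2

/-- **[E-ST+]**, abstract form. -/
theorem TorsHypNode.exists_gen [IsAlgClosed K] (H : TorsHypNode π WA m q)
    (hsurj : Function.Surjective π) (hΔ : (WK WA).Δ ≠ 0) (hm1 : 1 < m) {ζ : k}
    (hζ : IsPrimitiveRoot ζ m) {x0 y0 α β c : K} (N : NodeData A (WK WA) x0 y0 α β c) :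
    ∃ P : (WK WA).Point, addOrderOf P = m ∧ A.valuation (xc P - x0) = 1 := by
  obtain ⟨x0', rfl⟩ : ∃ z : A, (z : K) = x0 := ⟨⟨x0, (A.valuation_le_one_iff _).1 N.vx0⟩, rfl⟩
  obtain ⟨y0', rfl⟩ : ∃ z : A, (z : K) = y0 := ⟨⟨y0, (A.valuation_le_one_iff _).1 N.vy0⟩, rfl⟩
  obtain ⟨α', rfl⟩ : ∃ z : A, (z : K) = α := ⟨⟨α, (A.valuation_le_one_iff _).1 N.vα⟩, rfl⟩
  obtain ⟨β', rfl⟩ : ∃ z : A, (z : K) = β := ⟨⟨β, (A.valuation_le_one_iff _).1 N.vβ⟩, rfl⟩
  have Nk := nodeK_of_nodeData (π := π) H.res N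
  obtain ⟨Pk, hPk, hord⟩ := Nk.exists_addOrderOf_eq hm1 hζ
  obtain ⟨P, hmP, hL⟩ := H.exists_lift hsurj hΔ hPk (by rw [← hord]; exact addOrderOf_nsmul_eq_zero Pk)
  refine ⟨P, by rw [H.addOrderOf_eq hmP hL, hord], ?_⟩
  rcases hL with ⟨-, h0⟩ | ⟨-, -, X, Y, hX, -, hXk, hYk⟩
  · exact absurd h0 hPk
  have h1 : π (X - x0') ≠ 0 := by
    rw [map_sub, ← hXk]
    exact Nk.X_ne_zero (nonsingular_xc_yc hPk)
  rw [hX]
  exact H.val_eq_one h1

end Fermat.Agent.ML.ESide
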