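import Fermat.Agent.ML.ESide.NodeSt
import Fermat.Agent.S58.ESide

/-!
# ML / ESIDE / [E-ST] + [E-ST+] : the local structure of `W[m]` at a multiplicative prime `q ∤ m`

`W` an integral Weierstrass model, `q ∣ Δ`, `q ∤ c₄`, `A ∣ q` a place of `ℚbar`.  There is a sign `ε = ± 1`
(independent of `m`) such that for every odd `m` prime to `q` there is a point `c ∈ W[m]` of EXACT order `m` with
* `τ c = c` for `τ` in the inertia group of `A`,
* `σ c = (ε q) c` for every Frobenius `σ` at `A`,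
* `(τ - 1) W[m] ≤ ℤ c`, `(σ - ε) W[m] ≤ ℤ c`.
No Weil pairing, no determinant, no Tate curve.
-/

set_option autoImplicit false
set_option linter.unusedSectionVars false
set_option linter.unusedVariables false
noncomputable section

namespace Fermat.Agent.ML.ESide

open WeierstrassCurve WeierstrassCurve.Affine WeierstrassCurve.Affine.Point
open Fermat.Agent.S05 Fermat.Agent.HW Fermat.Agent.S13
open scoped WeierstrassCurve.Affine

local notation "Qb" => AlgebraicClosure ℚ
local notation "GQ" => (AlgebraicClosure ℚ ≃ₐ[ℚ] AlgebraicClosure ℚ)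

/-- the action of `σ` on points, in coordinates. -/
theorem map_coords (W : WeierstrassCurve ℤ) (σ : GQ) (Q : (EQb W).Point) (hQ : Q ≠ 0) :
    Point.map (W' := (W.map (Int.castRingHom ℚ)).toAffine) σ.toAlgHom Q ≠ 0 ∧
      xc (Point.map (W' := (W.map (Int.castRingHom ℚ)).toAffine) σ.toAlgHom Q)
        = (σ : Qb →+* Qb) (xc Q) ∧
      yc (Point.map (W' := (W.map (Int.castRingHom ℚ)).toAffine) σ.toAlgHom Q)
        = (σ : Qb →+* Qb) (yc Q) := by
  cases Q with
  | zero => exact absurd rfl hQ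
  | some x y h =>
    rw [Point.map_some]
    exact ⟨some_ne_zero _, rfl, rfl⟩

theorem coeff_fixed (W : WeierstrassCurve ℤ) (σ : GQ) :
    (σ : Qb →+* Qb) (EQb W).a₁ = (EQb W).a₁ ∧ (σ : Qb →+* Qb) (EQb W).a₂ = (EQb W).a₂ ∧
    (σ : Qb →+* Qb) (EQb W).a₃ = (EQb W).a₃ ∧ (σ : Qb →+* Qb) (EQb W).a₄ = (EQb W).a₄ ∧
    (σ : Qb →+* Qb) (EQb W).a₆ = (EQb W).a₆ :=
  ⟨σ.commutes _, σ.commutes _, σ.commutes _, σ.commutes _, σ.commutes _⟩

/-- **[E-ST] + [E-ST+]** the local structure at a multiplicative prime. -/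
theorem steinberg_structure (W : WeierstrassCurve ℤ) (hΔ0 : W.Δ ≠ 0) {q : ℕ} (hq : q.Prime)
    (hΔ : (q : ℤ) ∣ W.Δ) (hc₄ : ¬ (q : ℤ) ∣ W.c₄) (A : ValuationSubring Qb)
    (hA : A.LiesOverPrime q) :
    ∃ ε : ℤ, (ε = 1 ∨ ε = -1) ∧ ∀ m : ℕ, Odd m → ¬ q ∣ m → ∃ c : S58.EQ W, addOrderOf c = m ∧
      (∀ τ ∈ A.inertiaSubgroupIn ℚ, τ • c = c) ∧
      (∀ σ : GQ, A.IsFrobeniusAt σ q → σ • c = (ε * q) • c) ∧
      (∀ x : S58.EQ W, m • x = 0 → ∀ τ ∈ A.inertiaSubgroupIn ℚ, ∃ j : ℕ, τ • x - x = j • c) ∧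
      (∀ x : S58.EQ W, m • x = 0 → ∀ σ : GQ, A.IsFrobeniusAt σ q →
        ∃ j : ℕ, σ • x - ε • x = j • c) := by
  have : DecidableEq (IsLocalRing.ResidueField A) := Classical.decEq _
  have hqA : A.valuation ((q : ℕ) : Qb) < 1 := hA
  obtain ⟨x0, y0, α, β, c, N, hinv⟩ := exists_nodeData W hq hΔ0 hΔ hc₄ A hA
  have h2 : (2 : Qb) ≠ 0 := two_ne_zero
  have hΔK : (EQb W).Δ ≠ 0 := by rw [Δ_EQb]; exact_mod_cast hΔ0
  have : IsAlgClosed (IsLocalRing.ResidueField A) :=
    Fermat.Agent.RED.GalEq.isAlgClosed_residueField A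
  -- facts about the decomposition group
  have hdec : ∀ σ : GQ, σ ∈ A.decompositionSubgroup ℚ →
      (σ : Qb →+* Qb) x0 = x0 ∧ (σ : Qb →+* Qb) y0 = y0 ∧
      (((σ : Qb →+* Qb) α = α ∧ (σ : Qb →+* Qb) β = β) ∨
        ((σ : Qb →+* Qb) α = β ∧ (σ : Qb →+* Qb) β = α)) := by
    intro σ hσ
    obtain ⟨h₁, h₂, h₃, h₄, h₆⟩ := coeff_fixed W σ
    exact nodeData_fixed N h2 (σ : Qb →+* Qb) (fun z => val_eq_of_decomp A σ hσ z) h₁ h₂ h₃ h₄ h₆
  have hfr : ∀ σ : GQ, A.IsFrobeniusAt σ q → ∀ z : A, ∃ z' : A,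
      (z' : Qb) = (σ : Qb →+* Qb) z ∧ IsLocalRing.residue A z' = IsLocalRing.residue A z ^ q := by
    rintro σ ⟨hd, hq'⟩ z
    exact ⟨(⟨σ, hd⟩ : A.decompositionSubgroup ℚ) • z, rfl, hq' (IsLocalRing.residue A z)⟩
  obtain ⟨α', hα'⟩ : ∃ z : A, (z : Qb) = α := ⟨⟨α, (A.valuation_le_one_iff _).1 N.vα⟩, rfl⟩
  obtain ⟨β', hβ'⟩ : ∃ z : A, (z : Qb) = β := ⟨⟨β, (A.valuation_le_one_iff _).1 N.vβ⟩, rfl⟩
  have hαβ : IsLocalRing.residue A α' ≠ IsLocalRing.residue A β' := by
    intro h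
    have h1 := (isResidueMap_residue (A := A)).val_sub_lt h
    rw [hα', hβ', N.vαβ] at h1
    exact lt_irrefl _ h1
  -- the sign
  have hsign : ∀ σ : GQ, A.IsFrobeniusAt σ q →
      ((σ : Qb →+* Qb) α = α ↔ IsLocalRing.residue A α' ^ q = IsLocalRing.residue A α') := by
    intro σ hσ
    obtain ⟨z, hz, hπ⟩ := hfr σ hσ α'
    rw [← hπ]
    constructor
    · intro h
      have : z = α' := Subtype.ext (by rw [hz, hα', h])
      rw [this]
    · intro h
      rcases (hdec σ hσ.mem_decompositionSubgroup).2.2 with h' | h'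
      · exact h'.1
      · exfalso
        have : z = β' := Subtype.ext (by rw [hz, hα', h'.1, hβ'])
        rw [this] at h
        exact hαβ h.symm
  -- the main construction for a given `m`
  have main : ∀ m : ℕ, Odd m → ¬ q ∣ m → ∃ P : (EQb W).Point, addOrderOf P = m ∧
      (∀ τ ∈ A.inertiaSubgroupIn ℚ, τ • P = P) ∧
      (∀ σ : GQ, σ ∈ A.decompositionSubgroup ℚ → (σ : Qb →+* Qb) α = α →
          ∀ x : (EQb W).Point, m • x = 0 → ∃ j : ℕ, σ • x - x = j • P) ∧
      (∀ σ : GQ, σ ∈ A.decompositionSubgroup ℚ → (σ : Qb →+* Qb) α = β →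
          ∀ x : (EQb W).Point, m • x = 0 → ∃ j : ℕ, σ • x + x = j • P) ∧
      (∀ σ : GQ, A.IsFrobeniusAt σ q → (σ : Qb →+* Qb) α = α → σ • P = q • P) ∧
      (∀ σ : GQ, A.IsFrobeniusAt σ q → (σ : Qb →+* Qb) α = β → σ • P = -(q • P)) := by
    intro m hm hqm
    rcases Nat.lt_or_ge 1 m with hm1 | hm1
    · have H : TorsHypNode (IsLocalRing.residue A) (W.map (Int.castRingHom A)) m q :=
        ⟨isResidueMap_residue, hm, hq, hqm, hqA⟩
      have D : OddData A m q := ⟨hm, hq, hqm, hqA⟩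
      have hmk : NeZero ((m : ℕ) : IsLocalRing.ResidueField A) := by
        constructor
        intro h0
        have h1 : IsLocalRing.residue A (m : A) = 0 := by rw [map_natCast]; exact h0
        have h2 := (isResidueMap_residue (A := A) _).1 h1
        have h3 := valuation_natCast_eq_one A hq hqA (n := m) hqm
        have e : (((m : A)) : Qb) = (m : Qb) := by simp
        rw [e, h3] at h2
        exact lt_irrefl _ h2
      obtain ⟨ζ, hζ⟩ := HasEnoughRootsOfUnity.exists_primitiveRoot (IsLocalRing.ResidueField A) m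
      obtain ⟨P, hord, hPu, hall⟩ := node_structure H IsLocalRing.residue_surjective (EQb W)
        (map_int_eq W _ _ _ _) hΔK hm1 hζ N
      have hmP : m • P = 0 := by rw [← hord]; exact addOrderOf_nsmul_eq_zero P
      have hP0 : P ≠ 0 := by
        intro h0
        rw [h0, addOrderOf_zero] at hord
        omega
      refine ⟨P, hord, ?_, ?_, ?_, ?_, ?_⟩
      · intro τ hτ
        exact fixed_of_nonsingular_red_odd (intData_EQb W A) D (galData_EQb W A hτ) hP0 hmP
          (N.hns_of_unit (intData_EQb W A) hP0 (tors_x_odd (intData_EQb W A) D hP0 hmP)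
            (tors_y_odd (intData_EQb W A) D hP0 hmP) hPu)
      · intro σ hσ hα x hx
        obtain ⟨e1, e2, e3⟩ := hdec σ hσ
        have hβ : (σ : Qb →+* Qb) β = β := by
          rcases e3 with h | h
          · exact h.2
          · exfalso
            have : α = β := hα.symm.trans h.1
            have h1 := N.vαβ
            rw [this, sub_self, _root_.map_zero] at h1
            exact zero_ne_one h1
        exact (hall (σ : Qb →+* Qb) (Point.map (W' := (W.map (Int.castRingHom ℚ)).toAffine)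
          σ.toAlgHom) (map_coords W σ) e1 e2).1 (fun z => val_eq_of_decomp A σ hσ z) hα hβ x hx
      · intro σ hσ hα x hx
        obtain ⟨e1, e2, e3⟩ := hdec σ hσ
        have hβ : (σ : Qb →+* Qb) β = α := by
          rcases e3 with h | h
          · exfalso
            have : α = β := h.1.symm.trans hα
            have h1 := N.vαβ
            rw [this, sub_self, _root_.map_zero] at h1
            exact zero_ne_one h1
          · exact h.2
        exact (hall (σ : Qb →+* Qb) (Point.map (W' := (W.map (Int.castRingHom ℚ)).toAffine)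
          σ.toAlgHom) (map_coords W σ) e1 e2).2.1 (fun z => val_eq_of_decomp A σ hσ z) hα hβ x hx
      · intro σ hσ hα
        obtain ⟨e1, e2, e3⟩ := hdec σ hσ.mem_decompositionSubgroup
        have hβ : (σ : Qb →+* Qb) β = β := by
          rcases e3 with h | h
          · exact h.2
          · exfalso
            have : α = β := hα.symm.trans h.1
            have h1 := N.vαβ
            rw [this, sub_self, _root_.map_zero] at h1
            exact zero_ne_one h1
        exact (hall (σ : Qb →+* Qb) (Point.map (W' := (W.map (Int.castRingHom ℚ)).toAffine)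
          σ.toAlgHom) (map_coords W σ) e1 e2).2.2.1 (hfr σ hσ) hα hβ
      · intro σ hσ hα
        obtain ⟨e1, e2, e3⟩ := hdec σ hσ.mem_decompositionSubgroup
        have hβ : (σ : Qb →+* Qb) β = α := by
          rcases e3 with h | h
          · exfalso
            have : α = β := h.1.symm.trans hα
            have h1 := N.vαβ
            rw [this, sub_self, _root_.map_zero] at h1
            exact zero_ne_one h1
          · exact h.2
        exact (hall (σ : Qb →+* Qb) (Point.map (W' := (W.map (Int.castRingHom ℚ)).toAffine)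
          σ.toAlgHom) (map_coords W σ) e1 e2).2.2.2 (hfr σ hσ) hα hβ
    · have hm1' : m = 1 := by
        have := hm.pos
        omega
      subst hm1'
      have e0 : ∀ σ : GQ, σ • (0 : (EQb W).Point) = 0 := fun σ => rfl
      refine ⟨0, addOrderOf_zero, fun τ _ => e0 τ, ?_, ?_, ?_, ?_⟩
      · intro σ _ _ x hx
        rw [one_smul] at hx
        exact ⟨0, by rw [hx, e0, sub_zero, zero_nsmul]⟩
      · intro σ _ _ x hx
        rw [one_smul] at hx
        exact ⟨0, by rw [hx, e0, add_zero, zero_nsmul]⟩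
      · intro σ _ _
        rw [e0, nsmul_zero]
      · intro σ _ _
        rw [e0, nsmul_zero, _root_.neg_zero]
  by_cases hS : IsLocalRing.residue A α' ^ q = IsLocalRing.residue A α'
  · refine ⟨1, Or.inl rfl, fun m hm hqm => ?_⟩
    obtain ⟨P, hord, hI, hD1, -, hF1, -⟩ := main m hm hqm
    refine ⟨P, hord, hI, ?_, ?_, ?_⟩
    · intro σ hσ
      rw [one_mul, natCast_zsmul]
      exact hF1 σ hσ ((hsign σ hσ).2 hS)
    · intro x hx τ hτ
      exact hD1 τ (inertia_le_decomp A hτ) (hinv τ hτ).2.2.1 x hx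
    · intro x hx σ hσ
      rw [one_smul]
      exact hD1 σ hσ.mem_decompositionSubgroup ((hsign σ hσ).2 hS) x hx
  · refine ⟨-1, Or.inr rfl, fun m hm hqm => ?_⟩
    obtain ⟨P, hord, hI, hD1, hD2, -, hF2⟩ := main m hm hqm
    have hswap : ∀ σ : GQ, A.IsFrobeniusAt σ q → (σ : Qb →+* Qb) α = β := by
      intro σ hσ
      rcases (hdec σ hσ.mem_decompositionSubgroup).2.2 with h | h
      · exact absurd ((hsign σ hσ).1 h.1) hS
      · exact h.1
    refine ⟨P, hord, hI, ?_, ?_, ?_⟩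
    · intro σ hσ
      rw [neg_one_mul, neg_smul, natCast_zsmul]
      exact hF2 σ hσ (hswap σ hσ)
    · intro x hx τ hτ
      exact hD1 τ (inertia_le_decomp A hτ) (hinv τ hτ).2.2.1 x hx
    · intro x hx σ hσ
      rw [neg_one_smul, sub_neg_eq_add]
      exact hD2 σ hσ.mem_decompositionSubgroup (hswap σ hσ) x hx

theorem gal_nsmul {W : WeierstrassCurve ℤ} (σ : GQ) (n : ℕ) (x : S58.EQ W) :
    σ • (n • x) = n • σ • x :=
  map_nsmul (DistribSMul.toAddMonoidHom (S58.EQ W) σ) n x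

theorem gal_zsmul {W : WeierstrassCurve ℤ} (σ : GQ) (n : ℤ) (x : S58.EQ W) :
    σ • (n • x) = n • σ • x :=
  map_zsmul (DistribSMul.toAddMonoidHom (S58.EQ W) σ) n x

/-- **[E-ST]** in operator form, with the quadratic relation of Frobenius
(`c_q(W) = 0`: NOT vacuous when inertia acts trivially on `W[m]`). -/
theorem steinberg_relations (W : WeierstrassCurve ℤ) (hΔ0 : W.Δ ≠ 0) {q : ℕ} (hq : q.Prime)
    (hΔ : (q : ℤ) ∣ W.Δ) (hc₄ : ¬ (q : ℤ) ∣ W.c₄) (A : ValuationSubring Qb)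
    (hA : A.LiesOverPrime q) :
    ∃ ε : ℤ, (ε = 1 ∨ ε = -1) ∧ ∀ m : ℕ, Odd m → ¬ q ∣ m → ∀ σ : GQ, A.IsFrobeniusAt σ q →
      ∀ x : S58.EQ W, m • x = 0 →
        σ • σ • x - (ε * (q + 1)) • σ • x + (q : ℤ) • x = 0 ∧
        ∀ τ ∈ A.inertiaSubgroupIn ℚ,
          σ • (τ • x - x) = (ε * q) • (τ • x - x) ∧ τ • (σ • x - ε • x) = σ • x - ε • x := by
  obtain ⟨ε, hε, h⟩ := steinberg_structure W hΔ0 hq hΔ hc₄ A hA
  refine ⟨ε, hε, fun m hm hqm σ hσ x hx => ?_⟩
  obtain ⟨c, -, hI, hF, hT, hS⟩ := h m hm hqm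
  obtain ⟨j, hj⟩ := hS x hx σ hσ
  refine ⟨?_, fun τ hτ => ⟨?_, ?_⟩⟩
  · have h1 : σ • (σ • x - ε • x) = (ε * q) • (σ • x - ε • x) := by
      rw [hj, gal_nsmul, hF σ hσ, smul_comm]
    rw [smul_sub, gal_zsmul, zsmul_sub, ← mul_zsmul] at h1
    have e : ε * q * ε = q := by
      rcases hε with rfl | rfl <;> ring
    rw [e, sub_eq_iff_eq_add] at h1
    rw [h1, mul_add, mul_one, add_zsmul]
    abel
  · obtain ⟨i, hi⟩ := hT x hx τ hτ
    rw [hi, gal_nsmul, hF σ hσ, smul_comm]
  · rw [hj, gal_nsmul, hI τ hτ]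

end Fermat.Agent.ML.ESide
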