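import Fermat.Agent.HW.Pow.Unip

/-!
# ML / ESIDE / [E-ST+], part 4 : two-point version of `HW.NodeData.branch`, uniqueness of the node

* `NodeData.branch2` : two points `P, P'` on the same branch of the node with the same `|X|`:
  `P' = P` or `P' - P` does not reduce to the node;
* `NodeData.unique` : the exact critical point `(x0, y0)` reducing to the node is unique;
* `NodeData.map` : transport by a valuation preserving automorphism fixing the coefficients;
  hence such an automorphism fixes `x0, y0` and fixes or swaps `α, β`.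
-/

set_option autoImplicit false
set_option linter.unusedVariables false

namespace Fermat.Agent.ML.ESide

open WeierstrassCurve WeierstrassCurve.Affine WeierstrassCurve.Affine.Point
open Fermat.Agent.S05 Fermat.Agent.HW

variable {K : Type*} [Field K] {A : ValuationSubring K}
  {W : WeierstrassCurve.Affine K} {x0 y0 α β c : K}

/-- `f(-P) = -g(P)`. -/
theorem f_neg (N : NodeData A W x0 y0 α β c) {P : W.Point} (hP : P ≠ 0) :
    (yc (-P) - y0) - α * (xc (-P) - x0) = -((yc P - y0) - β * (xc P - x0)) := by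
  rw [xc_neg, yc_neg hP, negY]
  linear_combination (-1 : K) * N.hy - (xc P - x0) * N.hsum

/-- `g(-P) = -f(P)`. -/
theorem g_neg (N : NodeData A W x0 y0 α β c) {P : W.Point} (hP : P ≠ 0) :
    (yc (-P) - y0) - β * (xc (-P) - x0) = -((yc P - y0) - α * (xc P - x0)) := by
  rw [xc_neg, yc_neg hP, negY]
  linear_combination (-1 : K) * N.hy - (xc P - x0) * N.hsum

variable [DecidableEq K]

/-- two-point version of `HW.NodeData.branch`. -/
theorem branch2 (N : NodeData A W x0 y0 α β c) {P P' : W.Point} (hP : P ≠ 0) (hP' : P' ≠ 0)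
    (hX : A.valuation (xc P - x0) < 1)
    (hXX : A.valuation (xc P' - x0) = A.valuation (xc P - x0))
    (hg : A.valuation ((yc P - y0) - β * (xc P - x0)) < A.valuation (xc P - x0))
    (hg' : A.valuation ((yc P' - y0) - β * (xc P' - x0)) < A.valuation (xc P - x0)) :
    P' = P ∨ 1 ≤ A.valuation (xc (P' - P) - x0) := by
  obtain ⟨X, hXdef⟩ : ∃ X, X = xc P - x0 := ⟨_, rfl⟩
  obtain ⟨Y, hYdef⟩ : ∃ Y, Y = yc P - y0 := ⟨_, rfl⟩
  obtain ⟨X', hX'def⟩ : ∃ X', X' = xc P' - x0 := ⟨_, rfl⟩
  obtain ⟨Y', hY'def⟩ : ∃ Y', Y' = yc P' - y0 := ⟨_, rfl⟩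
  obtain ⟨f, hfdef⟩ : ∃ f, f = Y - α * X := ⟨_, rfl⟩
  obtain ⟨g, hgdef⟩ : ∃ g, g = Y - β * X := ⟨_, rfl⟩
  obtain ⟨g', hg'def⟩ : ∃ g', g' = Y' - β * X' := ⟨_, rfl⟩
  rw [← hXdef, ← hYdef, ← hgdef] at hg
  rw [← hXdef, ← hX'def, ← hY'def, ← hg'def] at hg'
  rw [← hXdef] at hX
  rw [← hXdef, ← hX'def] at hXX
  set v := A.valuation with hvdef
  have hβα : v (β - α) = 1 := by rw [← N.vαβ, ← Valuation.map_neg, neg_sub]
  have e2 : f = (β - α) * X + g := by rw [hfdef, hgdef]; ring
  have hXf : v f = v X := by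
    have h1 : v ((β - α) * X) = v X := by rw [map_mul, hβα, one_mul]
    rw [e2, Valuation.map_add_eq_of_lt_left _ (by rw [h1]; exact hg), h1]
  have hXpos : 0 < v X := lt_of_le_of_lt zero_le hg
  by_cases hxx : xc P' = xc P
  · rcases (xc_eq_iff hP' hP).1 hxx with h | h
    · exact Or.inl h
    · exfalso
      have h1 : g' = -f := by
        rw [hg'def, hY'def, hX'def, h, g_neg N hP, hfdef, hYdef, hXdef]
      rw [h1, Valuation.map_neg, hXf] at hg'
      exact lt_irrefl _ hg'
  · right
    obtain ⟨l, hl1, hl2⟩ := Fermat.Agent.S13.xc_sub_of_ne hP' hP hxx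
    obtain ⟨D, hDdef⟩ : ∃ D, D = X' - X := ⟨_, rfl⟩
    have hD : xc P' - xc P = D := by rw [hDdef, hX'def, hXdef]; ring
    have hD0 : D ≠ 0 := by rw [← hD]; exact sub_ne_zero.2 hxx
    have hDpos : 0 < v D := zero_lt_iff.2 ((v.ne_zero_iff).2 hD0)
    rw [hD] at hl1
    have hnum : yc P' + yc P + W.a₁ * xc P + W.a₃ = Y' + Y + W.a₁ * X := by
      rw [hY'def, hYdef, hXdef]
      linear_combination N.hy
    rw [hnum] at hl1
    have hA : (l - α) * D = (g + g') + (β - α) * X' := by
      rw [hg'def, hgdef, sub_mul, hl1, hDdef]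
      linear_combination X * N.hsum
    have hB : (l - β) * D = (g + g') + (β - α) * X := by
      rw [hg'def, hgdef, sub_mul, hl1, hDdef]
      linear_combination X * N.hsum
    have hgg : v (g + g') < v X := Valuation.map_add_lt _ hg hg'
    have hvA : v ((l - α) * D) = v X := by
      rw [hA, Valuation.map_add_eq_of_lt_right, map_mul, hβα, one_mul, hXX]
      rw [map_mul, hβα, one_mul, hXX]; exact hgg
    have hvB : v ((l - β) * D) = v X := by
      rw [hB, Valuation.map_add_eq_of_lt_right, map_mul, hβα, one_mul]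
      rw [map_mul, hβα, one_mul]; exact hgg
    have hDX : v D ≤ v X := by
      rw [hDdef]; exact Valuation.map_sub_le _ hXX.le le_rfl
    have hone : ∀ z : K, v (z * D) = v X → 1 ≤ v z := by
      intro z hz
      by_contra hcon
      rw [not_le] at hcon
      rw [map_mul] at hz
      have : v z * v D < v X := by
        calc v z * v D < 1 * v D := by gcongr
          _ = v D := one_mul _
          _ ≤ v X := hDX
      exact absurd hz this.ne
    have h1 := hone _ hvA
    have h2 := hone _ hvB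
    have hXR : xc (P' - P) - x0 = (l - α) * (l - β) - (X + X') := by
      rw [hl2, hX'def, hXdef]
      linear_combination l * N.hsum - N.hprod
    have h3 : v (X + X') < 1 := Valuation.map_add_lt _ hX (by rw [hXX]; exact hX)
    have h4 : 1 ≤ v ((l - α) * (l - β)) := by
      rw [map_mul]; exact one_le_mul_of_one_le_of_one_le h1 h2
    rw [hXR, Valuation.map_sub_eq_of_lt_left _ (lt_of_lt_of_le h3 h4)]
    exact h4

omit [DecidableEq K] in
/-- the exact critical point reducing to the node is unique. -/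
theorem nodeData_unique (N : NodeData A W x0 y0 α β c) {x0' y0' α' β' c' : K}
    (N' : NodeData A W x0' y0' α' β' c') (h2 : (2 : K) ≠ 0) : x0' = x0 ∧ y0' = y0 := by
  obtain ⟨X, hXdef⟩ : ∃ X, X = x0' - x0 := ⟨_, rfl⟩
  obtain ⟨Y, hYdef⟩ : ∃ Y, Y = y0' - y0 := ⟨_, rfl⟩
  set v := A.valuation with hvdef
  have e1 : 2 * Y = (α + β) * X := by
    rw [hYdef, hXdef]
    linear_combination N'.hy - N.hy - (x0' - x0) * N.hsum
  have e2 : (α + β) * Y = 2 * (α * β) * X - 3 * X ^ 2 := by
    rw [hYdef, hXdef]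
    linear_combination -N'.hx + N.hx + (y0' - y0) * N.hsum - 2 * (x0' - x0) * N.hprod
  have e3 : X * (6 * X + (α - β) ^ 2) = 0 := by
    linear_combination 2 * e2 - (α + β) * e1
  have hX0 : X = 0 := by
    by_contra hX
    have e4 : 6 * X = -(α - β) ^ 2 := by
      have := (mul_eq_zero.1 e3).resolve_left hX
      linear_combination this
    have w2 : v (2 : K) ≤ 1 := by exact_mod_cast valuation_natCast_le_one A 2
    have w3 : v (3 : K) ≤ 1 := by exact_mod_cast valuation_natCast_le_one A 3
    have w4 : v (4 : K) ≤ 1 := by exact_mod_cast valuation_natCast_le_one A 4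
    have hXle : v X ≤ 1 := by rw [hXdef]; exact Valuation.map_sub_le _ N'.vx0 N.vx0
    have h6 : v (2 : K) * v (3 : K) * v X = 1 := by
      have : v (6 * X) = 1 := by rw [e4, Valuation.map_neg, map_pow, N.vαβ, one_pow]
      rw [← this, ← map_mul, ← map_mul]
      norm_num
    have hX1 : v X = 1 := by
      refine le_antisymm hXle ?_
      rw [← h6]
      exact mul_le_of_le_one_left' (mul_le_one' w2 w3)
    have h21 : v (2 : K) = 1 := by
      refine le_antisymm w2 ?_
      rw [hX1, mul_one] at h6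
      rw [← h6]
      exact mul_le_of_le_one_right' w3
    have e5 : 2 * X ^ 3 = 4 * (c - c') := by
      have hcc : c' - c = X ^ 3 - (Y - α * X) * (Y - β * X) := by
        rw [N'.hc, N.hc, hXdef, hYdef]
        linear_combination (-(y0' - y0)) * N.hy - (x0' - x0) * N.hx
          - (x0' - x0) * (y0' - y0) * N.hsum + (x0' - x0) ^ 2 * N.hprod
      have h4fg : 4 * ((Y - α * X) * (Y - β * X)) = 6 * X ^ 3 := by
        linear_combination (2 * Y - (α + β) * X) * e1 - X ^ 2 * e4
      linear_combination (4 : K) * hcc - h4fg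
    have h7 : v (2 * X ^ 3) = 1 := by rw [map_mul, map_pow, hX1, h21, one_pow, one_mul]
    have h8 : v (4 * (c - c')) < 1 := by
      rw [map_mul]
      exact lt_of_le_of_lt (mul_le_of_le_one_left' w4) (Valuation.map_sub_lt _ N.vc N'.vc)
    rw [← e5, h7] at h8
    exact lt_irrefl _ h8
  have hY0 : Y = 0 := by
    rw [hX0, mul_zero] at e1
    exact (mul_eq_zero.1 e1).resolve_left h2
  exact ⟨sub_eq_zero.1 (hXdef ▸ hX0), sub_eq_zero.1 (hYdef ▸ hY0)⟩

omit [DecidableEq K] in
/-- transport of the node data. -/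
theorem nodeData_map (N : NodeData A W x0 y0 α β c) (σ : K →+* K)
    (hv : ∀ x, A.valuation (σ x) = A.valuation x)
    (h₁ : σ W.a₁ = W.a₁) (h₂ : σ W.a₂ = W.a₂) (h₃ : σ W.a₃ = W.a₃) (h₄ : σ W.a₄ = W.a₄)
    (h₆ : σ W.a₆ = W.a₆) : NodeData A W (σ x0) (σ y0) (σ α) (σ β) (σ c) where
  hy := by
    have := congrArg σ N.hy
    simpa only [map_add, map_mul, map_ofNat, _root_.map_zero, h₁, h₃] using this
  hx := by
    have := congrArg σ N.hx
    simpa only [map_sub, map_add, map_mul, map_pow, map_ofNat, _root_.map_zero, h₁, h₂, h₄]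
      using this
  hc := by
    have := congrArg σ N.hc
    simpa only [map_sub, map_add, map_mul, map_pow, h₁, h₂, h₃, h₄, h₆] using this
  hsum := by
    have := congrArg σ N.hsum
    simpa only [map_add, map_neg, h₁] using this
  hprod := by
    have := congrArg σ N.hprod
    simpa only [map_add, map_mul, map_neg, map_ofNat, h₂] using this
  vx0 := by rw [hv]; exact N.vx0
  vy0 := by rw [hv]; exact N.vy0
  vα := by rw [hv]; exact N.vα
  vβ := by rw [hv]; exact N.vβ
  vαβ := by rw [← map_sub, hv]; exact N.vαβ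
  vc := by rw [hv]; exact N.vc
  c0 := by
    intro h
    exact N.c0 ((map_eq_zero σ).1 h)

omit [DecidableEq K] in
/-- a valuation preserving automorphism fixing the coefficients fixes the node and fixes or swaps
the two tangent directions. -/
theorem nodeData_fixed (N : NodeData A W x0 y0 α β c) (h2 : (2 : K) ≠ 0) (σ : K →+* K)
    (hv : ∀ x, A.valuation (σ x) = A.valuation x)
    (h₁ : σ W.a₁ = W.a₁) (h₂ : σ W.a₂ = W.a₂) (h₃ : σ W.a₃ = W.a₃) (h₄ : σ W.a₄ = W.a₄)
    (h₆ : σ W.a₆ = W.a₆) :
    σ x0 = x0 ∧ σ y0 = y0 ∧ ((σ α = α ∧ σ β = β) ∨ (σ α = β ∧ σ β = α)) := by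
  have N' := nodeData_map N σ hv h₁ h₂ h₃ h₄ h₆
  obtain ⟨hx, hy⟩ := nodeData_unique N N' h2
  refine ⟨hx, hy, ?_⟩
  have hs : σ α + σ β = α + β := by rw [N'.hsum, N.hsum]
  have hp : σ α * σ β = α * β := by rw [N'.hprod, N.hprod, hx]
  have h : (σ α - α) * (σ α - β) = 0 := by
    linear_combination σ α * hs - hp
  rcases mul_eq_zero.1 h with h | h
  · left
    have h' := sub_eq_zero.1 h
    exact ⟨h', by rw [h'] at hs; exact add_left_cancel hs⟩
  · right
    have h' := sub_eq_zero.1 h
    refine ⟨h', ?_⟩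
    rw [h'] at hs
    linear_combination hs

end Fermat.Agent.ML.ESide
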