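import Fermat.Agent.ML.ESide.NodeLift
import Fermat.Agent.ML.ESide.NodeTwo

/-!
# ML / ESIDE / [E-ST+], part 5 : the local structure of `W[m]` at a multiplicative place (abstract form)

`C := {R ∈ W[m] : R = 0 or R does not reduce to the node}`.
* `C` is a subgroup, cyclic, generated by a point of exact order `m` (`exists_gen_span`);
* a Frobenius acts on `C` by `ε q` (`frob_smul`);
* `(s - ε) W[m] ≤ C` for every valuation preserving `s` fixing (`ε = 1`) or swapping (`ε = -1`)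
  the tangent directions (`two_point`).
-/

set_option autoImplicit false
set_option linter.unusedSectionVars false
set_option linter.unusedVariables false
noncomputable section

namespace Fermat.Agent.ML.ESide

open Polynomial WeierstrassCurve WeierstrassCurve.Affine WeierstrassCurve.Affine.Point
open Fermat.Agent.S05 Fermat.Agent.HW Fermat.Agent.S13

section ResCurve

variable {k : Type*} [Field k] {W : WeierstrassCurve.Affine k} {x0 y0 α β : k}

theorem NodeK.nonsingular_of_ne (N : NodeK W x0 y0 α β) {x y : k} (h : W.Equation x y)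
    (hx : x - x0 ≠ 0) : W.Nonsingular x y := by
  rw [nonsingular_iff]
  refine ⟨h, ?_⟩
  by_contra hcon
  push Not at hcon
  obtain ⟨h1, h2⟩ := hcon
  have e := (equation_iff x y).1 h
  have key : (x - x0) ^ 3 = 0 := by
    linear_combination 2 * e - (y - y0) * N.hy - (x - x0) * N.hx + 2 * N.hc
      - (x - x0) * h1 - (y - y0) * h2
  exact hx ((pow_eq_zero_iff three_ne_zero).1 key)

theorem NodeK.uN_injective [DecidableEq k] (N : NodeK W x0 y0 α β) {P Q : W.Point}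
    (h : uN x0 y0 α β P = uN x0 y0 α β Q) : P = Q := by
  have h1 : uN x0 y0 α β (P - Q) = 1 := by
    rw [sub_eq_add_neg, N.uN_add, N.uN_neg, h, mul_inv_cancel₀ (N.uN_ne_zero Q)]
  exact sub_eq_zero.1 (N.uN_eq_one h1)

theorem NodeK.uN_of_ne_zero (N : NodeK W x0 y0 α β) {P : W.Point} (hP : P ≠ 0) :
    uN x0 y0 α β P = ((yc P - y0) - α * (xc P - x0)) / ((yc P - y0) - β * (xc P - x0)) := by
  cases P with
  | zero => exact absurd rfl hP
  | some x y h => rfl

end ResCurve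

variable {K : Type*} [Field K] {A : ValuationSubring K} {k : Type*} [Field k]
variable [DecidableEq K] [DecidableEq k]
variable {π : A →+* k} {WA : WeierstrassCurve A} {m q : ℕ}

/-- `R` is zero or does not reduce to the node. -/
def InC (WA : WeierstrassCurve A) (x0 : K) (R : (WK WA).Point) : Prop :=
  R = 0 ∨ A.valuation (xc R - x0) = 1

theorem intData_WK (WA : WeierstrassCurve A) : IntData A (WK WA) :=
  ⟨(WA.a₁).2, (WA.a₂).2, (WA.a₃).2, (WA.a₄).2, (WA.a₆).2⟩

namespace TorsHypNode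

variable (H : TorsHypNode π WA m q)
include H

theorem oddData : OddData A m q := ⟨H.hm, H.hq, H.hmq, H.hqA⟩

variable {x0 y0 α β : A} {c : K}

/-- the reduction of an integral point which does not reduce to the node. -/
theorem exists_red (Nk : NodeK (Wk π WA) (π x0) (π y0) (π α) (π β)) {R : (WK WA).Point}
    (hR : R ≠ 0) {X Y : A} (hX : xc R = X) (hY : yc R = Y)
    (hu : A.valuation (xc R - x0) = 1) :
    ∃ Rk : (Wk π WA).Point, Rk ≠ 0 ∧ xc Rk = π X ∧ yc Rk = π Y ∧ Lift R Rk := by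
  have heK : (WK WA).Equation (X : K) (Y : K) := by
    rw [← hX, ← hY]; exact (nonsingular_xc_yc hR).1
  have heA : WA.toAffine.Equation X Y :=
    (map_equation (W := WA.toAffine) (f := A.subtype) Subtype.val_injective X Y).mp heK
  have hek : (Wk π WA).Equation (π X) (π Y) := Equation.map π heA
  have hne : π X - π x0 ≠ 0 := by
    rw [← map_sub]
    intro h0
    have := (H.res _).1 h0
    rw [hX] at hu
    have e : (((X - x0 : A)) : K) = (X : K) - x0 := rfl
    rw [e, hu] at this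
    exact lt_irrefl _ this
  refine ⟨Point.some _ _ (Nk.nonsingular_of_ne hek hne), some_ne_zero _, rfl, rfl, ?_⟩
  exact Or.inr ⟨hR, some_ne_zero _, X, Y, hX, hY, rfl, rfl⟩

theorem exists_coords {R : (WK WA).Point} (hR : R ≠ 0) (hmR : m • R = 0) :
    ∃ X Y : A, xc R = X ∧ yc R = Y :=
  ⟨⟨_, (A.valuation_le_one_iff _).1 (tors_x_odd (intData_WK WA) H.oddData hR hmR)⟩,
    ⟨_, (A.valuation_le_one_iff _).1 (tors_y_odd (intData_WK WA) H.oddData hR hmR)⟩, rfl, rfl⟩

theorem exists_lift_of_inC (Nk : NodeK (Wk π WA) (π x0) (π y0) (π α) (π β)) {R : (WK WA).Point}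
    (hmR : m • R = 0) (hC : InC WA x0 R) : ∃ Rk : (Wk π WA).Point, Lift R Rk := by
  rcases hC with rfl | hu
  · exact ⟨0, lift_zero⟩
  by_cases hR : R = 0
  · subst hR; exact ⟨0, lift_zero⟩
  obtain ⟨X, Y, hX, hY⟩ := H.exists_coords hR hmR
  obtain ⟨Rk, -, -, -, hL⟩ := H.exists_red Nk hR hX hY hu
  exact ⟨Rk, hL⟩

theorem inC_of_lift (Nk : NodeK (Wk π WA) (π x0) (π y0) (π α) (π β)) {R : (WK WA).Point}
    {Rk : (Wk π WA).Point} (hL : Lift R Rk) : InC WA x0 R := by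
  rcases hL with ⟨h0, -⟩ | ⟨-, hRk, X, Y, hX, -, hXk, hYk⟩
  · exact Or.inl h0
  right
  have h1 : π (X - x0) ≠ 0 := by
    rw [map_sub, ← hXk]
    exact Nk.X_ne_zero (nonsingular_xc_yc hRk)
  rw [hX]
  exact H.val_eq_one h1

theorem inC_add (Nk : NodeK (Wk π WA) (π x0) (π y0) (π α) (π β)) {R S : (WK WA).Point}
    (hmR : m • R = 0) (hmS : m • S = 0) (hR : InC WA x0 R) (hS : InC WA x0 S) :
    InC WA x0 (R + S) := by
  obtain ⟨Rk, hRk⟩ := H.exists_lift_of_inC Nk hmR hR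
  obtain ⟨Sk, hSk⟩ := H.exists_lift_of_inC Nk hmS hS
  exact H.inC_of_lift Nk (H.lift_add hmR hmS hRk hSk)

theorem inC_neg (Nk : NodeK (Wk π WA) (π x0) (π y0) (π α) (π β)) {R : (WK WA).Point}
    (hR : InC WA x0 R) : InC WA x0 (-R) := by
  rcases hR with rfl | h
  · exact Or.inl _root_.neg_zero
  · right; rw [xc_neg]; exact h

theorem inC_nsmul (Nk : NodeK (Wk π WA) (π x0) (π y0) (π α) (π β)) {R : (WK WA).Point}
    (hmR : m • R = 0) (hR : InC WA x0 R) (n : ℕ) : InC WA x0 (n • R) := by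
  obtain ⟨Rk, hRk⟩ := H.exists_lift_of_inC Nk hmR hR
  exact H.inC_of_lift Nk (H.lift_nsmul hmR hRk n)

/-- division by `2` in `C`. -/
theorem inC_of_two (Nk : NodeK (Wk π WA) (π x0) (π y0) (π α) (π β)) {R : (WK WA).Point}
    (hmR : m • R = 0) (hR : InC WA x0 (R + R)) : InC WA x0 R := by
  obtain ⟨j, hj⟩ := H.hm
  have h1 : (j + 1) • (R + R) = R := by
    have : (j + 1) • (R + R) = m • R + R := by
      rw [hj, ← two_smul ℕ R, smul_smul, ← succ_nsmul]
      congr 1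
      ring
    rw [this, hmR, zero_add]
  rw [← h1]
  exact H.inC_nsmul Nk (by rw [smul_add, hmR, add_zero]) hR _

/-- **`C` is cyclic, generated by a point of exact order `m`.** -/
theorem exists_gen_span [IsAlgClosed K] (hsurj : Function.Surjective π) (hΔ : (WK WA).Δ ≠ 0)
    (hm1 : 1 < m) {ζ : k} (hζ : IsPrimitiveRoot ζ m)
    (Nk : NodeK (Wk π WA) (π x0) (π y0) (π α) (π β)) :
    ∃ P : (WK WA).Point, addOrderOf P = m ∧ InC WA x0 P ∧
      ∀ R : (WK WA).Point, m • R = 0 → InC WA x0 R → ∃ j : ℕ, R = j • P := by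
  obtain ⟨Pk, hPk, hord⟩ := Nk.exists_addOrderOf_eq hm1 hζ
  have hmPk : m • Pk = 0 := by rw [← hord]; exact addOrderOf_nsmul_eq_zero Pk
  obtain ⟨P, hmP, hL⟩ := H.exists_lift hsurj hΔ hPk hmPk
  refine ⟨P, by rw [H.addOrderOf_eq hmP hL, hord], H.inC_of_lift Nk hL, ?_⟩
  intro R hmR hR
  obtain ⟨Rk, hRk⟩ := H.exists_lift_of_inC Nk hmR hR
  have hmRk : m • Rk = 0 := by
    have h := H.lift_nsmul hmR hRk m
    rw [hmR] at h
    exact h.unique lift_zero
  have hprim : IsPrimitiveRoot (uN (π x0) (π y0) (π α) (π β) Pk) m := by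
    rw [IsPrimitiveRoot.iff_def]
    refine ⟨(Nk.nsmul_eq_zero_iff m Pk).1 hmPk, fun l hl => ?_⟩
    rw [← hord, addOrderOf_dvd_iff_nsmul_eq_zero]
    exact (Nk.nsmul_eq_zero_iff l Pk).2 hl
  have : NeZero m := ⟨by omega⟩
  obtain ⟨j, -, hj⟩ := hprim.eq_pow_of_pow_eq_one ((Nk.nsmul_eq_zero_iff m Rk).1 hmRk)
  have hRk' : Rk = j • Pk := Nk.uN_injective (by rw [Nk.uN_nsmul, hj])
  refine ⟨j, H.eq_of_lift hmR (by rw [smul_comm, hmP, smul_zero]) hRk ?_⟩
  rw [hRk']
  exact H.lift_nsmul hmP hL j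

variable {σ : K →+* K} {s : (WK WA).Point →+ (WK WA).Point}

/-- reduction of `R` and of its Frobenius conjugate. -/
theorem frob_core (Nk : NodeK (Wk π WA) (π x0) (π y0) (π α) (π β))
    (hs : ∀ P : (WK WA).Point, P ≠ 0 → s P ≠ 0 ∧ xc (s P) = σ (xc P) ∧ yc (s P) = σ (yc P))
    (hσ : ∀ z : A, ∃ z' : A, (z' : K) = σ z ∧ π z' = π z ^ q)
    (hx0 : σ x0 = x0) (hy0 : σ y0 = y0) {R : (WK WA).Point} (hR0 : R ≠ 0) (hmR : m • R = 0)
    (hu : A.valuation (xc R - x0) = 1) :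
    ∃ Rk Sk : (Wk π WA).Point, Rk ≠ 0 ∧ Sk ≠ 0 ∧ Lift R Rk ∧ Lift (s R) Sk ∧
      ∀ γ γ' : A, σ γ = γ' → (yc Sk - π y0) - π γ' * (xc Sk - π x0)
        = ((yc Rk - π y0) - π γ * (xc Rk - π x0)) ^ q := by
  obtain ⟨X, Y, hX, hY⟩ := H.exists_coords hR0 hmR
  obtain ⟨Rk, hRk0, hRkx, hRky, hRL⟩ := H.exists_red Nk hR0 hX hY hu
  obtain ⟨hs0, hsx, hsy⟩ := hs R hR0
  obtain ⟨X', hX', hπX'⟩ := hσ X
  obtain ⟨Y', hY', hπY'⟩ := hσ Y
  have hsX : xc (s R) = X' := by rw [hsx, hX, hX']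
  have hsY : yc (s R) = Y' := by rw [hsy, hY, hY']
  have hu' : A.valuation (xc (s R) - x0) = 1 := by
    obtain ⟨Z, hZ, hπZ⟩ := hσ (X - x0)
    have e : (Z : K) = xc (s R) - x0 := by
      rw [hZ, hsx, hX]
      show σ ((X : K) - (x0 : K)) = _
      rw [map_sub, hx0]
    rw [← e]
    apply H.val_eq_one
    rw [hπZ]
    apply pow_ne_zero
    intro h0
    have := (H.res _).1 h0
    rw [hX] at hu
    have e' : (((X - x0 : A)) : K) = (X : K) - x0 := rfl
    rw [e', hu] at this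
    exact lt_irrefl _ this
  obtain ⟨Sk, hSk0, hSkx, hSky, hSL⟩ := H.exists_red Nk hs0 hsX hsY hu'
  refine ⟨Rk, Sk, hRk0, hSk0, hRL, hSL, ?_⟩
  intro γ γ' hγ
  obtain ⟨F, hF, hπF⟩ := hσ ((Y - y0) - γ * (X - x0))
  have e : F = (Y' - y0) - γ' * (X' - x0) := by
    apply Subtype.ext
    rw [hF]
    show σ (((Y : K) - (y0 : K)) - (γ : K) * ((X : K) - (x0 : K)))
      = ((Y' : K) - (y0 : K)) - (γ' : K) * ((X' : K) - (x0 : K))
    rw [map_sub, map_sub, map_mul, map_sub, hx0, hy0, hγ, hX', hY']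
  rw [hSkx, hSky, hRkx, hRky]
  have h1 := hπF
  rw [e] at h1
  simpa only [map_sub, map_mul] using h1

/-- **Frobenius on `C`, split case.** -/
theorem frob_smul (Nk : NodeK (Wk π WA) (π x0) (π y0) (π α) (π β))
    (hs : ∀ P : (WK WA).Point, P ≠ 0 → s P ≠ 0 ∧ xc (s P) = σ (xc P) ∧ yc (s P) = σ (yc P))
    (hσ : ∀ z : A, ∃ z' : A, (z' : K) = σ z ∧ π z' = π z ^ q)
    (hx0 : σ x0 = x0) (hy0 : σ y0 = y0) (hα : σ α = α) (hβ : σ β = β)
    {R : (WK WA).Point} (hmR : m • R = 0) (hR : InC WA x0 R) : s R = q • R := by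
  by_cases hR0 : R = 0
  · rw [hR0, _root_.map_zero, smul_zero]
  have hu := hR.resolve_left hR0
  obtain ⟨Rk, Sk, hRk0, hSk0, hRL, hSL, hF⟩ := H.frob_core Nk hs hσ hx0 hy0 hR0 hmR hu
  have hk : Sk = q • Rk := by
    apply Nk.uN_injective
    rw [Nk.uN_nsmul, Nk.uN_of_ne_zero hSk0, Nk.uN_of_ne_zero hRk0, hF α α hα, hF β β hβ, div_pow]
  refine H.eq_of_lift (by rw [← map_nsmul, hmR, _root_.map_zero])
    (by rw [smul_comm, hmR, smul_zero]) hSL ?_
  rw [hk]
  exact H.lift_nsmul hmR hRL q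

/-- **Frobenius on `C`, non split case.** -/
theorem frob_smul_neg (Nk : NodeK (Wk π WA) (π x0) (π y0) (π α) (π β))
    (hs : ∀ P : (WK WA).Point, P ≠ 0 → s P ≠ 0 ∧ xc (s P) = σ (xc P) ∧ yc (s P) = σ (yc P))
    (hσ : ∀ z : A, ∃ z' : A, (z' : K) = σ z ∧ π z' = π z ^ q)
    (hx0 : σ x0 = x0) (hy0 : σ y0 = y0) (hα : σ α = β) (hβ : σ β = α)
    {R : (WK WA).Point} (hmR : m • R = 0) (hR : InC WA x0 R) : s R = -(q • R) := by
  by_cases hR0 : R = 0
  · rw [hR0, _root_.map_zero, smul_zero, _root_.neg_zero]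
  have hu := hR.resolve_left hR0
  obtain ⟨Rk, Sk, hRk0, hSk0, hRL, hSL, hF⟩ := H.frob_core Nk hs hσ hx0 hy0 hR0 hmR hu
  have hk : Sk = -(q • Rk) := by
    apply Nk.uN_injective
    rw [Nk.uN_neg, Nk.uN_nsmul, Nk.uN_of_ne_zero hSk0, Nk.uN_of_ne_zero hRk0, hF β α hβ,
      hF α β hα, div_pow, inv_div]
  refine H.eq_of_lift (by rw [← map_nsmul, hmR, _root_.map_zero])
    (by rw [smul_neg, smul_comm, hmR, smul_zero, _root_.neg_zero]) hSL ?_
  rw [hk]
  exact (H.lift_nsmul hmR hRL q).neg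

theorem inC_of_one_le (N : NodeData A (WK WA) x0 y0 α β c) {R : (WK WA).Point} (hmR : m • R = 0)
    (h : R = 0 ∨ 1 ≤ A.valuation (xc R - x0)) : InC WA x0 R := by
  by_cases hR : R = 0
  · exact Or.inl hR
  right
  exact le_antisymm (Valuation.map_sub_le _ (tors_x_odd (intData_WK WA) H.oddData hR hmR) N.vx0)
    (h.resolve_left hR)

theorem add_self_ne_zero {P : (WK WA).Point} (hmP : m • P = 0) (hP : P ≠ 0) : P + P ≠ 0 := by
  intro h0
  apply hP
  apply H.eq_zero_of_eq_neg hmP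
  exact eq_neg_of_add_eq_zero_left h0

/-- **two torsion points with the same `|X|, |f|, |g|` differ by an element of `C`.** -/
theorem two_point (N : NodeData A (WK WA) x0 y0 α β c) {P P' : (WK WA).Point}
    (hmP : m • P = 0) (hmP' : m • P' = 0) (hP : P ≠ 0) (hP' : P' ≠ 0)
    (hX : A.valuation (xc P' - x0) = A.valuation (xc P - x0))
    (hf : A.valuation ((yc P' - y0) - α * (xc P' - x0))
      = A.valuation ((yc P - y0) - α * (xc P - x0)))
    (hg : A.valuation ((yc P' - y0) - β * (xc P' - x0))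
      = A.valuation ((yc P - y0) - β * (xc P - x0))) : InC WA x0 (P' - P) := by
  have Nk := nodeK_of_nodeData (π := π) H.res N
  have hmR : m • (P' - P) = 0 := by rw [smul_sub, hmP, hmP', sub_zero]
  have hx := tors_x_odd (intData_WK WA) H.oddData hP hmP
  have hXf : ∀ {a b : K}, A.valuation (a - b) = 1 →
      A.valuation ((yc P - y0) - b * (xc P - x0)) < A.valuation ((yc P - y0) - a * (xc P - x0)) →
      A.valuation (xc P - x0) = A.valuation ((yc P - y0) - a * (xc P - x0)) := by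
    intro a b hab hlt
    have h1 : A.valuation ((b - a) * (xc P - x0)) = A.valuation (xc P - x0) := by
      rw [map_mul, ← Valuation.map_neg, neg_sub, hab, one_mul]
    have e2 : (b - a) * (xc P - x0)
        = ((yc P - y0) - a * (xc P - x0)) - ((yc P - y0) - b * (xc P - x0)) := by ring
    rw [← h1, e2]
    exact Valuation.map_sub_eq_of_lt_left _ hlt
  rcases (Valuation.map_sub_le _ hx N.vx0 : A.valuation (xc P - x0) ≤ 1).lt_or_eq with hX1 | hX1
  · rcases lt_trichotomy (A.valuation ((yc P - y0) - β * (xc P - x0)))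
      (A.valuation ((yc P - y0) - α * (xc P - x0))) with h | h | h
    · have e := hXf N.vαβ h
      refine H.inC_of_one_le N hmR ?_
      rcases branch2 N hP hP' hX1 hX (by rw [e]; exact h) (by rw [hg, e]; exact h) with h' | h'
      · left; rw [h', sub_self]
      · exact Or.inr h'
    · have h2P := H.add_self_ne_zero hmP hP
      have h2P' := H.add_self_ne_zero hmP' hP'
      have c1 : InC WA x0 (P + P) := H.inC_of_one_le N (by rw [smul_add, hmP, add_zero])
        (Or.inr (N.middle hP h2P hX1 h.symm))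
      have c2 : InC WA x0 (P' + P') := H.inC_of_one_le N (by rw [smul_add, hmP', add_zero])
        (Or.inr (N.middle hP' h2P' (by rw [hX]; exact hX1) (by rw [hf, hg]; exact h.symm)))
      apply H.inC_of_two Nk hmR
      have e : (P' - P) + (P' - P) = (P' + P') + -(P + P) := by abel
      rw [e]
      exact H.inC_add Nk (by rw [smul_add, hmP', add_zero])
        (by rw [smul_neg, smul_add, hmP, add_zero, _root_.neg_zero]) c2 (H.inC_neg Nk c1)
    · have e := hXf N.symm.vαβ h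
      refine H.inC_of_one_le N hmR ?_
      rcases branch2 N.symm hP hP' hX1 hX (by rw [e]; exact h) (by rw [hf, e]; exact h) with h' | h'
      · left; rw [h', sub_self]
      · exact Or.inr h'
  · rw [sub_eq_add_neg]
    exact H.inC_add Nk hmP' (by rw [smul_neg, hmP, _root_.neg_zero]) (Or.inr (by rw [hX, hX1]))
      (H.inC_neg Nk (Or.inr hX1))

/-- `(s - 1) W[m] ≤ C` when `s` fixes the tangent directions. -/
theorem map_sub_inC (N : NodeData A (WK WA) x0 y0 α β c)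
    (hs : ∀ P : (WK WA).Point, P ≠ 0 → s P ≠ 0 ∧ xc (s P) = σ (xc P) ∧ yc (s P) = σ (yc P))
    (hv : ∀ x, A.valuation (σ x) = A.valuation x)
    (hx0 : σ x0 = x0) (hy0 : σ y0 = y0) (hα : σ α = α) (hβ : σ β = β)
    {P : (WK WA).Point} (hmP : m • P = 0) : InC WA x0 (s P - P) := by
  by_cases hP : P = 0
  · left; rw [hP, _root_.map_zero, sub_zero]
  obtain ⟨hs0, hsx, hsy⟩ := hs P hP
  have eX : xc (s P) - x0 = σ (xc P - x0) := by rw [map_sub, hx0, hsx]
  have ef : (yc (s P) - y0) - α * (xc (s P) - x0) = σ ((yc P - y0) - α * (xc P - x0)) := by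
    rw [map_sub, map_sub, map_mul, map_sub, hx0, hy0, hα, hsx, hsy]
  have eg : (yc (s P) - y0) - β * (xc (s P) - x0) = σ ((yc P - y0) - β * (xc P - x0)) := by
    rw [map_sub, map_sub, map_mul, map_sub, hx0, hy0, hβ, hsx, hsy]
  refine H.two_point N hmP (by rw [← map_nsmul, hmP, _root_.map_zero]) hP hs0 ?_ ?_ ?_
  · rw [eX, hv]
  · rw [ef, hv]
  · rw [eg, hv]

/-- `(s + 1) W[m] ≤ C` when `s` swaps the tangent directions. -/
theorem map_add_inC (N : NodeData A (WK WA) x0 y0 α β c)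
    (hs : ∀ P : (WK WA).Point, P ≠ 0 → s P ≠ 0 ∧ xc (s P) = σ (xc P) ∧ yc (s P) = σ (yc P))
    (hv : ∀ x, A.valuation (σ x) = A.valuation x)
    (hx0 : σ x0 = x0) (hy0 : σ y0 = y0) (hα : σ α = β) (hβ : σ β = α)
    {P : (WK WA).Point} (hmP : m • P = 0) : InC WA x0 (s P + P) := by
  have Nk := nodeK_of_nodeData (π := π) H.res N
  by_cases hP : P = 0
  · left; rw [hP, _root_.map_zero, add_zero]
  obtain ⟨hs0, hsx, hsy⟩ := hs P hP
  have eX : xc (s P) - x0 = σ (xc P - x0) := by rw [map_sub, hx0, hsx]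
  have ef : (yc (s P) - y0) - β * (xc (s P) - x0) = σ ((yc P - y0) - α * (xc P - x0)) := by
    rw [map_sub, map_sub, map_mul, map_sub, hx0, hy0, hα, hsx, hsy]
  have eg : (yc (s P) - y0) - α * (xc (s P) - x0) = σ ((yc P - y0) - β * (xc P - x0)) := by
    rw [map_sub, map_sub, map_mul, map_sub, hx0, hy0, hβ, hsx, hsy]
  have h : InC WA x0 (-(s P) - P) := by
    refine H.two_point N hmP (by rw [smul_neg, ← map_nsmul, hmP, _root_.map_zero, _root_.neg_zero])
      hP (neg_ne_zero.2 hs0) ?_ ?_ ?_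
    · rw [xc_neg, eX, hv]
    · rw [f_neg N hs0, Valuation.map_neg, ef, hv]
    · rw [g_neg N hs0, Valuation.map_neg, eg, hv]
  have e : s P + P = -(-(s P) - P) := by abel
  rw [e]
  exact H.inC_neg Nk h

end TorsHypNode

/-- **the local structure of `W[m]` at a multiplicative place**, flexible abstract form. -/
theorem node_structure [IsAlgClosed K] (H : TorsHypNode π WA m q) (hsurj : Function.Surjective π)
    (W : WeierstrassCurve.Affine K) (hW : W = WA.map A.subtype) (hΔ : W.Δ ≠ 0) (hm1 : 1 < m)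
    {ζ : k} (hζ : IsPrimitiveRoot ζ m) {x0 y0 α β c : K} (N : NodeData A W x0 y0 α β c) :
    ∃ P : W.Point, addOrderOf P = m ∧ A.valuation (xc P - x0) = 1 ∧
      ∀ (σ : K →+* K) (s : W.Point →+ W.Point),
        (∀ P : W.Point, P ≠ 0 → s P ≠ 0 ∧ xc (s P) = σ (xc P) ∧ yc (s P) = σ (yc P)) →
        σ x0 = x0 → σ y0 = y0 →
        ((∀ x, A.valuation (σ x) = A.valuation x) → σ α = α → σ β = β →
          ∀ x : W.Point, m • x = 0 → ∃ j : ℕ, s x - x = j • P) ∧
        ((∀ x, A.valuation (σ x) = A.valuation x) → σ α = β → σ β = α →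
          ∀ x : W.Point, m • x = 0 → ∃ j : ℕ, s x + x = j • P) ∧
        ((∀ z : A, ∃ z' : A, (z' : K) = σ z ∧ π z' = π z ^ q) → σ α = α → σ β = β →
          s P = q • P) ∧
        ((∀ z : A, ∃ z' : A, (z' : K) = σ z ∧ π z' = π z ^ q) → σ α = β → σ β = α →
          s P = -(q • P)) := by
  subst hW
  obtain ⟨x0', rfl⟩ : ∃ z : A, (z : K) = x0 := ⟨⟨x0, (A.valuation_le_one_iff _).1 N.vx0⟩, rfl⟩
  obtain ⟨y0', rfl⟩ : ∃ z : A, (z : K) = y0 := ⟨⟨y0, (A.valuation_le_one_iff _).1 N.vy0⟩, rfl⟩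
  obtain ⟨α', rfl⟩ : ∃ z : A, (z : K) = α := ⟨⟨α, (A.valuation_le_one_iff _).1 N.vα⟩, rfl⟩
  obtain ⟨β', rfl⟩ : ∃ z : A, (z : K) = β := ⟨⟨β, (A.valuation_le_one_iff _).1 N.vβ⟩, rfl⟩
  have Nk := nodeK_of_nodeData (π := π) H.res N
  obtain ⟨P, hord, hPC, hspan⟩ := H.exists_gen_span hsurj hΔ hm1 hζ Nk
  have hmP : m • P = 0 := by rw [← hord]; exact addOrderOf_nsmul_eq_zero P
  have hP0 : P ≠ 0 := by
    intro h0
    rw [h0, addOrderOf_zero] at hord
    omega
  refine ⟨P, hord, hPC.resolve_left hP0, ?_⟩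
  intro σ s hs hx0 hy0
  refine ⟨?_, ?_, ?_, ?_⟩
  · intro hv hα hβ x hx
    exact hspan _ (by rw [smul_sub, ← map_nsmul, hx, _root_.map_zero, sub_zero])
      (H.map_sub_inC N hs hv hx0 hy0 hα hβ hx)
  · intro hv hα hβ x hx
    exact hspan _ (by rw [smul_add, ← map_nsmul, hx, _root_.map_zero, add_zero])
      (H.map_add_inC N hs hv hx0 hy0 hα hβ hx)
  · intro hσ hα hβ
    exact H.frob_smul Nk hs hσ hx0 hy0 hα hβ hmP hPC
  · intro hσ hα hβ
    exact H.frob_smul_neg Nk hs hσ hx0 hy0 hα hβ hmP hPC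

end Fermat.Agent.ML.ESide
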