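import Fermat.Agent.ML.ESide.NodeHom
import Fermat.Agent.ML.EOrd.Branch
import Fermat.Agent.HW.Pow.Unip
import Fermat.Agent.S58.ESide

/-!
# ML / [E-ST] : the local structure of `W[m]` at a prime `q` of multiplicative reduction

`m` odd, `q ∤ m`, `A` a place of `ℚbar` above `q`, `N : HW.NodeData A (EQb W) x0 y0 α β c`.
`C := {P ∈ W[m] : P = 0 or P has nonsingular reduction}` (`InCP`).  With the sign
`ε = nodeSign A α q = ±1` (`+1` iff the tangent directions at the node are rational over `𝔽_q`):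

* `τ = 1` on `C`, `(τ - 1) W[m] ⊆ C` for `τ` in the inertia group of `A`;
* `φ = ε q` on `C`, `(φ - ε) W[m] ⊆ C` for every Frobenius element `φ` at `A`.

Hence `(φ - ε q)(τ - 1) = 0`, `(τ - 1)(φ - ε) = 0`, `(φ - ε q)(φ - ε) = 0` on `W[m]`.
-/

set_option autoImplicit false
set_option linter.unusedVariables false

namespace Fermat.Agent.ML.ESide

open WeierstrassCurve WeierstrassCurve.Affine WeierstrassCurve.Affine.Point
open Fermat.Agent.S05 Fermat.Agent.HW
open scoped WeierstrassCurve.Affine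

section Abs

variable {K : Type*} [Field K] [DecidableEq K] {A : ValuationSubring K}
  {W : WeierstrassCurve.Affine K} {x0 y0 α β c : K} {m q : ℕ}

/-- zero, or a point with integral coordinates and nonsingular reduction. -/
def InCP (A : ValuationSubring K) (x0 y0 α β : K) (P : W.Point) : Prop :=
  P = 0 ∨ Pt A x0 y0 α β P

omit [DecidableEq K] in
theorem InCP.zero : InCP A x0 y0 α β (0 : W.Point) := Or.inl rfl

theorem InCP.neg (N : NodeData A W x0 y0 α β c) (I : IntData A W) {P : W.Point}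
    (h : InCP A x0 y0 α β P) : InCP A x0 y0 α β (-P) := by
  rcases h with h | h
  · left; rw [h, _root_.neg_zero]
  · exact Or.inr (h.neg N I)

theorem InCP.add (N : NodeData A W x0 y0 α β c) (I : IntData A W) (D : OddData A m q)
    {P Q : W.Point} (hmP : m • P = 0) (hmQ : m • Q = 0)
    (hP : InCP A x0 y0 α β P) (hQ : InCP A x0 y0 α β Q) : InCP A x0 y0 α β (P + Q) := by
  rcases hP with hP | hP
  · rw [hP, zero_add]; exact hQ
  rcases hQ with hQ | hQ
  · rw [hQ, add_zero]; exact Or.inr hP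
  by_cases h : P + Q = 0
  · exact Or.inl h
  · exact Or.inr (Pt.add N I D hP hQ hmP hmQ h).1

theorem InCP.sub (N : NodeData A W x0 y0 α β c) (I : IntData A W) (D : OddData A m q)
    {P Q : W.Point} (hmP : m • P = 0) (hmQ : m • Q = 0)
    (hP : InCP A x0 y0 α β P) (hQ : InCP A x0 y0 α β Q) : InCP A x0 y0 α β (P - Q) := by
  rw [sub_eq_add_neg]
  exact InCP.add N I D hmP (by rw [smul_neg, hmQ, _root_.neg_zero]) hP (hQ.neg N I)

theorem InCP.nsmul (N : NodeData A W x0 y0 α β c) (I : IntData A W) (D : OddData A m q)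
    {P : W.Point} (hmP : m • P = 0) (hP : InCP A x0 y0 α β P) (k : ℕ) :
    InCP A x0 y0 α β (k • P) := by
  induction k with
  | zero => rw [zero_smul]; exact InCP.zero
  | succ k ih =>
    rw [succ_nsmul]
    exact InCP.add N I D (by rw [smul_comm, hmP, smul_zero]) hmP ih hP

theorem InCP.of_le (N : NodeData A W x0 y0 α β c) (I : IntData A W) (D : OddData A m q)
    {R : W.Point} (hmR : m • R = 0) (h : 1 ≤ A.valuation (xc R - x0)) :
    InCP A x0 y0 α β R := by
  by_cases hR : R = 0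
  · exact Or.inl hR
  · exact Or.inr (Pt.of_tors N I D hR hmR
      (le_antisymm (Valuation.map_sub_le _ (tors_x_odd I D hR hmR) N.vx0) h))

theorem InCP.of_two (N : NodeData A W x0 y0 α β c) (I : IntData A W) (D : OddData A m q)
    {R : W.Point} (hmR : m • R = 0) (h : InCP A x0 y0 α β (R + R)) : InCP A x0 y0 α β R := by
  obtain ⟨k, hk⟩ := D.hm
  have e : R = (k + 1) • (R + R) := by
    have h1 : (k + 1) • (R + R) = m • R + R := by
      rw [hk, ← two_nsmul, ← mul_nsmul']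
      have e2 : (k + 1) * 2 = (2 * k + 1) + 1 := by ring
      rw [e2, add_nsmul _ (2 * k + 1) 1, one_nsmul]
    rw [h1, hmR, zero_add]
  rw [e]
  exact InCP.nsmul N I D (by rw [smul_add, hmR, add_zero]) h _

/-- **two torsion points with the same `v X`, `v f`, `v g` differ by a point of `C`.** -/
theorem sub_inC (N : NodeData A W x0 y0 α β c) (I : IntData A W) (D : OddData A m q)
    {P P' : W.Point} (hmP : m • P = 0) (hmP' : m • P' = 0) (hP : P ≠ 0) (hP' : P' ≠ 0)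
    (hXX : A.valuation (xc P' - x0) = A.valuation (xc P - x0))
    (hff : A.valuation (nF x0 y0 α P') = A.valuation (nF x0 y0 α P))
    (hgg : A.valuation (nF x0 y0 β P') = A.valuation (nF x0 y0 β P)) :
    InCP A x0 y0 α β (P' - P) := by
  have hmR : m • (P' - P) = 0 := by rw [smul_sub, hmP, hmP', sub_zero]
  have h2ne : ∀ R : W.Point, R ≠ 0 → m • R = 0 → R + R ≠ 0 := by
    intro R hR hmR h
    apply hR
    have h2 : 2 • R = 0 := by rw [two_smul]; exact h
    obtain ⟨k, hk⟩ := D.hm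
    rw [hk, add_smul, mul_comm, mul_smul, h2, smul_zero, zero_add, one_smul] at hmR
    exact hmR
  have hbr : (P' = P ∨ 1 ≤ A.valuation (xc (P' - P) - x0)) → InCP A x0 y0 α β (P' - P) := by
    rintro (h | h)
    · left; rw [h, sub_self]
    · exact InCP.of_le N I D hmR h
  unfold nF at hff hgg
  by_cases hX : A.valuation (xc P - x0) < 1
  · rcases lt_trichotomy (A.valuation ((yc P - y0) - β * (xc P - x0)))
      (A.valuation ((yc P - y0) - α * (xc P - x0))) with h | h | h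
    · have hXf := EOrd.val_X_eq_of_lt N h
      exact hbr (EOrd.branch2 N hP hP' hX hXX (by rw [hXf]; exact h) (by rw [hgg, hXf]; exact h))
    · have m1 : InCP A x0 y0 α β P :=
        InCP.of_two N I D hmP (InCP.of_le N I D (by rw [smul_add, hmP, add_zero])
          (N.middle hP (h2ne P hP hmP) hX h.symm))
      have m2 : InCP A x0 y0 α β P' :=
        InCP.of_two N I D hmP' (InCP.of_le N I D (by rw [smul_add, hmP', add_zero])
          (N.middle hP' (h2ne P' hP' hmP') (by rw [hXX]; exact hX)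
            (by rw [hff, hgg]; exact h.symm)))
      exact InCP.sub N I D hmP' hmP m2 m1
    · have hXf := EOrd.val_X_eq_of_lt N.symm h
      exact hbr (EOrd.branch2 N.symm hP hP' hX hXX (by rw [hXf]; exact h)
        (by rw [hff, hXf]; exact h))
  · rw [not_lt] at hX
    exact InCP.sub N I D hmP' hmP (InCP.of_le N I D hmP' (by rw [hXX]; exact hX))
      (InCP.of_le N I D hmP hX)

variable {σ : K →+* K} {s : W.Point →+ W.Point}

/-- split case: `(s - 1) W[m] ⊆ C`. -/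
theorem sub_inC_of_fix (N : NodeData A W x0 y0 α β c) (I : IntData A W) (D : OddData A m q)
    (hs : ∀ P : W.Point, P ≠ 0 → s P ≠ 0 ∧ xc (s P) = σ (xc P) ∧ yc (s P) = σ (yc P))
    (hv : ∀ x, A.valuation (σ x) = A.valuation x)
    (hx0 : σ x0 = x0) (hy0 : σ y0 = y0) (hα : σ α = α) (hβ : σ β = β)
    {P : W.Point} (hmP : m • P = 0) : InCP A x0 y0 α β (s P - P) := by
  by_cases hP : P = 0
  · left; rw [hP, _root_.map_zero, sub_zero]
  obtain ⟨h0, h1, h2⟩ := hs P hP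
  have e : ∀ t : K, σ t = t → nF x0 y0 t (s P) = σ (nF x0 y0 t P) := by
    intro t ht
    rw [nF, nF, h1, h2, map_sub, map_sub, map_mul, map_sub, hx0, hy0, ht]
  refine sub_inC N I D hmP (by rw [← map_nsmul, hmP, _root_.map_zero]) hP h0 ?_
    (by rw [e α hα, hv]) (by rw [e β hβ, hv])
  have : xc (s P) - x0 = σ (xc P - x0) := by rw [h1, map_sub, hx0]
  rw [this, hv]

/-- non split case: `(s + 1) W[m] ⊆ C`. -/
theorem add_inC_of_swap (N : NodeData A W x0 y0 α β c) (I : IntData A W) (D : OddData A m q)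
    (hs : ∀ P : W.Point, P ≠ 0 → s P ≠ 0 ∧ xc (s P) = σ (xc P) ∧ yc (s P) = σ (yc P))
    (hv : ∀ x, A.valuation (σ x) = A.valuation x)
    (hx0 : σ x0 = x0) (hy0 : σ y0 = y0) (hα : σ α = β) (hβ : σ β = α)
    {P : W.Point} (hmP : m • P = 0) : InCP A x0 y0 α β (s P + P) := by
  by_cases hP : P = 0
  · left; rw [hP, _root_.map_zero, add_zero]
  obtain ⟨h0, h1, h2⟩ := hs P hP
  have e : ∀ t t' : K, σ t = t' → nF x0 y0 t' (s P) = σ (nF x0 y0 t P) := by
    intro t t' ht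
    rw [nF, nF, h1, h2, map_sub, map_sub, map_mul, map_sub, hx0, hy0, ht]
  have hms : m • s P = 0 := by rw [← map_nsmul, hmP, _root_.map_zero]
  have key : InCP A x0 y0 α β (-(s P) - P) := by
    refine sub_inC N I D hmP (by rw [smul_neg, hms, _root_.neg_zero]) hP (neg_ne_zero.2 h0) ?_
      (by rw [nF_neg_left N h0, Valuation.map_neg, e α β hα, hv])
      (by rw [nF_neg_right N h0, Valuation.map_neg, e β α hβ, hv])
    have : xc (-(s P)) - x0 = σ (xc P - x0) := by rw [xc_neg, h1, map_sub, hx0]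
    rw [this, hv]
  have := key.neg N I
  rwa [neg_sub, sub_neg_eq_add, add_comm] at this

/-- inertia acts trivially on `C`. -/
theorem InCP.fixed (N : NodeData A W x0 y0 α β c) (I : IntData A W) (D : OddData A m q)
    (G : GalData A W σ s) {P : W.Point} (hmP : m • P = 0) (h : InCP A x0 y0 α β P) : s P = P := by
  rcases h with h | h
  · rw [h, _root_.map_zero]
  · exact fixed_of_nonsingular_red_odd I D G h.ne hmP (h.hns N I)

end Abs

/-! ### the curve over `ℚbar` -/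

section Conc

local notation "Qb" => AlgebraicClosure ℚ

variable {A : ValuationSubring Qb} {q m : ℕ}

/-- a Frobenius element acts as `x ↦ x ^ q` modulo the maximal ideal. -/
theorem val_frob_sub_pow_lt_one {φ : Qb ≃ₐ[ℚ] Qb} (hφ : A.IsFrobeniusAt φ q) {x : Qb}
    (hx : x ∈ A) : A.valuation (φ x - x ^ q) < 1 := by
  obtain ⟨hD, h⟩ := hφ
  have h2 := h (IsLocalRing.residue A ⟨x, hx⟩)
  have h3 : IsLocalRing.residue A ((⟨φ, hD⟩ : A.decompositionSubgroup ℚ) • (⟨x, hx⟩ : A)) =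
      IsLocalRing.residue A ((⟨x, hx⟩ : A) ^ q) := by
    rw [map_pow, ← h2]; rfl
  have h4 : ((⟨φ, hD⟩ : A.decompositionSubgroup ℚ) • (⟨x, hx⟩ : A)) - (⟨x, hx⟩ : A) ^ q ∈
      IsLocalRing.maximalIdeal A := by
    rw [← IsLocalRing.residue_eq_zero_iff, map_sub, h3, sub_self]
  exact (A.valuation_lt_one_iff _).1 h4

theorem hs_EQb (W : WeierstrassCurve ℤ) (σ : Qb ≃ₐ[ℚ] Qb) (P : (EQb W).Point) (hP : P ≠ 0) :
    Point.map (W' := (W.map (Int.castRingHom ℚ)).toAffine) σ.toAlgHom P ≠ 0 ∧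
      xc (Point.map (W' := (W.map (Int.castRingHom ℚ)).toAffine) σ.toAlgHom P)
        = (σ : Qb →+* Qb) (xc P) ∧
      yc (Point.map (W' := (W.map (Int.castRingHom ℚ)).toAffine) σ.toAlgHom P)
        = (σ : Qb →+* Qb) (yc P) := by
  cases P with
  | zero => exact absurd rfl hP
  | some x y h =>
    rw [Point.map_some]
    exact ⟨some_ne_zero _, rfl, rfl⟩

theorem frobLike_EQb (W : WeierstrassCurve ℤ) {φ : Qb ≃ₐ[ℚ] Qb} (hφ : A.IsFrobeniusAt φ q) :
    FrobLike A (EQb W) (φ : Qb →+* Qb)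
      (Point.map (W' := (W.map (Int.castRingHom ℚ)).toAffine) φ.toAlgHom) q :=
  ⟨hs_EQb W φ, fun z => Fermat.Agent.S13.val_eq_of_decomp A φ hφ.mem_decompositionSubgroup z,
    fun x hx => val_frob_sub_pow_lt_one hφ ((A.valuation_le_one_iff _).1 hx)⟩

/-- elements of the decomposition group fix the node and permute the tangent directions. -/
theorem node_fixed_EQb (W : WeierstrassCurve ℤ) {x0 y0 α β c : Qb}
    (N : NodeData A (EQb W) x0 y0 α β c) {σ : Qb ≃ₐ[ℚ] Qb} (hσ : σ ∈ A.decompositionSubgroup ℚ) :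
    σ x0 = x0 ∧ σ y0 = y0 ∧ ((σ α = α ∧ σ β = β) ∨ (σ α = β ∧ σ β = α)) := by
  have e₁ : (EQb W).a₁ = ((W.a₁ : ℤ) : Qb) := by simp
  have e₂ : (EQb W).a₂ = ((W.a₂ : ℤ) : Qb) := by simp
  have e₃ : (EQb W).a₃ = ((W.a₃ : ℤ) : Qb) := by simp
  have e₄ : (EQb W).a₄ = ((W.a₄ : ℤ) : Qb) := by simp
  have e₆ : (EQb W).a₆ = ((W.a₆ : ℤ) : Qb) := by simp
  exact node_fixed (σ := (σ : Qb →+* Qb)) N
    (fun z => Fermat.Agent.S13.val_eq_of_decomp A σ hσ z)
    (by rw [e₁]; exact map_intCast _ _) (by rw [e₂]; exact map_intCast _ _)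
    (by rw [e₃]; exact map_intCast _ _) (by rw [e₄]; exact map_intCast _ _)
    (by rw [e₆]; exact map_intCast _ _)

/-- inertia fixes the node and the tangent directions. -/
theorem node_fixed_inertia (W : WeierstrassCurve ℤ) {x0 y0 α β c : Qb}
    (N : NodeData A (EQb W) x0 y0 α β c) {σ : Qb ≃ₐ[ℚ] Qb} (hσ : σ ∈ A.inertiaSubgroupIn ℚ) :
    σ x0 = x0 ∧ σ y0 = y0 ∧ σ α = α ∧ σ β = β := by
  obtain ⟨h1, h2, h3⟩ := node_fixed_EQb W N (Fermat.Agent.S13.inertia_le_decomp A hσ)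
  refine ⟨h1, h2, ?_⟩
  rcases h3 with h | ⟨h, -⟩
  · exact h
  · exfalso
    have h4 := inertia_spec A σ hσ α N.vα
    rw [h, val_beta_sub_alpha N] at h4
    exact lt_irrefl _ h4

open Classical in
/-- the sign of the node: `1` if the tangent directions are rational over `𝔽_q`, else `-1`. -/
noncomputable def nodeSign (A : ValuationSubring Qb) (α : Qb) (q : ℕ) : ℤ :=
  if A.valuation (α ^ q - α) < 1 then 1 else -1

theorem nodeSign_eq (A : ValuationSubring Qb) (α : Qb) (q : ℕ) :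
    nodeSign A α q = 1 ∨ nodeSign A α q = -1 := by
  unfold nodeSign
  split_ifs
  · exact Or.inl rfl
  · exact Or.inr rfl

theorem nodeSign_mul_self (A : ValuationSubring Qb) (α : Qb) (q : ℕ) :
    nodeSign A α q * nodeSign A α q = 1 := by
  rcases nodeSign_eq A α q with h | h <;> rw [h] <;> norm_num

/-- the action of a Frobenius element on the tangent directions. -/
theorem frob_node (W : WeierstrassCurve ℤ) {x0 y0 α β c : Qb}
    (N : NodeData A (EQb W) x0 y0 α β c) {φ : Qb ≃ₐ[ℚ] Qb} (hφ : A.IsFrobeniusAt φ q) :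
    φ x0 = x0 ∧ φ y0 = y0 ∧ ((nodeSign A α q = 1 ∧ φ α = α ∧ φ β = β) ∨
      (nodeSign A α q = -1 ∧ φ α = β ∧ φ β = α)) := by
  obtain ⟨h1, h2, h3⟩ := node_fixed_EQb W N hφ.mem_decompositionSubgroup
  refine ⟨h1, h2, ?_⟩
  have h4 := val_frob_sub_pow_lt_one hφ ((A.valuation_le_one_iff _).1 N.vα)
  rcases h3 with ⟨h, h'⟩ | ⟨h, h'⟩
  · refine Or.inl ⟨?_, h, h'⟩
    rw [h, ← Valuation.map_neg, neg_sub] at h4
    rw [nodeSign, if_pos h4]
  · refine Or.inr ⟨?_, h, h'⟩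
    rw [nodeSign, if_neg]
    intro h5
    rw [h] at h4
    have h6 : A.valuation ((β - α ^ q) + (α ^ q - α)) < 1 := val_add_lt_one _ h4 h5
    rw [sub_add_sub_cancel, val_beta_sub_alpha N] at h6
    exact lt_irrefl _ h6

variable (W : WeierstrassCurve ℤ) {x0 y0 α β c : Qb}

theorem oddData_of (hq : q.Prime) (hA : A.LiesOverPrime q) (hm : Odd m) (hqm : ¬ q ∣ m) :
    OddData A m q := ⟨hm, hq, hqm, hA⟩

theorem tors_gal_smul (σ : Qb ≃ₐ[ℚ] Qb) {P : (EQb W).Point} (hmP : m • P = 0) :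
    m • (σ • P) = 0 := by
  have := map_nsmul (Point.map (W' := (W.map (Int.castRingHom ℚ)).toAffine) σ.toAlgHom) m P
  rw [hmP, _root_.map_zero] at this
  exact this.symm

/-- **`τ = 1` on `C`.** -/
theorem inertia_smul_of_inC (N : NodeData A (EQb W) x0 y0 α β c) (D : OddData A m q)
    {τ : Qb ≃ₐ[ℚ] Qb} (hτ : τ ∈ A.inertiaSubgroupIn ℚ) {P : (EQb W).Point} (hmP : m • P = 0)
    (h : InCP A x0 y0 α β P) : τ • P = P := by
  classical
  exact InCP.fixed N (intData_EQb W A) D (galData_EQb W A hτ) hmP h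

/-- **`(τ - 1) W[m] ⊆ C`.** -/
theorem inertia_sub_inC (N : NodeData A (EQb W) x0 y0 α β c) (D : OddData A m q)
    {τ : Qb ≃ₐ[ℚ] Qb} (hτ : τ ∈ A.inertiaSubgroupIn ℚ) {P : (EQb W).Point} (hmP : m • P = 0) :
    InCP A x0 y0 α β (τ • P - P) := by
  classical
  obtain ⟨h1, h2, h3, h4⟩ := node_fixed_inertia W N hτ
  exact sub_inC_of_fix N (intData_EQb W A) D (hs_EQb W τ)
    (fun z => Fermat.Agent.S13.val_eq_of_decomp A τ (Fermat.Agent.S13.inertia_le_decomp A hτ) z)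
    h1 h2 h3 h4 hmP

/-- **`φ = ε q` on `C`.** -/
theorem frob_smul_of_inC (N : NodeData A (EQb W) x0 y0 α β c) (D : OddData A m q)
    {φ : Qb ≃ₐ[ℚ] Qb} (hφ : A.IsFrobeniusAt φ q) {P : (EQb W).Point} (hmP : m • P = 0)
    (h : InCP A x0 y0 α β P) : φ • P = (nodeSign A α q * (q : ℤ)) • P := by
  classical
  rcases h with h | h
  · rw [h, zsmul_zero]
    exact _root_.map_zero (Point.map (W' := (W.map (Int.castRingHom ℚ)).toAffine) φ.toAlgHom)
  obtain ⟨h1, h2, h3⟩ := frob_node W N hφ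
  rcases h3 with ⟨e, h3, h4⟩ | ⟨e, h3, h4⟩
  · rw [e, one_mul, natCast_zsmul]
    exact (frobLike_EQb W hφ).eq_nsmul N (intData_EQb W A) D h1 h2 h3 h4 hmP h
  · rw [e, neg_one_mul, neg_smul, natCast_zsmul]
    exact (frobLike_EQb W hφ).eq_neg_nsmul N (intData_EQb W A) D h1 h2 h3 h4 hmP h

/-- **`(φ - ε) W[m] ⊆ C`.** -/
theorem frob_sub_inC (N : NodeData A (EQb W) x0 y0 α β c) (D : OddData A m q)
    {φ : Qb ≃ₐ[ℚ] Qb} (hφ : A.IsFrobeniusAt φ q) {P : (EQb W).Point} (hmP : m • P = 0) :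
    InCP A x0 y0 α β (φ • P - nodeSign A α q • P) := by
  classical
  obtain ⟨h1, h2, h3⟩ := frob_node W N hφ
  have hv := fun z => Fermat.Agent.S13.val_eq_of_decomp A φ hφ.mem_decompositionSubgroup z
  rcases h3 with ⟨e, h3, h4⟩ | ⟨e, h3, h4⟩
  · rw [e, one_smul]
    exact sub_inC_of_fix N (intData_EQb W A) D (hs_EQb W φ) hv h1 h2 h3 h4 hmP
  · rw [e, neg_smul, one_smul, sub_neg_eq_add]
    exact add_inC_of_swap N (intData_EQb W A) D (hs_EQb W φ) hv h1 h2 h3 h4 hmP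

/-- **[E-ST]**: the Steinberg relations on `W[m]` at a prime of multiplicative reduction. -/
theorem steinberg_of_nodeData (N : NodeData A (EQb W) x0 y0 α β c) (D : OddData A m q)
    {φ : Qb ≃ₐ[ℚ] Qb} (hφ : A.IsFrobeniusAt φ q) {P : (EQb W).Point} (hmP : m • P = 0) :
    (∀ τ ∈ A.inertiaSubgroupIn ℚ,
      φ • (τ • P - P) = (nodeSign A α q * (q : ℤ)) • (τ • P - P)) ∧
    (∀ τ ∈ A.inertiaSubgroupIn ℚ,
      τ • (φ • P - nodeSign A α q • P) = φ • P - nodeSign A α q • P) ∧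
    φ • (φ • P - nodeSign A α q • P)
      = (nodeSign A α q * (q : ℤ)) • (φ • P - nodeSign A α q • P) := by
  have hm1 : ∀ σ : Qb ≃ₐ[ℚ] Qb, m • (σ • P) = 0 := fun σ => tors_gal_smul W σ hmP
  have hm2 : m • (φ • P - nodeSign A α q • P) = 0 := by
    rw [nsmul_sub, hm1, smul_comm, hmP, zsmul_zero, sub_zero]
  refine ⟨fun τ hτ => ?_, fun τ hτ => ?_, ?_⟩
  · exact frob_smul_of_inC W N D hφ (by rw [nsmul_sub, hm1, hmP, sub_zero])
      (inertia_sub_inC W N D hτ hmP)
  · exact inertia_smul_of_inC W N D hτ hm2 (frob_sub_inC W N D hφ hmP)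
  · exact frob_smul_of_inC W N D hφ hm2 (frob_sub_inC W N D hφ hmP)

/-- **[E-ST]**, existential form. -/
theorem exists_steinberg {q : ℕ} (hq : q.Prime) (hΔ0 : W.Δ ≠ 0)
    (hΔ : (q : ℤ) ∣ W.Δ) (hc₄ : ¬ (q : ℤ) ∣ W.c₄) (A : ValuationSubring Qb)
    (hA : A.LiesOverPrime q) :
    ∃ ε : ℤ, (ε = 1 ∨ ε = -1) ∧ ∀ m : ℕ, Odd m → ¬ q ∣ m → ∀ φ : Qb ≃ₐ[ℚ] Qb,
      A.IsFrobeniusAt φ q → ∀ P : (EQb W).Point, m • P = 0 →
      (∀ τ ∈ A.inertiaSubgroupIn ℚ, φ • (τ • P - P) = (ε * (q : ℤ)) • (τ • P - P)) ∧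
      (∀ τ ∈ A.inertiaSubgroupIn ℚ, τ • (φ • P - ε • P) = φ • P - ε • P) ∧
      φ • (φ • P - ε • P) = (ε * (q : ℤ)) • (φ • P - ε • P) := by
  obtain ⟨x0, y0, α, β, c, N, -⟩ := exists_nodeData W hq hΔ0 hΔ hc₄ A hA
  exact ⟨nodeSign A α q, nodeSign_eq A α q, fun m hm hqm φ hφ P hmP =>
    steinberg_of_nodeData W N (oddData_of hq hA hm hqm) hφ hmP⟩

end Conc

end Fermat.Agent.ML.ESide
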