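import Fermat.Agent.ML.ESide.EM
import Fermat.Agent.ML.ESide.Steinberg

/-!
# ML / E-side : **[E-ST]** in matrix form : `rE` at a prime `q ∣ Δ` of multiplicative reduction

`exists_steinberg_rEB` : helper19's `exists_steinberg` read on `rEB B`, `B` ANY basis of `W[m]`, `m` odd, `q ∤ m`.
`exists_steinberg_trace` : `m = p^(K+1)` : `tr rE(φ) = ε (q+1)`, `det rE(φ) = q`.
-/

set_option autoImplicit false

namespace Fermat.Agent.ML.ESide

open Fermat.Agent.GAL Fermat.Agent.RIB.Rho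

local notation "Qbar" => AlgebraicClosure ℚ
local notation "GQ" => (AlgebraicClosure ℚ ≃ₐ[ℚ] AlgebraicClosure ℚ)
local notation "M₂" => Matrix (Fin 2) (Fin 2)

variable {W : WeierstrassCurve ℤ}

/-- the Steinberg shape of a pair (Frobenius, inertia) of matrices, with sign `ε`. -/
structure StShape {Λ : Type*} [CommRing Λ] (q : ℕ) (ε : ℤ) (I : Set GQ) (r : GQ →* M₂ Λ) (φ : GQ) :
    Prop where
  frob_in : ∀ τ ∈ I, (r φ - ((ε * q : ℤ) : Λ) • 1) * (r τ - 1) = 0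
  in_frob : ∀ τ ∈ I, (r τ - 1) * (r φ - ((ε : ℤ) : Λ) • 1) = 0
  frob : (r φ - ((ε * q : ℤ) : Λ) • 1) * (r φ - ((ε : ℤ) : Λ) • 1) = 0

/-- **[E-ST]**, matrix form. -/
theorem exists_steinberg_rEB {q : ℕ} (hq : q.Prime) (hΔ0 : W.Δ ≠ 0) (hΔ : (q : ℤ) ∣ W.Δ)
    (hc₄ : ¬ (q : ℤ) ∣ W.c₄) (A : ValuationSubring Qbar) (hA : A.LiesOverPrime q) :
    ∃ ε : ℤ, (ε = 1 ∨ ε = -1) ∧ ∀ m : ℕ, Odd m → ¬ q ∣ m →
      ∀ (B : Module.Basis (Fin 2) (ZMod m) (TorsW W m)) (φ : GQ), A.IsFrobeniusAt φ q →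
        StShape q ε (A.inertiaSubgroupIn ℚ : Set GQ) (rEB B) φ := by
  obtain ⟨ε, hε, h⟩ := exists_steinberg W hq hΔ0 hΔ hc₄ A hA
  refine ⟨ε, hε, fun m hm hqm B φ hφ => ⟨fun τ hτ => ?_, fun τ hτ => ?_, ?_⟩⟩
  · have := rEB_sub_mul_sub_eq_zero_int B φ τ (ε * q) 1 (fun x => by
      rw [one_smul]
      exact Subtype.ext ((h m hm hqm φ hφ (x : S58.EQ W) (nsmul_coe_torsW W x)).1 τ hτ))
    simpa using this
  · have := rEB_sub_mul_sub_eq_zero_int B τ φ 1 ε (fun x => by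
      rw [one_smul]
      exact Subtype.ext ((h m hm hqm φ hφ (x : S58.EQ W) (nsmul_coe_torsW W x)).2.1 τ hτ))
    simpa using this
  · exact rEB_sub_mul_sub_eq_zero_int B φ φ (ε * q) ε (fun x =>
      Subtype.ext (h m hm hqm φ hφ (x : S58.EQ W) (nsmul_coe_torsW W x)).2.2)

/-- trace of a matrix with `(S - εq)(S - ε) = 0`, `det S = q`, `ε² = 1`. -/
theorem trace_of_stShape {Λ : Type*} [CommRing Λ] {G : Type*} [Group G] (r : G →* M₂ Λ) {φ : G}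
    {q : ℕ} {ε : ℤ} (hε : ε = 1 ∨ ε = -1) (hdet : (r φ).det = ((q : ℕ) : Λ))
    (h : (r φ - ((ε * q : ℤ) : Λ) • 1) * (r φ - ((ε : ℤ) : Λ) • 1) = 0) :
    (r φ).trace = ((ε * (q + 1) : ℤ) : Λ) := by
  refine trace_eq_of_quad_loc r hdet ?_
  have hε' : ((ε : ℤ) : Λ) * ((ε : ℤ) : Λ) = 1 := by
    rw [← Int.cast_mul]
    rcases hε with rfl | rfl <;> simp
  rw [← h]
  push_cast
  set S := r φ
  set e : Λ := ((ε : ℤ) : Λ)
  have : (S - (e * (q : Λ)) • 1) * (S - e • 1)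
      = S * S - (e * ((q : Λ) + 1)) • S + ((e * e) * (q : Λ)) • 1 := by
    simp only [sub_mul, mul_sub, smul_mul_assoc, mul_smul_comm, one_mul, mul_one]
    rw [mul_add, add_smul, mul_one, smul_sub, smul_smul, mul_assoc e e]
    abel
  rw [this, hε', one_mul]

end Fermat.Agent.ML.ESide
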