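import Fermat.Agent.ML.ESide.Steinberg
import Fermat.Agent.Common.PlaceBridge

/-!
# ML / [E-ST] : the sign `ε` does not depend on the place above `q`

All places of `ℚbar` above `q` are conjugate (`Bridge.exists_smul_eq`), and the three Steinberg
relations are stable under conjugation.
-/

set_option autoImplicit false
set_option linter.unusedVariables false

namespace Fermat.Agent.ML.ESide

open WeierstrassCurve WeierstrassCurve.Affine WeierstrassCurve.Affine.Point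
open Fermat.Agent.S05 Fermat.Agent.HW
open scoped WeierstrassCurve.Affine Pointwise

local notation "Qb" => AlgebraicClosure ℚ

variable (W : WeierstrassCurve ℤ)

theorem gal_zsmul_EQb (σ : Qb ≃ₐ[ℚ] Qb) (n : ℤ) (P : (EQb W).Point) :
    σ • (n • P) = n • (σ • P) :=
  map_zsmul (Point.map (W' := (W.map (Int.castRingHom ℚ)).toAffine) σ.toAlgHom) n P

theorem gal_sub_EQb (σ : Qb ≃ₐ[ℚ] Qb) (P Q : (EQb W).Point) :
    σ • (P - Q) = σ • P - σ • Q :=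
  map_sub (Point.map (W' := (W.map (Int.castRingHom ℚ)).toAffine) σ.toAlgHom) P Q

/-- the three Steinberg relations at `(A, ε, m)`. -/
def SteinbergRel (A : ValuationSubring Qb) (q : ℕ) (ε : ℤ) : Prop :=
  ∀ m : ℕ, Odd m → ¬ q ∣ m → ∀ φ : Qb ≃ₐ[ℚ] Qb,
      A.IsFrobeniusAt φ q → ∀ P : (EQb W).Point, m • P = 0 →
      (∀ τ ∈ A.inertiaSubgroupIn ℚ, φ • (τ • P - P) = (ε * (q : ℤ)) • (τ • P - P)) ∧
      (∀ τ ∈ A.inertiaSubgroupIn ℚ, τ • (φ • P - ε • P) = φ • P - ε • P) ∧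
      φ • (φ • P - ε • P) = (ε * (q : ℤ)) • (φ • P - ε • P)

theorem SteinbergRel.smul {A : ValuationSubring Qb} {q : ℕ} {ε : ℤ} (hq : q.Prime)
    (hA : A.LiesOverPrime q) (h : SteinbergRel W A q ε) (g : Qb ≃ₐ[ℚ] Qb) :
    SteinbergRel W (g • A) q ε := by
  intro m hm hqm φ hφ P hmP
  rw [Bridge.isFrobeniusAt_smul_iff hq hA] at hφ
  obtain ⟨h1, h2, h3⟩ := h m hm hqm _ hφ (g⁻¹ • P) (tors_gal_smul W g⁻¹ hmP)
  have e1 : ∀ (σ : Qb ≃ₐ[ℚ] Qb) (X : (EQb W).Point), (g⁻¹ * σ * g) • g⁻¹ • X = g⁻¹ • σ • X := by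
    intro σ X
    rw [mul_smul, mul_smul, smul_inv_smul]
  refine ⟨fun τ hτ => ?_, fun τ hτ => ?_, ?_⟩
  · rw [Bridge.mem_inertia_smul_iff hq hA] at hτ
    have := h1 _ hτ
    rw [e1, ← gal_sub_EQb, e1, ← gal_zsmul_EQb] at this
    exact smul_left_cancel _ this
  · rw [Bridge.mem_inertia_smul_iff hq hA] at hτ
    have := h2 _ hτ
    rw [e1, ← gal_zsmul_EQb, ← gal_sub_EQb, e1] at this
    exact smul_left_cancel _ this
  · rw [e1, ← gal_zsmul_EQb, ← gal_sub_EQb, e1, ← gal_zsmul_EQb] at h3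
    exact smul_left_cancel _ h3

/-- **[E-ST]**, with a sign independent of the place above `q`. -/
theorem exists_steinberg_all {q : ℕ} (hq : q.Prime) (hΔ0 : W.Δ ≠ 0)
    (hΔ : (q : ℤ) ∣ W.Δ) (hc₄ : ¬ (q : ℤ) ∣ W.c₄) :
    ∃ ε : ℤ, (ε = 1 ∨ ε = -1) ∧ ∀ A : ValuationSubring Qb, A.LiesOverPrime q →
      ∀ m : ℕ, Odd m → ¬ q ∣ m → ∀ φ : Qb ≃ₐ[ℚ] Qb,
      A.IsFrobeniusAt φ q → ∀ P : (EQb W).Point, m • P = 0 →
      (∀ τ ∈ A.inertiaSubgroupIn ℚ, φ • (τ • P - P) = (ε * (q : ℤ)) • (τ • P - P)) ∧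
      (∀ τ ∈ A.inertiaSubgroupIn ℚ, τ • (φ • P - ε • P) = φ • P - ε • P) ∧
      φ • (φ • P - ε • P) = (ε * (q : ℤ)) • (φ • P - ε • P) := by
  by_cases hex : ∃ A₀ : ValuationSubring Qb, A₀.LiesOverPrime q
  · obtain ⟨A₀, hA₀⟩ := hex
    obtain ⟨ε, hε, h⟩ := exists_steinberg W hq hΔ0 hΔ hc₄ A₀ hA₀
    refine ⟨ε, hε, fun A hA => ?_⟩
    obtain ⟨g, rfl⟩ := Bridge.exists_smul_eq hq hA₀ hA
    exact SteinbergRel.smul W hq hA₀ h g
  · exact ⟨1, Or.inl rfl, fun A hA => absurd ⟨A, hA⟩ hex⟩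

end Fermat.Agent.ML.ESide
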