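import Fermat.Agent.ML.ESide.Res
import Fermat.Agent.ML.Rho.ES

/-!
# ML / E-side : `W[m]`, `m` odd, as an Eichler–Shimura module; the matrix representation in a basis over `ℤ/m`

* `esW` : **[ES-E]** `ESMod S (TorsW W m)`, `T r = a_r(W)`;
* `rhoEndK`, `rEB B : GQ →* M₂ (ZMod m)` for a basis `B` of `W[m]` over `ZMod m`, with the API of `rbarB`
  (`rEB_mulVec`, `rEB_eq_one_iff`, `rEB_cont`, `rEB_unram`, `rEB_unip`, `rEB_frob_quad`).
-/

set_option autoImplicit false

namespace Fermat.Agent.ML.ESide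

open Fermat.Agent.GAL Fermat.Agent.RIB.Rho

local notation "Qbar" => AlgebraicClosure ℚ
local notation "GQ" => (AlgebraicClosure ℚ ≃ₐ[ℚ] AlgebraicClosure ℚ)
local notation "M₂" => Matrix (Fin 2) (Fin 2)

variable (W : WeierstrassCurve ℤ)

/-- `φ + r φ⁻¹ = a_r` on `W[m]`. -/
theorem torsW_es {m : ℕ} (hm : Odd m) {r : ℕ} (hr : r.Prime) (hgood : W.IsGoodPrimeFor r)
    (hcop : Nat.Coprime m r) (A : ValuationSubring Qbar) (hA : A.LiesOverPrime r) (φ : GQ)
    (hφ : A.IsFrobeniusAt φ r) (v : TorsW W m) :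
    W.apOfModel r • v = φ • v + r • φ⁻¹ • v := by
  have hv : m • (φ⁻¹ • (v : S58.EQ W)) = 0 := nsmul_coe_torsW W (φ⁻¹ • v)
  have h := S58.frobenius_relation_odd W hr hgood hm hcop A hA φ hφ (φ⁻¹ • (v : S58.EQ W)) hv
  rw [smul_inv_smul] at h
  apply Subtype.ext
  show W.apOfModel r • (v : S58.EQ W) = φ • (v : S58.EQ W) + r • φ⁻¹ • (v : S58.EQ W)
  rw [← natCast_zsmul (φ⁻¹ • (v : S58.EQ W)) r]
  have h' := sub_eq_zero.1 (show φ • (v : S58.EQ W) + (r : ℤ) • φ⁻¹ • (v : S58.EQ W)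
      - W.apOfModel r • (v : S58.EQ W) = 0 by rw [← h]; abel)
  exact h'.symm

/-- **[ES-E]** `W[m]` is an Eichler–Shimura module with `T r = a_r(W)`. -/
noncomputable def esW {m : ℕ} (hm : Odd m) (S : Finset ℕ)
    (hS : ∀ r : ℕ, r.Prime → r ∉ S → W.IsGoodPrimeFor r ∧ Nat.Coprime m r) :
    ESMod S (TorsW W m) where
  T r := algebraMap ℤ (Module.End ℤ (TorsW W m)) (W.apOfModel r)
  comm r g v := by
    rw [Module.algebraMap_end_apply, Module.algebraMap_end_apply, smul_comm]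
  level := exists_level_torsW W hm
  es r hr A hA φ hφ v := by
    rw [Module.algebraMap_end_apply]
    exact torsW_es W hm r.2 (hS r r.2 hr).1 (hS r r.2 hr).2 A hA φ hφ v

theorem esW_T_apply {m : ℕ} (hm : Odd m) (S : Finset ℕ)
    (hS : ∀ r : ℕ, r.Prime → r ∉ S → W.IsGoodPrimeFor r ∧ Nat.Coprime m r) (r : Nat.Primes)
    (v : TorsW W m) : (esW W hm S hS).T r v = W.apOfModel r • v :=
  Module.algebraMap_end_apply _ _ _ _ _

theorem esW_nil {m : ℕ} (hm : Odd m) (S : Finset ℕ)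
    (hS : ∀ r : ℕ, r.Prime → r ∉ S → W.IsGoodPrimeFor r ∧ Nat.Coprime m r) (r : Nat.Primes)
    (v : TorsW W m) :
    (((esW W hm S hS).T r - algebraMap ℤ (Module.End ℤ (TorsW W m)) (W.apOfModel r)) ^ 1) v = 0 := by
  rw [pow_one]
  show (algebraMap ℤ (Module.End ℤ (TorsW W m)) (W.apOfModel r)
    - algebraMap ℤ (Module.End ℤ (TorsW W m)) (W.apOfModel r)) v = 0
  rw [sub_self, LinearMap.zero_apply]

variable (m : ℕ)

/-- the Galois action as a `ZMod m`-linear map -/
noncomputable def rhoLinK (σ : GQ) : TorsW W m →ₗ[ZMod m] TorsW W m :=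
  (DistribSMul.toAddMonoidHom (TorsW W m) σ).toZModLinearMap m

@[simp] lemma rhoLinK_apply (σ : GQ) (x : TorsW W m) : rhoLinK W m σ x = σ • x := rfl

/-- the Galois action on `W[m]` as a monoid hom to the endomorphism ring -/
noncomputable def rhoEndK : GQ →* Module.End (ZMod m) (TorsW W m) where
  toFun σ := rhoLinK W m σ
  map_one' := by ext x; simp
  map_mul' σ τ := by ext x; simp [mul_smul]

@[simp] lemma rhoEndK_apply (σ : GQ) (x : TorsW W m) : rhoEndK W m σ x = σ • x := rfl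

variable {W m}

/-- the matrix representation attached to a basis of `W[m]` over `ℤ/m` -/
noncomputable def rEB (B : Module.Basis (Fin 2) (ZMod m) (TorsW W m)) : GQ →* M₂ (ZMod m) :=
  ((LinearMap.toMatrixAlgEquiv B).toAlgHom.toRingHom.toMonoidHom).comp (rhoEndK W m)

variable (B : Module.Basis (Fin 2) (ZMod m) (TorsW W m))

lemma rEB_apply (σ : GQ) : rEB B σ = LinearMap.toMatrixAlgEquiv B (rhoEndK W m σ) := rfl

lemma rEB_entry (σ : GQ) (i j : Fin 2) : rEB B σ i j = B.repr (σ • B j) i := by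
  rw [rEB_apply, LinearMap.toMatrixAlgEquiv_apply, rhoEndK_apply]

lemma rEB_eq_one_iff (σ : GQ) : rEB B σ = 1 ↔ ∀ x : TorsW W m, σ • x = x := by
  rw [rEB_apply, ← map_one (LinearMap.toMatrixAlgEquiv B),
    (LinearMap.toMatrixAlgEquiv B).injective.eq_iff]
  constructor
  · intro h x
    have := congrArg (fun f => f x) h
    simpa using this
  · intro h
    ext x
    simp [h x]

lemma rEB_mulVec (σ : GQ) (x : TorsW W m) :
    (rEB B σ).mulVec (B.repr x) = B.repr (σ • x) := by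
  rw [rEB_apply]
  exact LinearMap.toMatrix_mulVec_repr B B (rhoEndK W m σ) x

/-- transport of an identity between endomorphisms to matrices -/
lemma toMatK_eq_zero {f : Module.End (ZMod m) (TorsW W m)} (h : ∀ x, f x = 0) :
    LinearMap.toMatrixAlgEquiv B f = 0 := by
  have : f = 0 := by ext x; simp [h x]
  rw [this, _root_.map_zero]

lemma toMatK_quad (f : Module.End (ZMod m) (TorsW W m)) (a c : ZMod m) :
    LinearMap.toMatrixAlgEquiv B f * LinearMap.toMatrixAlgEquiv B f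
      - a • LinearMap.toMatrixAlgEquiv B f + c • 1
    = LinearMap.toMatrixAlgEquiv B (f * f - a • f + c • 1) := by
  rw [map_add, map_sub, map_mul, map_smul, map_smul, map_one]

/-- **[TRANSFER]** a `ℤ/m`-linear relation between group elements on `W[m]` holds for the matrices. -/
theorem rEB_sum_eq_zero {ι : Type*} (s : Finset ι) (c : ι → ZMod m) (g : ι → GQ)
    (h : ∀ x : TorsW W m, ∑ i ∈ s, c i • g i • x = 0) : ∑ i ∈ s, c i • rEB B (g i) = 0 := by
  have : ∑ i ∈ s, c i • rEB B (g i)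
      = LinearMap.toMatrixAlgEquiv B (∑ i ∈ s, c i • rhoEndK W m (g i)) := by
    rw [map_sum]
    exact Finset.sum_congr rfl fun i _ => by rw [map_smul, rEB_apply]
  rw [this]
  apply toMatK_eq_zero
  intro x
  rw [LinearMap.sum_apply, ← h x]
  exact Finset.sum_congr rfl fun i _ => by rw [LinearMap.smul_apply, rhoEndK_apply]

/-- finite level -/
theorem rEB_cont (hm : Odd m) : GaloisFactorsThroughFiniteLevel (rEB B) := by
  obtain ⟨L, hL, h⟩ := exists_level_torsW W hm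
  exact ⟨L, hL, fun σ hσ => (rEB_eq_one_iff B σ).2 (h σ hσ)⟩

/-- unramified at the good primes `q ∤ m`. -/
theorem rEB_unram (hm : Odd m) {q : ℕ} (hq : q.Prime) (hcop : Nat.Coprime m q)
    (hgood : W.IsGoodPrimeFor q)
    (A : ValuationSubring Qbar) (hA : A.LiesOverPrime q) {σ : GQ}
    (hσ : σ ∈ A.inertiaSubgroupIn ℚ) : rEB B σ = 1 := by
  rw [rEB_eq_one_iff]
  intro x
  exact Subtype.ext (S58.inertia_good W hq hgood hm hcop A hA σ hσ
    (x : S58.EQ W) (nsmul_coe_torsW W x))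

/-- inertia at `q ∤ m` is unipotent (strong form) at a prime of good or multiplicative reduction. -/
theorem rEB_unip (hΔ : W.Δ ≠ 0) (hm : Odd m) {q : ℕ} (hq : q.Prime) (hcop : Nat.Coprime m q)
    (hss : (q : ℤ) ∣ W.Δ → ¬ (q : ℤ) ∣ W.c₄)
    (A : ValuationSubring Qbar) (hA : A.LiesOverPrime q) {σ τ : GQ}
    (hσ : σ ∈ A.inertiaSubgroupIn ℚ) (hτ : τ ∈ A.inertiaSubgroupIn ℚ) :
    (rEB B τ - 1) * (rEB B σ - 1) = 0 := by
  rw [rEB_apply, rEB_apply, ← map_one (LinearMap.toMatrixAlgEquiv B), ← map_sub,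
    ← map_sub, ← map_mul]
  apply toMatK_eq_zero
  intro x
  have := S58.inertia_unipotent W hq hΔ hss hm hcop A hA σ τ hσ hτ
    (x : S58.EQ W) (nsmul_coe_torsW W x)
  simp only [Module.End.mul_apply, LinearMap.sub_apply, rhoEndK_apply, Module.End.one_apply]
  apply Subtype.ext
  show τ • (σ • (x : S58.EQ W) - x) - (σ • (x : S58.EQ W) - x) = 0
  rw [this, sub_self]

/-- the quadratic relation of a Frobenius at a good prime `ℓ ∤ m` (`ℓ = 2` allowed). -/
theorem rEB_frob_quad (hm : Odd m) {ℓ : ℕ} (hℓ : ℓ.Prime) (hgood : W.IsGoodPrimeFor ℓ)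
    (hcop : Nat.Coprime m ℓ) (A : ValuationSubring Qbar) (hA : A.LiesOverPrime ℓ) (τ : GQ)
    (hτ : A.IsFrobeniusAt τ ℓ) :
    rEB B τ * rEB B τ - ((W.apOfModel ℓ : ℤ) : ZMod m) • rEB B τ + ((ℓ : ℕ) : ZMod m) • 1 = 0 := by
  rw [rEB_apply, toMatK_quad]
  apply toMatK_eq_zero
  intro x
  have h := S58.frobenius_relation_odd W hℓ hgood hm hcop A hA τ hτ
    (x : S58.EQ W) (nsmul_coe_torsW W x)
  simp only [LinearMap.add_apply, LinearMap.sub_apply, Module.End.mul_apply, LinearMap.smul_apply,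
    rhoEndK_apply, Module.End.one_apply]
  rw [Int.cast_smul_eq_zsmul, Nat.cast_smul_eq_nsmul, ← natCast_zsmul]
  exact Subtype.ext h

end Fermat.Agent.ML.ESide
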