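import Fermat.Agent.ML.Main.Cell
import Fermat.Agent.ML.ESide.NodeMain

/-!
# ML / ESide / UnipE : [E-UNIP]  the inertia groups at the bad primes `q ≠ p` act unipotently on `W[p^K]`

`SignE` (`ML/Main/Cell.lean`) contains only `LocSt q (eps q)`, and `LocSt` does NOT imply `LocUnip` when `q ≡ 1 mod p`
(semi-hard and hard primes).  The `E`-side of (GEN) needs it at the primes where `rbar0` is ramified (`min`) and at the raised primes.

* `locUnip_EQ` : `LocUnip q {x : EQ W | p^K x = 0}`  (from helper76's `ESide.steinberg_structure`);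
* `locUnip_sq_EQ` : `τ τ x - 2 τ x + x = 0`;
* `locUr_EQ` : `LocUr q {x : EQ W | p^K x = 0}` at the good primes `q ≠ p` (`q = 2` allowed; `S58.inertia_good`);
* `locUnip_EQ_all` : `LocUnip q` at every prime `q ≠ p`.
(matrix forms : `ESide.rEB_unram`, `ESide.rEB_unip`.)
-/

set_option autoImplicit false

noncomputable section

namespace Fermat.Agent.ML

local notation "Qbar" => AlgebraicClosure ℚ
local notation "GQ" => (AlgebraicClosure ℚ ≃ₐ[ℚ] AlgebraicClosure ℚ)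

/-- **[E-UNIP]**, any odd `m` prime to `q`. -/
theorem locUnip_EQ_of_odd (W : WeierstrassCurve ℤ) (hΔ0 : W.Δ ≠ 0) {q : ℕ} (hq : q.Prime)
    (hΔ : (q : ℤ) ∣ W.Δ) (hc₄ : ¬ (q : ℤ) ∣ W.c₄) {m : ℕ} (hm : Odd m) (hqm : ¬ q ∣ m) :
    LocUnip q {x : S58.EQ W | m • x = 0} := by
  intro A hA τ hτ τ' hτ' x hx
  obtain ⟨ε, -, h⟩ := ESide.steinberg_structure W hΔ0 hq hΔ hc₄ A hA
  obtain ⟨c, -, hc, -, hI, -⟩ := h m hm hqm
  obtain ⟨j, hj⟩ := hI x hx τ hτ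
  rw [hj]
  have e : τ' • (j • c) = j • τ' • c := map_nsmul (DistribSMul.toAddMonoidHom (S58.EQ W) τ') j c
  rw [e, hc τ' hτ']

/-- **[E-UNIP]** in the frame of `ML/Main/Cell.lean`. -/
theorem locUnip_EQ {W : WeierstrassCurve ℤ} {p : ℕ} (H : Hyp59 W p) {q : ℕ} (hq : q.Prime)
    (hqp : q ≠ p) (hqΔ : (q : ℤ) ∣ W.Δ) (K : ℕ) : LocUnip q {x : S58.EQ W | p ^ K • x = 0} :=
  locUnip_EQ_of_odd W H.hΔ hq hqΔ (H.hss q hq hqΔ) H.odd.pow fun hd =>
    hqp ((Nat.prime_dvd_prime_iff_eq hq H.prime).1 (hq.dvd_of_dvd_pow hd))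

/-- `(τ - 1)² = 0` on `W[p^K]`. -/
theorem locUnip_sq_EQ {W : WeierstrassCurve ℤ} {p : ℕ} (H : Hyp59 W p) {q : ℕ} (hq : q.Prime)
    (hqp : q ≠ p) (hqΔ : (q : ℤ) ∣ W.Δ) (K : ℕ) (A : ValuationSubring Qbar)
    (hA : A.LiesOverPrime q) (τ : GQ) (hτ : τ ∈ A.inertiaSubgroupIn ℚ) (x : S58.EQ W)
    (hx : p ^ K • x = 0) : τ • τ • x - 2 • τ • x + x = 0 := by
  have h := locUnip_EQ H hq hqp hqΔ K A hA τ hτ τ hτ x hx
  have e : τ • (τ • x - x) = τ • τ • x - τ • x :=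
    map_sub (DistribSMul.toAddMonoidHom (S58.EQ W) τ) (τ • x) x
  rw [e] at h
  have h2 : τ • τ • x = τ • x - x + τ • x := by rw [← h]; abel
  rw [h2, two_nsmul]
  abel

/-- **[E-UR]** : `W[p^K]` is unramified at the good primes `q ≠ p`. -/
theorem locUr_EQ {W : WeierstrassCurve ℤ} {p : ℕ} (H : Hyp59 W p) {q : ℕ} (hq : q.Prime)
    (hqp : q ≠ p) (hgood : ¬ (q : ℤ) ∣ W.Δ) (K : ℕ) : LocUr q {x : S58.EQ W | p ^ K • x = 0} :=
  fun A hA τ hτ x hx => S58.inertia_good W hq hgood H.odd.pow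
    (Nat.Coprime.pow_left K ((Nat.coprime_primes H.prime hq).2 (Ne.symm hqp))) A hA τ hτ x hx

/-- `LocUnip q` on `W[p^K]` at every prime `q ≠ p`. -/
theorem locUnip_EQ_all {W : WeierstrassCurve ℤ} {p : ℕ} (H : Hyp59 W p) {q : ℕ} (hq : q.Prime)
    (hqp : q ≠ p) (K : ℕ) : LocUnip q {x : S58.EQ W | p ^ K • x = 0} :=
  fun A hA τ hτ τ' hτ' x hx => S58.inertia_unipotent W hq H.hΔ (H.hss q hq) H.odd.pow
    (Nat.Coprime.pow_left K ((Nat.coprime_primes H.prime hq).2 (Ne.symm hqp))) A hA τ τ' hτ hτ' x hx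

end Fermat.Agent.ML
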